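import Fermat.Agent.ECLocal.ValBasic
import Fermat.Prelude.Def_FLTPrelim_Ramification
import Mathlib.RingTheory.Algebraic.Basic

/-!
# Automorphisms acting inertially on a valuation subring
-/

set_option autoImplicit false

universe u

namespace FermatAgent.ECLocal

variable {L : Type u} [Field L]

/-- `σ` preserves the valuation and induces the identity on the residue field. -/
structure ActsInertially (A : ValuationSubring L) (σ : L →+* L) : Prop where
  val_map : ∀ x : L, A.valuation (σ x) = A.valuation x
  val_map_sub : ∀ x : L, x ∈ A → A.valuation (σ x - x) < 1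

namespace ActsInertially

variable {A : ValuationSubring L} {σ : L →+* L}

/-- An automorphism acting inertially preserves the ring. -/
lemma mem_iff (h : ActsInertially A σ) {x : L} : σ x ∈ A ↔ x ∈ A := by
  rw [← A.valuation_le_one_iff, ← A.valuation_le_one_iff, h.val_map]

/-- An automorphism acting inertially fixes residues. -/
lemma residue_eq (h : ActsInertially A σ) {x : L} (hx : x ∈ A) :
    IsLocalRing.residue A ⟨σ x, h.mem_iff.mpr hx⟩ = IsLocalRing.residue A ⟨x, hx⟩ :=
  (residue_eq_residue_iff A _ _).mpr (h.val_map_sub x hx)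

/-- An inertially acting map moves an element with the value of a fixed element by less than
that value. -/
lemma val_map_sub_lt_self (h : ActsInertially A σ) {π U : L} (hπ : σ π = π)
    (hU : A.valuation U = A.valuation π) (hU0 : U ≠ 0) :
    A.valuation (σ U - U) < A.valuation U := by
  have hπ0 : π ≠ 0 := fun h0 => hU0 (A.valuation.zero_iff.mp (by rw [hU, h0, map_zero]))
  have hw : A.valuation (U / π) = 1 := by
    rw [map_div₀, hU, div_self ((Valuation.ne_zero_iff _).mpr hπ0)]
  have h1 := h.val_map_sub (U / π) (A.mem_of_valuation_le_one _ hw.le)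
  rw [map_div₀ σ, hπ, ← sub_div, map_div₀, ← hU,
    div_lt_one₀ (zero_lt_iff.mpr ((Valuation.ne_zero_iff _).mpr hU0))] at h1
  exact h1

end ActsInertially

variable {S : Type*} [Field S] [Algebra S L] [Algebra.IsAlgebraic S L]

open scoped Pointwise

lemma exists_pow_apply_eq (σ : L ≃ₐ[S] L) (x : L) : ∃ n : ℕ, 0 < n ∧ (σ ^ n) x = x := by
  have hx : IsAlgebraic S x := Algebra.IsAlgebraic.isAlgebraic x
  obtain ⟨p, hp0, hp⟩ := hx
  have hmap : p.map (algebraMap S L) ≠ 0 :=
    (Polynomial.map_ne_zero_iff (algebraMap S L).injective).mpr hp0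
  have hsub : Set.range (fun n : ℕ => (σ ^ n) x) ⊆ {y | (p.map (algebraMap S L)).IsRoot y} := by
    rintro _ ⟨n, rfl⟩
    show (p.map (algebraMap S L)).eval ((σ ^ n) x) = 0
    rw [Polynomial.eval_map, ← Polynomial.aeval_def, Polynomial.aeval_algHom_apply, hp, map_zero]
  have hfin := (Polynomial.finite_setOfPred_isRoot hmap).subset hsub
  have hni : ¬Function.Injective (fun n : ℕ => (σ ^ n) x) := fun hi =>
    Set.infinite_range_of_injective hi hfin
  simp only [Function.Injective, not_forall] at hni
  obtain ⟨i, j, hij, hne⟩ := hni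
  wlog hlt : i < j generalizing i j
  · exact this j i hij.symm (Ne.symm hne) (by omega)
  refine ⟨j - i, by omega, (σ ^ i).injective ?_⟩
  rw [← AlgEquiv.mul_apply, ← pow_add, show i + (j - i) = j by omega, ← hij]

/-- The decomposition group preserves the valuation. -/
lemma valuation_map_of_mem_decomposition (A : ValuationSubring L) (σ : L ≃ₐ[S] L)
    (hσ : σ ∈ A.decompositionSubgroup S) (x : L) : A.valuation (σ x) = A.valuation x := by
  have hmem : ∀ y : L, σ y ∈ A ↔ y ∈ A := fun y => by
    have h : σ • A = A := hσ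
    constructor
    · intro hy
      rw [← h] at hy
      exact ValuationSubring.smul_mem_pointwise_smul_iff.mp hy
    · intro hy
      rw [← h]
      exact ValuationSubring.smul_mem_pointwise_smul_iff.mpr hy
  by_cases hx : x = 0
  · rw [hx, map_zero]
  have hσx : σ x ≠ 0 := by simpa using hx
  -- `σ` preserves the ordering
  have hmono : ∀ a b : L, b ≠ 0 → A.valuation a ≤ A.valuation b →
      A.valuation (σ a) ≤ A.valuation (σ b) := by
    intro a b hb h
    have h' : a / b ∈ A := A.mem_of_valuation_le_one _ (by
      rw [map_div₀, div_le_one₀ (zero_lt_iff.mpr ((Valuation.ne_zero_iff _).mpr hb))]; exact h)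
    have h2 := (A.valuation_le_one_iff _).mpr ((hmem _).mpr h')
    rw [map_div₀ σ, map_div₀,
      div_le_one₀ (zero_lt_iff.mpr ((Valuation.ne_zero_iff _).mpr (by simpa using hb)))] at h2
    exact h2
  obtain ⟨n, hn, hper⟩ := exists_pow_apply_eq σ x
  have hne : ∀ k : ℕ, (σ ^ k) x ≠ 0 := fun k h =>
    hx ((σ ^ k).injective (h.trans (map_zero _).symm))
  rcases le_total (A.valuation (σ x)) (A.valuation x) with h | h
  · refine le_antisymm h ?_
    have hstep : ∀ k : ℕ, A.valuation ((σ ^ (k + 1)) x) ≤ A.valuation ((σ ^ k) x) := by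
      intro k
      induction k with
      | zero => simpa using h
      | succ k ih =>
        have := hmono _ _ (hne k) ih
        rwa [← AlgEquiv.mul_apply, ← AlgEquiv.mul_apply, ← pow_succ', ← pow_succ'] at this
    have hanti : Antitone fun k : ℕ => A.valuation ((σ ^ k) x) := antitone_nat_of_succ_le hstep
    have := hanti (show 1 ≤ n by omega)
    simpa [hper] using this
  · refine le_antisymm ?_ h
    have hstep : ∀ k : ℕ, A.valuation ((σ ^ k) x) ≤ A.valuation ((σ ^ (k + 1)) x) := by
      intro k
      induction k with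
      | zero => simpa using h
      | succ k ih =>
        have := hmono _ _ (hne (k + 1)) ih
        rwa [← AlgEquiv.mul_apply, ← AlgEquiv.mul_apply, ← pow_succ', ← pow_succ'] at this
    have hmonot : Monotone fun k : ℕ => A.valuation ((σ ^ k) x) := monotone_nat_of_le_succ hstep
    have := hmonot (show 1 ≤ n by omega)
    simpa [hper] using this

/-- Inertia acts inertially. -/
lemma actsInertially_of_mem (A : ValuationSubring L) (σ : L ≃ₐ[S] L)
    (hσ : σ ∈ A.inertiaSubgroupIn S) : ActsInertially A (σ : L →+* L) := by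
  obtain ⟨τ, hτ, rfl⟩ := Subgroup.mem_map.mp hσ
  refine ⟨fun x => valuation_map_of_mem_decomposition A _ τ.2 x, fun x hx => ?_⟩
  have h1 := DFunLike.congr_fun (MonoidHom.mem_ker.mp hτ) (IsLocalRing.residue A ⟨x, hx⟩)
  have h2 : IsLocalRing.residue A (τ • (⟨x, hx⟩ : A)) = IsLocalRing.residue A ⟨x, hx⟩ := h1
  exact (residue_eq_residue_iff A _ _).mp h2

end FermatAgent.ECLocal
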