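import Fermat.Agent.ECLocal.Reduction

/-!
# The reduction homomorphism

The points with nonsingular reduction (`IsE0`) form a subgroup, on which reduction is a
homomorphism whose kernel consists of the points with nonintegral coordinates (`IsE1`).
-/

set_option autoImplicit false

universe u

namespace FermatAgent.ECLocal

open WeierstrassCurve
open scoped WeierstrassCurve.Projective

variable {K : Type u} [Field K] {A : ValuationSubring K} {W : WeierstrassCurve A}

/-- `P` reduces to a nonsingular point. -/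
def IsE0 (P : (gen W).toAffine.Point) : Prop := (spc W).toProjective.Nonsingular (repk P)

/-- `P` reduces to the point at infinity. -/
def IsE1 (P : (gen W).toAffine.Point) : Prop := repk P 2 = 0

/-- The reduction of a point (zero if the reduction is singular). -/
noncomputable def red (P : (gen W).toAffine.Point) : (spc W).toAffine.Point :=
  Projective.Point.toAffine (spc W).toProjective (repk P)

/-- The origin lies in the kernel of reduction. -/
lemma isE1_zero : IsE1 (W := W) 0 := by rw [IsE1, repk_zero]; rfl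

/-- An affine point lies in the kernel of reduction iff `x` has a pole. -/
lemma isE1_some_iff {x y : K} (h : (gen W).toAffine.Nonsingular x y) :
    IsE1 (.some x y h) ↔ x ∉ A := by
  by_cases hx : x ∈ A
  · rw [IsE1, repk_some_mem h hx]; simp [hx]
  · rw [IsE1, repk_some_not_mem h hx]; simp [hx]

lemma repk_of_isE1 {P : (gen W).toAffine.Point} (hP : IsE1 P) : repk P = ![0, 1, 0] := by
  rcases P with _ | ⟨x, y, h⟩
  · exact repk_zero
  · exact repk_some_not_mem h ((isE1_some_iff h).mp hP)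

/-- The kernel of reduction has nonsingular reduction. -/
lemma IsE1.isE0 {P : (gen W).toAffine.Point} (hP : IsE1 P) : IsE0 P := by
  rw [IsE0, repk_of_isE1 hP]; exact Projective.nonsingular_zero

/-- The kernel of reduction reduces to the origin. -/
lemma IsE1.red_eq_zero {P : (gen W).toAffine.Point} (hP : IsE1 P) : red P = 0 :=
  Projective.Point.toAffine_of_Z_eq_zero hP

/-- The origin has nonsingular reduction. -/
lemma isE0_zero : IsE0 (W := W) 0 := isE1_zero.isE0

/-- The origin reduces to the origin. -/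
lemma red_zero : red (W := W) 0 = 0 := isE1_zero.red_eq_zero

/-- An integral point has nonsingular reduction iff its residue is nonsingular. -/
lemma isE0_some_iff_of_mem {x y : K} (h : (gen W).toAffine.Nonsingular x y) (hx : x ∈ A) :
    IsE0 (.some x y h) ↔ (spc W).toAffine.Nonsingular (IsLocalRing.residue A ⟨x, hx⟩)
      (IsLocalRing.residue A ⟨y, y_mem_of_x_mem h.1 hx⟩) := by
  rw [IsE0, repk_some_mem h hx, Projective.nonsingular_some]

/-- An integral point reduces to its residue. -/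
lemma red_some_of_mem {x y : K} (h : (gen W).toAffine.Nonsingular x y) (hx : x ∈ A)
    (h0 : IsE0 (.some x y h)) :
    red (.some x y h) = .some _ _ ((isE0_some_iff_of_mem h hx).mp h0) := by
  have hh : (spc W).toProjective.Nonsingular ![IsLocalRing.residue A ⟨x, hx⟩,
      IsLocalRing.residue A ⟨y, y_mem_of_x_mem h.1 hx⟩, 1] := by
    rw [← repk_some_mem h hx]; exact h0
  rw [← Projective.Point.toAffine_some hh, red, repk_some_mem h hx]

/-- A point reduces to the origin iff it lies in the kernel of reduction. -/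
lemma red_eq_zero_iff {P : (gen W).toAffine.Point} (h0 : IsE0 P) : red P = 0 ↔ IsE1 P := by
  refine ⟨fun hP => by_contra fun h1 => ?_, IsE1.red_eq_zero⟩
  rcases P with _ | ⟨x, y, h⟩
  · exact h1 isE1_zero
  · rw [isE1_some_iff, not_not] at h1
    rw [red_some_of_mem h h1 h0] at hP
    exact Affine.Point.some_ne_zero _ hP

/-- Reduction commutes with negation. -/
lemma IsE0.neg {P : (gen W).toAffine.Point} (h0 : IsE0 P) : IsE0 (-P) ∧ red (-P) = -red P := by
  rcases P with _ | ⟨x, y, h⟩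
  · rw [← Affine.Point.zero_def, Affine.Point.neg_zero, red_zero, Affine.Point.neg_zero]
    exact ⟨isE0_zero, rfl⟩
  · rw [Affine.Point.neg_some]
    have h' : (gen W).toAffine.Nonsingular x ((gen W).toAffine.negY x y) :=
      (Affine.nonsingular_neg ..).mpr h
    by_cases hx : x ∈ A
    · have hy := y_mem_of_x_mem h.1 hx
      have e : IsLocalRing.residue A ⟨(gen W).toAffine.negY x y, y_mem_of_x_mem h'.1 hx⟩
          = (spc W).toAffine.negY (IsLocalRing.residue A ⟨x, hx⟩)
              (IsLocalRing.residue A ⟨y, hy⟩) := by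
        rw [Affine.map_negY]
        congr 1
      have hns := (Affine.nonsingular_neg ..).mpr ((isE0_some_iff_of_mem h hx).mp h0)
      have h0' : IsE0 (.some x _ h') := by
        rw [isE0_some_iff_of_mem h' hx]; simp only [e]; exact hns
      refine ⟨h0', ?_⟩
      rw [red_some_of_mem h' hx h0', red_some_of_mem h hx h0, Affine.Point.neg_some]
      simp only [e]
    · have h1 : IsE1 (.some x _ h') := (isE1_some_iff h').mpr hx
      refine ⟨h1.isE0, ?_⟩
      rw [h1.red_eq_zero, ((isE1_some_iff h).mpr hx).red_eq_zero, Affine.Point.neg_zero]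

/-- The kernel of reduction is closed under negation. -/
lemma IsE1.neg {P : (gen W).toAffine.Point} (h : IsE1 P) : IsE1 (-P) :=
  (red_eq_zero_iff h.isE0.neg.1).mp (by rw [h.isE0.neg.2, h.red_eq_zero, Affine.Point.neg_zero])

lemma coe_addX (X₁ X₂ L : A) :
    ((W.toAffine.addX X₁ X₂ L : A) : K) = (gen W).toAffine.addX (X₁ : K) (X₂ : K) (L : K) := by
  simp [Affine.addX]

lemma coe_addY (X₁ X₂ Y₁ L : A) :
    ((W.toAffine.addY X₁ X₂ Y₁ L : A) : K)
      = (gen W).toAffine.addY (X₁ : K) (X₂ : K) (Y₁ : K) (L : K) := by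
  simp [Affine.addY, Affine.negY, Affine.negAddY, Affine.addX]

variable [DecidableEq K]

/-- The kernel of reduction is closed under addition. -/
lemma IsE1.add {P Q : (gen W).toAffine.Point} (hP : IsE1 P) (hQ : IsE1 Q) : IsE1 (P + Q) := by
  by_contra hR
  have hQ' : repk (-Q) 2 = 0 := hQ.neg
  have hne : ¬repk (P + Q) ≈ repk (-Q) := Projective.not_equiv_of_Z_eq_zero_right hR hQ'
  have hy : repk (-Q) 1 = 1 := by rw [repk_of_isE1 hQ.neg]; rfl
  have he : (spc W).toProjective.Equation (repk (-Q)) := hQ.neg.isE0.1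
  have hsum := Projective.addXYZ_of_Z_eq_zero_right (P := repk (P + Q)) he hQ'
  have hu : -(repk (-Q) 1 ^ 2 * repk (P + Q) 2) ≠ 0 := by
    rw [hy, one_pow, one_mul, neg_ne_zero]; exact hR
  have h0 : (spc W).toProjective.addXYZ (repk (P + Q)) (repk (-Q)) ≠ 0 := by
    rw [hsum]; exact smul_ne_zero hu (repk_ne_zero _)
  have h2 := addXYZ_repk_equiv hne h0
  rw [hsum, add_neg_cancel_right] at h2
  have h3 := (Projective.Z_eq_zero_of_equiv h2).mpr hP
  simp only [Pi.smul_apply, smul_eq_mul, mul_eq_zero] at h3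
  exact h3.elim hu hR

variable [DecidableEq (IsLocalRing.ResidueField A)]

lemma red_add_of_not_equiv {P Q : (gen W).toAffine.Point} (hP : IsE0 P) (hQ : IsE0 Q)
    (h : ¬repk P ≈ repk Q) : IsE0 (P + Q) ∧ red (P + Q) = red P + red Q := by
  have hn := Projective.nonsingular_add hP hQ
  rw [Projective.add_of_not_equiv h] at hn
  have h0 : (spc W).toProjective.addXYZ (repk P) (repk Q) ≠ 0 := fun h0 => by
    rw [h0, Projective.nonsingular_iff] at hn
    simp at hn
  have he := addXYZ_repk_equiv h h0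
  refine ⟨(Projective.nonsingular_of_equiv he).mp hn, ?_⟩
  rw [red, ← Projective.Point.toAffine_of_equiv he, ← Projective.add_of_not_equiv h,
    Projective.Point.toAffine_add hP hQ]
  rfl

/-- An identity for the slope of the chord or tangent. -/
lemma slope_mul_add_eq {F : Type*} [Field F] [DecidableEq F] (V : Affine F) {x₁ x₂ y₁ y₂ : F}
    (h₁ : V.Equation x₁ y₁) (h₂ : V.Equation x₂ y₂) (hxy : ¬(x₁ = x₂ ∧ y₁ = V.negY x₂ y₂)) :
    V.slope x₁ x₂ y₁ y₂ * (y₁ + y₂ + V.a₁ * x₂ + V.a₃) =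
      x₁ ^ 2 + x₁ * x₂ + x₂ ^ 2 + V.a₂ * (x₁ + x₂) + V.a₄ - V.a₁ * y₁ := by
  by_cases hx : x₁ = x₂
  · subst hx
    have hy : y₁ ≠ V.negY x₁ y₂ := fun h => hxy ⟨rfl, h⟩
    obtain rfl := Affine.Y_eq_of_Y_ne h₁ h₂ rfl hy
    have hd : y₁ - V.negY x₁ y₁ ≠ 0 := sub_ne_zero.mpr hy
    rw [Affine.slope_of_Y_ne rfl hy,
      show y₁ + y₁ + V.a₁ * x₁ + V.a₃ = y₁ - V.negY x₁ y₁ by rw [Affine.negY]; ring,
      div_mul_cancel₀ _ hd]
    ring
  · rw [Affine.slope_of_X_ne hx, div_mul_eq_mul_div, div_eq_iff (sub_ne_zero.mpr hx)]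
    rw [Affine.equation_iff] at h₁ h₂
    linear_combination h₁ - h₂

omit [DecidableEq (IsLocalRing.ResidueField A)] in
/-- Two affine integral points for which the denominator of the slope is a nonunit and the
numerator a unit add up to a point of the kernel of reduction. -/
lemma isE1_add_of_slope_denominator {x₁ y₁ x₂ y₂ : K}
    (h₁ : (gen W).toAffine.Nonsingular x₁ y₁) (h₂ : (gen W).toAffine.Nonsingular x₂ y₂)
    (hx₁ : x₁ ∈ A) (hx₂ : x₂ ∈ A)
    (hD : A.valuation (y₁ + y₂ + (gen W).a₁ * x₂ + (gen W).a₃) < 1)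
    (hN : A.valuation (x₁ ^ 2 + x₁ * x₂ + x₂ ^ 2 + (gen W).a₂ * (x₁ + x₂) + (gen W).a₄
      - (gen W).a₁ * y₁) = 1) :
    IsE1 (W := W) (Affine.Point.some x₁ y₁ h₁ + Affine.Point.some x₂ y₂ h₂) := by
  by_cases hxy : x₁ = x₂ ∧ y₁ = (gen W).toAffine.negY x₂ y₂
  · rw [Affine.Point.add_of_Y_eq hxy.1 hxy.2]; exact isE1_zero
  · rw [Affine.Point.add_some hxy, isE1_some_iff, ← one_lt_valuation_iff]
    have hsl := slope_mul_add_eq (gen W).toAffine h₁.1 h₂.1 hxy
    set L := (gen W).toAffine.slope x₁ x₂ y₁ y₂ with hL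
    have hL1 : 1 < A.valuation L := by
      by_contra hle
      rw [not_lt] at hle
      have := mul_lt_one_of_nonneg_of_lt_one_right hle zero_le hD
      rw [← map_mul, hsl, hN] at this
      exact lt_irrefl _ this
    obtain ⟨c1, c2, -, -, -⟩ := gen_coeff_le_one W
    have hsq : A.valuation L < A.valuation L ^ 2 := by
      simpa using pow_lt_pow_right₀ hL1 (show 1 < 2 by norm_num)
    have hrest : A.valuation ((gen W).a₁ * L - ((gen W).a₂ + x₁ + x₂)) < A.valuation (L ^ 2) := by
      rw [map_pow]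
      refine lt_of_le_of_lt ?_ hsq
      refine (A.valuation.map_sub _ _).trans (max_le ?_ ?_)
      · rw [map_mul]; exact mul_le_of_le_one_left' c1
      · exact (A.valuation.map_add_le (A.valuation.map_add_le c2 (A.valuation_le_one ⟨x₁, hx₁⟩))
          (A.valuation_le_one ⟨x₂, hx₂⟩)).trans hL1.le
    rw [Affine.addX, show L ^ 2 + (gen W).a₁ * L - (gen W).a₂ - x₁ - x₂
      = L ^ 2 + ((gen W).a₁ * L - ((gen W).a₂ + x₁ + x₂)) by ring,
      A.valuation.map_add_eq_of_lt_left hrest, map_pow]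
    exact lt_trans hL1 hsq

/-- Reduction is additive at two affine integral points with the same nonsingular reduction. -/
lemma red_add_of_same_affine {x₁ y₁ x₂ y₂ : K} (h₁ : (gen W).toAffine.Nonsingular x₁ y₁)
    (h₂ : (gen W).toAffine.Nonsingular x₂ y₂) (hx₁ : x₁ ∈ A) (hx₂ : x₂ ∈ A)
    (h0₁ : IsE0 (W := W) (.some x₁ y₁ h₁)) (h0₂ : IsE0 (W := W) (.some x₂ y₂ h₂))
    (hxe : IsLocalRing.residue A ⟨x₁, hx₁⟩ = IsLocalRing.residue A ⟨x₂, hx₂⟩)
    (hye : IsLocalRing.residue A ⟨y₁, y_mem_of_x_mem h₁.1 hx₁⟩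
      = IsLocalRing.residue A ⟨y₂, y_mem_of_x_mem h₂.1 hx₂⟩) :
    IsE0 (W := W) (Affine.Point.some x₁ y₁ h₁ + Affine.Point.some x₂ y₂ h₂) ∧
      red (W := W) (Affine.Point.some x₁ y₁ h₁ + Affine.Point.some x₂ y₂ h₂)
        = red (W := W) (.some x₁ y₁ h₁) + red (W := W) (.some x₂ y₂ h₂) := by
  set X₁ : A := ⟨x₁, hx₁⟩
  set X₂ : A := ⟨x₂, hx₂⟩
  set Y₁ : A := ⟨y₁, y_mem_of_x_mem h₁.1 hx₁⟩
  set Y₂ : A := ⟨y₂, y_mem_of_x_mem h₂.1 hx₂⟩
  have n₂ : (spc W).toAffine.Nonsingular (IsLocalRing.residue A X₂) (IsLocalRing.residue A Y₂) :=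
    (isE0_some_iff_of_mem h₂ hx₂).mp h0₂
  rw [red_some_of_mem h₁ hx₁ h0₁, red_some_of_mem h₂ hx₂ h0₂]
  set D : A := Y₁ + Y₂ + W.a₁ * X₂ + W.a₃ with hD
  set N : A := X₁ ^ 2 + X₁ * X₂ + X₂ ^ 2 + W.a₂ * (X₁ + X₂) + W.a₄ - W.a₁ * Y₁ with hN
  have hDr : IsLocalRing.residue A D = IsLocalRing.residue A Y₂ -
      (spc W).toAffine.negY (IsLocalRing.residue A X₂) (IsLocalRing.residue A Y₂) := by
    rw [hD, map_add, map_add, map_add, map_mul, hye, Affine.negY]
    simp only [WeierstrassCurve.map_a₁, WeierstrassCurve.map_a₃]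
    ring
  have hNr : IsLocalRing.residue A N = 3 * IsLocalRing.residue A X₂ ^ 2
      + 2 * (spc W).a₂ * IsLocalRing.residue A X₂ + (spc W).a₄
      - (spc W).a₁ * IsLocalRing.residue A Y₂ := by
    simp only [hN, map_sub, map_add, map_mul, map_pow, hxe, hye, WeierstrassCurve.map_a₁,
      WeierstrassCurve.map_a₂, WeierstrassCurve.map_a₄]
    ring
  by_cases hd : IsLocalRing.residue A D = 0
  · -- the sum reduces to infinity
    have hneg : IsLocalRing.residue A Y₁ = (spc W).toAffine.negY (IsLocalRing.residue A X₂)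
        (IsLocalRing.residue A Y₂) := by
      rw [hye, ← sub_eq_zero, ← hDr, hd]
    have hNu : A.valuation (N : K) = 1 := by
      rw [← residue_ne_zero_iff, hNr]
      rw [hye] at hneg
      rcases ((Affine.nonsingular_iff ..).mp n₂).2 with h | h
      · exact sub_ne_zero.mpr h.symm
      · exact absurd hneg h
    rw [Affine.Point.add_of_Y_eq hxe hneg]
    have h1 : IsE1 (W := W) (Affine.Point.some x₁ y₁ h₁ + Affine.Point.some x₂ y₂ h₂) :=
      isE1_add_of_slope_denominator h₁ h₂ hx₁ hx₂ ((residue_eq_zero_iff A D).mp hd) hNu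
    exact ⟨h1.isE0, h1.red_eq_zero⟩
  · have hDu : A.valuation (D : K) = 1 := (residue_ne_zero_iff A D).mp hd
    have hD0 : (D : K) ≠ 0 := fun h => by rw [h, map_zero] at hDu; exact zero_ne_one hDu
    have hxy : ¬(x₁ = x₂ ∧ y₁ = (gen W).toAffine.negY x₂ y₂) := by
      rintro ⟨-, hy⟩
      apply hD0
      show y₁ + y₂ + (gen W).a₁ * x₂ + (gen W).a₃ = 0
      rw [hy, Affine.negY]; ring
    have hsl : (gen W).toAffine.slope x₁ x₂ y₁ y₂ * (D : K) = (N : K) :=
      slope_mul_add_eq (gen W).toAffine h₁.1 h₂.1 hxy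
    obtain ⟨L, hLD⟩ : ∃ L : A, L * D = N :=
      ⟨N * Ring.inverse D,
        by rw [mul_assoc, Ring.inverse_mul_cancel _ ((A.valuation_eq_one_iff D).mpr hDu), mul_one]⟩
    have hLK : (L : K) = (gen W).toAffine.slope x₁ x₂ y₁ y₂ :=
      mul_right_cancel₀ hD0 (by rw [hsl, ← hLD]; rfl)
    have hyne : IsLocalRing.residue A Y₁ ≠ (spc W).toAffine.negY (IsLocalRing.residue A X₂)
        (IsLocalRing.residue A Y₂) := fun h =>
          hd (by rw [hDr]; exact sub_eq_zero.mpr (hye.symm.trans h))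
    have hLr : IsLocalRing.residue A L = (spc W).toAffine.slope (IsLocalRing.residue A X₁)
        (IsLocalRing.residue A X₂) (IsLocalRing.residue A Y₁) (IsLocalRing.residue A Y₂) := by
      rw [Affine.slope_of_Y_ne hxe hyne, hxe, hye, ← hDr, ← hNr, eq_div_iff hd, ← map_mul, hLD]
    have h₃ := Affine.nonsingular_add h₁ h₂ hxy
    have hx₃e : ((W.toAffine.addX X₁ X₂ L : A) : K) = (gen W).toAffine.addX x₁ x₂
        ((gen W).toAffine.slope x₁ x₂ y₁ y₂) := by
      rw [← hLK, coe_addX]
    have hy₃e : ((W.toAffine.addY X₁ X₂ Y₁ L : A) : K) = (gen W).toAffine.addY x₁ x₂ y₁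
        ((gen W).toAffine.slope x₁ x₂ y₁ y₂) := by
      rw [← hLK, coe_addY]
    have hx₃ : (gen W).toAffine.addX x₁ x₂ ((gen W).toAffine.slope x₁ x₂ y₁ y₂) ∈ A :=
      by rw [← hx₃e]; exact SetLike.coe_mem _
    have e1 : IsLocalRing.residue A ⟨_, hx₃⟩ = (spc W).toAffine.addX (IsLocalRing.residue A X₁)
        (IsLocalRing.residue A X₂) (IsLocalRing.residue A L) := by
      rw [Affine.map_addX]; exact congr_arg (IsLocalRing.residue A) (Subtype.ext hx₃e.symm)
    have e2 : IsLocalRing.residue A ⟨_, y_mem_of_x_mem h₃.1 hx₃⟩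
        = (spc W).toAffine.addY (IsLocalRing.residue A X₁)
            (IsLocalRing.residue A X₂) (IsLocalRing.residue A Y₁) (IsLocalRing.residue A L) := by
      rw [Affine.map_addY]; exact congr_arg (IsLocalRing.residue A) (Subtype.ext hy₃e.symm)
    rw [Affine.Point.add_some hxy, Affine.Point.add_of_Y_ne hyne]
    have h0₃ : IsE0 (.some _ _ h₃) := by
      rw [isE0_some_iff_of_mem h₃ hx₃]
      simp only [e1, e2, hLr]
      exact Affine.nonsingular_add ((isE0_some_iff_of_mem h₁ hx₁).mp h0₁) n₂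
        fun h => hyne h.2
    refine ⟨h0₃, ?_⟩
    rw [red_some_of_mem h₃ hx₃ h0₃]
    simp only [Affine.Point.some.injEq, e1, e2, hLr]
    exact ⟨rfl, rfl⟩

/-- The reduction map is additive on points with nonsingular reduction. -/
lemma IsE0.add {P Q : (gen W).toAffine.Point} (hP : IsE0 P) (hQ : IsE0 Q) :
    IsE0 (P + Q) ∧ red (P + Q) = red P + red Q := by
  by_cases h : repk P ≈ repk Q
  swap
  · exact red_add_of_not_equiv hP hQ h
  by_cases hP1 : IsE1 P
  · have hQ1 : IsE1 Q := (Projective.Z_eq_zero_of_equiv h).mp hP1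
    have := hP1.add hQ1
    exact ⟨this.isE0, by rw [this.red_eq_zero, hP1.red_eq_zero, hQ1.red_eq_zero, add_zero]⟩
  have hQ1 : ¬IsE1 Q := fun hQ1 => hP1 ((Projective.Z_eq_zero_of_equiv h).mpr hQ1)
  rcases P with _ | ⟨x₁, y₁, h₁⟩
  · exact absurd isE1_zero hP1
  rcases Q with _ | ⟨x₂, y₂, h₂⟩
  · exact absurd isE1_zero hQ1
  rw [isE1_some_iff, not_not] at hP1 hQ1
  rw [repk_some_mem h₁ hP1, repk_some_mem h₂ hQ1] at h
  refine red_add_of_same_affine h₁ h₂ hP1 hQ1 hP hQ ?_ ?_
  · simpa using Projective.X_eq_of_equiv h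
  · simpa using Projective.Y_eq_of_equiv h

variable (W) in
/-- The subgroup of points with nonsingular reduction. -/
noncomputable def zeroComponent : AddSubgroup (gen W).toAffine.Point where
  carrier := {P | IsE0 P}
  add_mem' hP hQ := (IsE0.add hP hQ).1
  zero_mem' := isE0_zero
  neg_mem' hP := (IsE0.neg hP).1

/-- The zero component consists of the nonsingular reductions. -/
lemma mem_zeroComponent {P : (gen W).toAffine.Point} : P ∈ zeroComponent W ↔ IsE0 P := Iff.rfl

variable (W) in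
/-- The reduction homomorphism. -/
noncomputable def redHom : zeroComponent W →+ (spc W).toAffine.Point where
  toFun P := red (P : (gen W).toAffine.Point)
  map_zero' := red_zero
  map_add' P Q := by
    rw [AddSubgroup.coe_add]
    exact (IsE0.add (mem_zeroComponent.mp P.2) (mem_zeroComponent.mp Q.2)).2

/-- The reduction homomorphism is the reduction. -/
lemma redHom_apply (P : zeroComponent W) : redHom W P = red (P : (gen W).toAffine.Point) := rfl

/-- Reduction commutes with multiples. -/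
lemma IsE0.nsmul {P : (gen W).toAffine.Point} (hP : IsE0 P) (n : ℕ) :
    IsE0 (n • P) ∧ red (n • P) = n • red P :=
  ⟨mem_zeroComponent.mp ((zeroComponent W).nsmul_mem (mem_zeroComponent.mpr hP) n), by
    have h := map_nsmul (redHom W) n ⟨P, mem_zeroComponent.mpr hP⟩
    rw [redHom_apply, redHom_apply, AddSubgroup.coe_nsmul] at h
    exact h⟩

/-- Points with equal reduction differ by the kernel of reduction. -/
lemma IsE1.sub_of_red_eq {P Q : (gen W).toAffine.Point} (hP : IsE0 P) (hQ : IsE0 Q)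
    (h : red P = red Q) : IsE1 (P - Q) := by
  rw [sub_eq_add_neg]
  have := IsE0.add hP hQ.neg.1
  rw [← red_eq_zero_iff this.1, this.2, hQ.neg.2, h, add_neg_cancel]

end FermatAgent.ECLocal
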