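import Fermat.Agent.ECLocal.PointMaps
import Fermat.Agent.ECLocal.ReductionHom

/-!
# The kernel of reduction has no torsion of order invertible in the residue field

Scaling by the parameter `z = x/y` of a point turns the reduced curve into the cuspidal cubic,
whose nonsingular points form the additive group of the residue field.
-/

set_option autoImplicit false

universe u

namespace FermatAgent.ECLocal

open WeierstrassCurve

/-- The cuspidal cubic `y² = x³`. -/
def cusp (F : Type u) [CommRing F] : WeierstrassCurve F := ⟨0, 0, 0, 0, 0⟩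

section Cusp

variable {F : Type u} [Field F]

lemma cusp_nonsingular {x y : F} (he : y ^ 2 = x ^ 3) (hx : x ≠ 0) :
    (cusp F).toAffine.Nonsingular x y := by
  have hy : y ≠ 0 := fun h => hx (by simpa [h] using he.symm)
  rw [Affine.nonsingular_iff', Affine.equation_iff]
  simp only [cusp, zero_mul, mul_zero, add_zero, zero_sub, neg_ne_zero]
  refine ⟨he, ?_⟩
  by_contra h
  rw [not_or, not_not, not_not] at h
  obtain ⟨h1, h2⟩ := h
  have e3 : (3 : F) = 0 := (mul_eq_zero.mp h1).resolve_right (pow_ne_zero 2 hx)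
  have e2 : (2 : F) = 0 := (mul_eq_zero.mp h2).resolve_right hy
  exact one_ne_zero (show (1 : F) = 0 by linear_combination e3 - e2)

lemma cusp_nonsingular_param {t : F} (ht : t ≠ 0) :
    (cusp F).toAffine.Nonsingular ((t ^ 2)⁻¹) ((t ^ 3)⁻¹) :=
  cusp_nonsingular (by field_simp) (by simp [ht])

open Classical in
/-- The parametrisation `t ↦ (t⁻², t⁻³)`. -/
noncomputable def cuspFun (t : F) : (cusp F).toAffine.Point :=
  if h : t = 0 then 0 else .some _ _ (cusp_nonsingular_param h)

/-- The parameter of a nonzero element is not the origin. -/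
lemma cuspFun_ne_zero {t : F} (ht : t ≠ 0) : cuspFun t ≠ 0 := by
  rw [cuspFun, dif_neg ht]; exact Affine.Point.some_ne_zero _

/-- The parameter of zero is the origin. -/
lemma cuspFun_zero : cuspFun (0 : F) = 0 := by rw [cuspFun, dif_pos rfl]

variable [DecidableEq F]

/-- The parametrisation of the cusp is additive. -/
lemma cuspFun_add (s t : F) : cuspFun (s + t) = cuspFun s + cuspFun t := by
  by_cases hs : s = 0
  · rw [hs, zero_add, cuspFun_zero, zero_add]
  by_cases ht : t = 0
  · rw [ht, add_zero, cuspFun_zero, add_zero]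
  rw [cuspFun.eq_def s, cuspFun.eq_def t, dif_neg hs, dif_neg ht]
  by_cases hst : s + t = 0
  · obtain rfl : t = -s := eq_neg_of_add_eq_zero_right hst
    rw [cuspFun.eq_def, dif_pos hst, Affine.Point.add_of_Y_eq]
    · simp
    · simp [Affine.negY, cusp]
      rw [show (-s) ^ 3 = -(s ^ 3) by ring, inv_neg, neg_neg]
  have hxy : ¬((s ^ 2)⁻¹ = (t ^ 2)⁻¹ ∧ (s ^ 3)⁻¹ = (cusp F).toAffine.negY (t ^ 2)⁻¹ (t ^ 3)⁻¹) := by
    rintro ⟨h2, h3⟩
    simp only [Affine.negY, cusp, zero_mul, sub_zero] at h3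
    rw [← inv_neg, inv_inj] at h3
    rw [inv_inj] at h2
    apply hst
    have : t ^ 2 * (s + t) = 0 := by linear_combination h3 - s * h2
    exact (mul_eq_zero.mp this).resolve_left (pow_ne_zero 2 ht)
  rw [Affine.Point.add_some hxy, cuspFun.eq_def, dif_neg hst]
  set L := (cusp F).toAffine.slope (s ^ 2)⁻¹ (t ^ 2)⁻¹ (s ^ 3)⁻¹ (t ^ 3)⁻¹ with hL
  have hs' : L * (((s ^ 3)⁻¹ + (t ^ 3)⁻¹)) =
      ((s ^ 2)⁻¹) ^ 2 + (s ^ 2)⁻¹ * (t ^ 2)⁻¹ + ((t ^ 2)⁻¹) ^ 2 := by
    have := slope_mul_add_eq (cusp F).toAffine (cusp_nonsingular_param hs).1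
      (cusp_nonsingular_param ht).1 hxy
    simp only [cusp, zero_mul, add_zero, sub_zero] at this
    exact this
  have hL' : L * (s * t * (s + t)) = s ^ 2 + s * t + t ^ 2 := by
    by_cases hx : (s ^ 2)⁻¹ = (t ^ 2)⁻¹
    · rw [inv_inj] at hx
      have hst' : (s - t) * (s + t) = 0 := by linear_combination hx
      obtain rfl : s = t := sub_eq_zero.mp ((mul_eq_zero.mp hst').resolve_right hst)
      have hy : (s ^ 3)⁻¹ ≠ (cusp F).toAffine.negY (s ^ 2)⁻¹ (s ^ 3)⁻¹ := fun h => hxy ⟨rfl, h⟩
      rw [hL, Affine.slope_of_Y_ne rfl hy]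
      have h2 : (2 : F) ≠ 0 := fun h => hst (by linear_combination s * h)
      simp only [Affine.negY, cusp, zero_mul, mul_zero, add_zero, sub_zero]
      rw [show (s ^ 3)⁻¹ - -(s ^ 3)⁻¹ = 2 * (s ^ 3)⁻¹ by ring]
      field_simp
      ring
    · rw [hL, Affine.slope_of_X_ne hx]
      have hd : t ^ 2 - s ^ 2 ≠ 0 := sub_ne_zero.mpr fun h => hx (by rw [h])
      field_simp
      ring
  have hX : (cusp F).toAffine.addX (s ^ 2)⁻¹ (t ^ 2)⁻¹ L = ((s + t) ^ 2)⁻¹ := by
    simp only [Affine.addX, cusp, zero_mul, add_zero, sub_zero]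
    field_simp
    linear_combination (L * (s * t * (s + t)) + s ^ 2 + s * t + t ^ 2) * hL'
  have hY : (cusp F).toAffine.addY (s ^ 2)⁻¹ (t ^ 2)⁻¹ (s ^ 3)⁻¹ L = ((s + t) ^ 3)⁻¹ := by
    rw [Affine.addY, Affine.negAddY, hX]
    simp only [Affine.negY, cusp, zero_mul, sub_zero]
    field_simp
    linear_combination (2 * s + t) * hL'
  simp only [Affine.Point.some.injEq]
  exact ⟨hX.symm, hY.symm⟩

/-- The isomorphism from the additive group onto the cuspidal cubic, as a homomorphism. -/
noncomputable def cuspHom : F →+ (cusp F).toAffine.Point where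
  toFun := cuspFun
  map_zero' := cuspFun_zero
  map_add' := cuspFun_add

end Cusp

variable {K : Type u} [Field K] {A : ValuationSubring K} {W : WeierstrassCurve A}

/-- The curve scaled by `z`. -/
def scaleCurve (z : A) (W : WeierstrassCurve A) : WeierstrassCurve A :=
  ⟨z * W.a₁, z ^ 2 * W.a₂, z ^ 3 * W.a₃, z ^ 4 * W.a₄, z ^ 6 * W.a₆⟩

/-- Scaling by a nonunit makes the special fibre cuspidal. -/
lemma spc_scaleCurve {z : A} (hz : IsLocalRing.residue A z = 0) :
    spc (scaleCurve z W) = cusp (IsLocalRing.ResidueField A) := by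
  ext <;> simp [scaleCurve, cusp, hz]

variable [DecidableEq K]

/-- Scaling points by `z ∈ A`, `z ≠ 0`. -/
lemma exists_scaleHom
    (V : WeierstrassCurve A) (z : A) (hz : (z : K) ≠ 0) :
    ∃ e : (gen V).toAffine.Point →+ (gen (scaleCurve z V)).toAffine.Point,
      ∀ (x y : K) (h : (gen V).toAffine.Nonsingular x y),
        ∃ h', e (.some x y h) = .some ((z : K) ^ 2 * x) ((z : K) ^ 3 * y) h' := by
  set C : VariableChange K := ⟨(Units.mk0 _ hz)⁻¹, 0, 0, 0⟩ with hC
  have hgen : (C • gen V).toAffine = (gen (scaleCurve z V)).toAffine := by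
    ext <;> simp [scaleCurve, hC, WeierstrassCurve.variableChange_def]
  refine ⟨(pointCongr hgen).toAddMonoidHom.comp (AddEquiv.ofBijective (vcHom C (gen V))
    ⟨vcHom_injective C _, vcHom_surjective C _⟩).symm.toAddMonoidHom, fun x y h => ?_⟩
  set x' := (z : K) ^ 2 * x with hx'def
  set y' := (z : K) ^ 3 * y with hy'def
  have hX : (C.u : K) ^ 2 * x' + C.r = x := by simp [hC, hx'def]; field_simp
  have hY : (C.u : K) ^ 3 * y' + (C.u : K) ^ 2 * C.s * x' + C.t = y := by
    simp [hC, hy'def]; field_simp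
  have hns : (C • gen V).toAffine.Nonsingular x' y' :=
    (nonsingular_variableChange_iff C _ x' y').mp (by rw [hX, hY]; exact h)
  refine ⟨hgen ▸ hns, ?_⟩
  show pointCongr hgen ((AddEquiv.ofBijective (vcHom C (gen V))
    ⟨vcHom_injective C _, vcHom_surjective C _⟩).symm (Affine.Point.some x y h)) = _
  rw [← pointCongr_some hgen hns]
  congr 1
  refine (AddEquiv.symm_apply_eq _).2 (Eq.symm ((vcHom_some C (gen V) hns).trans ?_))
  simp only [Affine.Point.some.injEq]
  exact ⟨hX, hY⟩

omit [DecidableEq K] in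
open Classical in
/-- A point of the scaled curve with a unit abscissa reduces to a smooth point of the cusp. -/
lemma exists_red_eq_cuspFun {z : A} (hzr : IsLocalRing.residue A z = 0) {x y : K}
    (hns : (gen (scaleCurve z W)).toAffine.Nonsingular x y) (hvx : A.valuation x = 1) :
    ∃ (hx : x ∈ A) (hy : y ∈ A), IsLocalRing.residue A ⟨x, hx⟩ ≠ 0 ∧
      IsLocalRing.residue A ⟨y, hy⟩ ≠ 0 ∧ IsE0 (.some x y hns) ∧
      pointCongr (show (spc (scaleCurve z W)).toAffine =
          (cusp (IsLocalRing.ResidueField A)).toAffine from spc_scaleCurve hzr)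
        (red (.some x y hns)) =
        cuspFun (IsLocalRing.residue A ⟨x, hx⟩ / IsLocalRing.residue A ⟨y, hy⟩) := by
  have hxm : x ∈ A := A.mem_of_valuation_le_one _ hvx.le
  have hym : y ∈ A := y_mem_of_x_mem hns.1 hxm
  set a := IsLocalRing.residue A ⟨x, hxm⟩ with ha
  set b := IsLocalRing.residue A ⟨y, hym⟩ with hb
  have ha0 : a ≠ 0 := (residue_ne_zero_iff A _).2 hvx
  have heq : b ^ 2 = a ^ 3 := by
    have h1 : (scaleCurve z W).toAffine.Equation ⟨x, hxm⟩ ⟨y, hym⟩ :=
      (Affine.map_equation _ A.subtype_injective _ _).mp hns.1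
    have h2 := h1.map (IsLocalRing.residue A)
    have h3 : (cusp (IsLocalRing.ResidueField A)).toAffine.Equation a b := by
      rw [← spc_scaleCurve (W := W) hzr]; exact h2
    rw [Affine.equation_iff] at h3
    simpa [cusp] using h3
  have hb0 : b ≠ 0 := fun h => ha0 (by simpa [h] using heq.symm)
  have h0 : IsE0 (W := scaleCurve z W) (.some x y hns) :=
    (isE0_some_iff_of_mem hns hxm).mpr (by
      rw [spc_scaleCurve hzr]; exact cusp_nonsingular heq ha0)
  refine ⟨hxm, hym, ha0, hb0, h0, ?_⟩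
  rw [red_some_of_mem hns hxm h0, pointCongr_some, cuspFun, dif_neg (div_ne_zero ha0 hb0)]
  simp only [Affine.Point.some.injEq]
  constructor
  · show a = ((a / b) ^ 2)⁻¹
    rw [div_pow, inv_div, heq]; field_simp
  · show b = ((a / b) ^ 3)⁻¹
    rw [div_pow, inv_div, ← heq]; field_simp

/-- The kernel of reduction has no nonzero torsion of order invertible in the residue field. -/
theorem IsE1.eq_zero_of_nsmul_eq_zero {P : (gen W).toAffine.Point} (hP : IsE1 P) {n : ℕ}
    (hn : (n : IsLocalRing.ResidueField A) ≠ 0) (h : n • P = 0) : P = 0 := by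
  classical
  rcases P with _ | ⟨x, y, hxy⟩
  · rfl
  exfalso
  rw [isE1_some_iff] at hP
  have hy0 := y_ne_zero_of_x_not_mem hxy.1 hP
  have hx0 := ne_zero_of_not_mem A hP
  obtain ⟨hvlt, hvsq⟩ := val_y_of_x_not_mem hxy.1 hP
  have hvy : A.valuation y ≠ 0 := (Valuation.ne_zero_iff _).mpr hy0
  set z : A := ⟨x / y, (div_mem_of_x_not_mem hxy.1 hP).1⟩ with hzdef
  have hzr : IsLocalRing.residue A z = 0 := by
    rw [residue_eq_zero_iff]
    show A.valuation (x / y) < 1
    rw [map_div₀, div_lt_one₀ (zero_lt_iff.mpr hvy)]; exact hvlt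
  have hz0 : (x / y) ≠ 0 := div_ne_zero hx0 hy0
  obtain ⟨e, he⟩ := exists_scaleHom W z hz0
  obtain ⟨hns', heq'⟩ := he x y hxy
  have hvx' : A.valuation ((x / y) ^ 2 * x) = 1 := by
    rw [map_mul, map_pow, map_div₀, div_pow, hvsq, div_mul_eq_mul_div, ← pow_succ,
      div_self (pow_ne_zero 3 ((Valuation.ne_zero_iff _).mpr hx0))]
  obtain ⟨hxm, hym, hres, hb0, h0', hred'⟩ := exists_red_eq_cuspFun hzr hns' hvx'
  set a := IsLocalRing.residue A ⟨_, hxm⟩
  set b := IsLocalRing.residue A ⟨_, hym⟩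
  have hred := (IsE0.nsmul h0' n).2
  rw [← heq', ← map_nsmul, h, map_zero, red_zero, heq'] at hred
  have h4 := congr_arg (pointCongr (show (spc (scaleCurve z W)).toAffine =
    (cusp (IsLocalRing.ResidueField A)).toAffine from spc_scaleCurve hzr)) hred
  rw [map_zero, map_nsmul, hred', show cuspFun (a / b) = cuspHom (a / b) from rfl,
    ← map_nsmul] at h4
  refine cuspFun_ne_zero (F := IsLocalRing.ResidueField A) (t := n • (a / b)) ?_ h4.symm
  rw [nsmul_eq_mul]
  exact mul_ne_zero hn (div_ne_zero hres hb0)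

end FermatAgent.ECLocal
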