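import Fermat.Agent.ECLocal.PointMaps
import Fermat.Agent.ECLocal.ReductionHom

/-!
# Integral translations of coordinates
-/

set_option autoImplicit false

universe u

namespace FermatAgent.ECLocal

open WeierstrassCurve

variable {K : Type u} [Field K] {A : ValuationSubring K}

/-- The integral translation `(x, y) ↦ (x + r, y + t)`. -/
noncomputable def translation (r t : A) : VariableChange A := ⟨1, r, 0, t⟩

/-- Translation commutes with the generic fibre. -/
lemma translate_gen (W : WeierstrassCurve A) (r t : A) :
    ((translation r t).map A.subtype) • gen W = gen (translation r t • W) :=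
  WeierstrassCurve.map_variableChange (C := translation r t) (W := W) A.subtype

/-- Translation commutes with the special fibre. -/
lemma translate_spc (W : WeierstrassCurve A) (r t : A) :
    ((translation r t).map (IsLocalRing.residue A)) • spc W = spc (translation r t • W) :=
  WeierstrassCurve.map_variableChange (C := translation r t) (W := W) (IsLocalRing.residue A)

variable [DecidableEq K]

/-- Points of the translated model mapped to the original one. -/
noncomputable def translatePoint (W : WeierstrassCurve A) (r t : A) :
    (gen (translation r t • W)).toAffine.Point →+ (gen W).toAffine.Point :=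
  (vcHom ((translation r t).map A.subtype) (gen W)).comp
    (pointCongr (translate_gen W r t).symm).toAddMonoidHom

/-- Translation of points is bijective. -/
lemma translatePoint_bijective (W : WeierstrassCurve A) (r t : A) :
    Function.Bijective (translatePoint W r t) := by
  rw [translatePoint, AddMonoidHom.coe_comp]
  exact Function.Bijective.comp ⟨vcHom_injective _ _, vcHom_surjective _ _⟩
    (pointCongr (translate_gen W r t).symm).bijective

/-- Translation of an affine point. -/
lemma translatePoint_some (W : WeierstrassCurve A) (r t : A) {x y : K}
    (h : (gen (translation r t • W)).toAffine.Nonsingular x y) :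
    ∃ h', translatePoint W r t (.some x y h) = .some (x + (r : K)) (y + (t : K)) h' := by
  have h2 := (nonsingular_variableChange_iff ((translation r t).map A.subtype) (gen W) x y).mpr
    ((translate_gen W r t).symm ▸ h)
  have ex : (((translation r t).map A.subtype).u : K) ^ 2 * x + ((translation r t).map A.subtype).r
      = x + (r : K) := by
    simp [translation, VariableChange.map]
  have ey : (((translation r t).map A.subtype).u : K) ^ 3 * y
      + (((translation r t).map A.subtype).u : K) ^ 2 * ((translation r t).map A.subtype).s * x
      + ((translation r t).map A.subtype).t = y + (t : K) := by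
    simp [translation, VariableChange.map]
  refine ⟨by rw [← ex, ← ey]; exact h2, ?_⟩
  simp only [translatePoint, AddMonoidHom.comp_apply, AddEquiv.toAddMonoidHom_eq_coe,
    AddMonoidHom.coe_coe]
  rw [pointCongr_some, vcHom_some]
  simp only [Affine.Point.some.injEq]
  exact ⟨ex, ey⟩

/-- Translation preserves nonsingular reduction. -/
lemma isE0_translatePoint (W : WeierstrassCurve A) (r t : A)
    (P : (gen (translation r t • W)).toAffine.Point) :
    IsE0 (translatePoint W r t P) ↔ IsE0 P := by
  classical
  rcases P with _ | ⟨x, y, h⟩
  · rw [← Affine.Point.zero_def, map_zero]
    exact iff_of_true isE0_zero isE0_zero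
  obtain ⟨h', e⟩ := translatePoint_some W r t h
  rw [e]
  by_cases hx : x ∈ A
  · have hx' : x + (r : K) ∈ A := A.add_mem _ _ hx r.2
    rw [isE0_some_iff_of_mem h' hx', isE0_some_iff_of_mem h hx, ← translate_spc,
      ← nonsingular_variableChange_iff]
    refine iff_of_eq (congr_arg₂ _ ?_ ?_)
    · simp [translation, VariableChange.map, ← map_add]; rfl
    · simp [translation, VariableChange.map, ← map_add]; rfl
  · have hx' : x + (r : K) ∉ A := fun hh => hx (by
      have := A.add_mem _ _ hh (A.neg_mem _ r.2); rwa [add_neg_cancel_right] at this)
    exact iff_of_true ((isE1_some_iff h').mpr hx').isE0 ((isE1_some_iff h).mpr hx).isE0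

end FermatAgent.ECLocal
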