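import Fermat.Agent.ECLocal.Node
import Fermat.Agent.ECLocal.Translate

/-!
# The group of a nodal cubic: `(x, y) ↦ (y - αx)/(y - βx)`
-/

set_option autoImplicit false

universe u

namespace FermatAgent.ECLocal

open WeierstrassCurve

/-- A nodal cubic `(y - αx)(y - βx) = x³`, `α ≠ β`. -/
structure Nodal {F : Type u} [Field F] (V : WeierstrassCurve F) where
  /-- first tangent slope -/
  α : F
  /-- second tangent slope -/
  β : F
  a₁_eq : V.a₁ = -(α + β)
  a₂_eq : V.a₂ = -(α * β)
  a₃_eq : V.a₃ = 0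
  a₄_eq : V.a₄ = 0
  a₆_eq : V.a₆ = 0
  ne : α ≠ β

namespace Nodal

variable {F : Type u} [Field F] {V : WeierstrassCurve F} (N : Nodal V)

/-- The equation of a nodal cubic in the slopes. -/
lemma equation_iff {x y : F} :
    V.toAffine.Equation x y ↔ (y - N.α * x) * (y - N.β * x) = x ^ 3 := by
  rw [Affine.equation_iff, N.a₁_eq, N.a₂_eq, N.a₃_eq, N.a₄_eq, N.a₆_eq]
  constructor <;> intro h <;> linear_combination h

lemma x_ne_zero (N : Nodal V) {x y : F} (h : V.toAffine.Nonsingular x y) : x ≠ 0 := by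
  rintro rfl
  have he := N.equation_iff.mp h.1
  simp only [mul_zero, sub_zero, zero_pow three_ne_zero] at he
  have hy : y = 0 := by simpa using he
  subst hy
  rw [Affine.nonsingular_zero, N.a₃_eq, N.a₄_eq] at h
  simp at h

/-- At a nonsingular point neither tangent coordinate vanishes. -/
lemma sub_ne_zero' {x y : F} (h : V.toAffine.Nonsingular x y) :
    y - N.α * x ≠ 0 ∧ y - N.β * x ≠ 0 := by
  have he := N.equation_iff.mp h.1
  rw [← mul_ne_zero_iff, he]
  exact pow_ne_zero 3 (N.x_ne_zero h)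

/-- The parameter of a point. -/
noncomputable def param : V.toAffine.Point → F
  | .zero => 1
  | .some x y _ => (y - N.α * x) / (y - N.β * x)

/-- The parameter of an affine point. -/
lemma param_some {x y : F} (h : V.toAffine.Nonsingular x y) :
    N.param (.some x y h) = (y - N.α * x) / (y - N.β * x) := rfl

/-- The parameter does not vanish. -/
lemma param_ne_zero (P : V.toAffine.Point) : N.param P ≠ 0 := by
  rcases P with _ | ⟨x, y, h⟩
  · exact one_ne_zero
  · exact div_ne_zero (N.sub_ne_zero' h).1 (N.sub_ne_zero' h).2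

lemma param_neg_mul (P : V.toAffine.Point) : N.param (-P) * N.param P = 1 := by
  rcases P with _ | ⟨x, y, h⟩
  · exact one_mul 1
  · obtain ⟨hU, hV⟩ := N.sub_ne_zero' h
    rw [Affine.Point.neg_some, N.param_some, N.param_some,
      show V.toAffine.negY x y - N.α * x = -(y - N.β * x) by
        rw [Affine.negY, N.a₁_eq, N.a₃_eq]; ring,
      show V.toAffine.negY x y - N.β * x = -(y - N.α * x) by
        rw [Affine.negY, N.a₁_eq, N.a₃_eq]; ring,
      neg_div_neg_eq, div_mul_div_cancel₀ hU, div_self hV]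

/-- The parameter is one only at the origin. -/
lemma param_eq_one_iff {P : V.toAffine.Point} : N.param P = 1 ↔ P = 0 := by
  refine ⟨fun h => ?_, fun h => by rw [h]; rfl⟩
  rcases P with _ | ⟨x, y, hxy⟩
  · rfl
  · exfalso
    rw [N.param_some, div_eq_one_iff_eq (N.sub_ne_zero' hxy).2] at h
    exact mul_ne_zero (sub_ne_zero.mpr N.ne) (N.x_ne_zero hxy) (by linear_combination -h)

variable [DecidableEq F]

/-- The parameter is multiplicative. -/
lemma param_add (P Q : V.toAffine.Point) : N.param (P + Q) = N.param P * N.param Q := by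
  rcases P with _ | ⟨x₁, y₁, h₁⟩
  · rw [← Affine.Point.zero_def, zero_add]; exact (one_mul _).symm
  rcases Q with _ | ⟨x₂, y₂, h₂⟩
  · rw [← Affine.Point.zero_def, add_zero]; exact (mul_one _).symm
  by_cases hxy : x₁ = x₂ ∧ y₁ = V.toAffine.negY x₂ y₂
  · rw [Affine.Point.add_of_Y_eq hxy.1 hxy.2]
    obtain ⟨rfl, rfl⟩ := hxy
    have := N.param_neg_mul (.some x₁ y₂ h₂)
    rw [Affine.Point.neg_some] at this
    exact this.symm
  rw [Affine.Point.add_some hxy]
  set L := V.toAffine.slope x₁ x₂ y₁ y₂ with hL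
  set μ := y₁ - L * x₁ with hμdef
  set x₃ := V.toAffine.addX x₁ x₂ L with hx₃def
  set y₃ := V.toAffine.negAddY x₁ x₂ y₁ L with hy₃def
  obtain ⟨hy₂, hy₃, -, -, -, hPU, hPV⟩ :=
    node_chord N.a₁_eq N.a₂_eq N.a₃_eq N.a₄_eq h₁.1 h₂.1 hxy
  simp only [← hL, ← hμdef, ← hx₃def, ← hy₃def] at hy₂ hy₃ hPU hPV
  have hy₁ : y₁ = L * x₁ + μ := by rw [hμdef]; ring
  have hns₃ : V.toAffine.Nonsingular x₃ y₃ := Affine.nonsingular_negAdd h₁ h₂ hxy
  have hprod : ∀ c : F, (c = N.α ∨ c = N.β) →
      (y₁ - c * x₁) * (y₂ - c * x₂) * (y₃ - c * x₃) = μ ^ 3 := by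
    rintro c (rfl | rfl) <;> rw [hy₁, hy₂, hy₃]
    · linear_combination hPU - (L - N.α) ^ 3 * N.a₆_eq
    · linear_combination hPV - (L - N.β) ^ 3 * N.a₆_eq
  have hthree : N.param (.some x₁ y₁ h₁) * N.param (.some x₂ y₂ h₂)
      * N.param (.some x₃ y₃ hns₃) = 1 := by
    rw [N.param_some, N.param_some, N.param_some, div_mul_div_comm, div_mul_div_comm,
      hprod _ (Or.inl rfl), hprod _ (Or.inr rfl), div_self]
    rw [← hprod _ (Or.inr rfl)]
    exact mul_ne_zero (mul_ne_zero (N.sub_ne_zero' h₁).2 (N.sub_ne_zero' h₂).2)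
      (N.sub_ne_zero' hns₃).2
  have h4 := N.param_neg_mul (.some x₃ y₃ hns₃)
  rw [Affine.Point.neg_some] at h4
  exact mul_right_cancel₀ (N.param_ne_zero (.some x₃ y₃ hns₃)) (h4.trans hthree.symm)

/-- The parameter of a multiple is a power. -/
lemma param_nsmul (n : ℕ) (P : V.toAffine.Point) : N.param (n • P) = N.param P ^ n := by
  induction n with
  | zero => rw [zero_nsmul, pow_zero]; rfl
  | succ n ih => rw [succ_nsmul, N.param_add, ih, pow_succ]

lemma eq_zero_of_char_nsmul (N : Nodal V) {p : ℕ} [Fact p.Prime] [CharP F p]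
    {P : V.toAffine.Point} (h : p • P = 0) : P = 0 := by
  refine N.param_eq_one_iff.mp (frobenius_inj F p ?_)
  rw [map_one, frobenius_def, ← N.param_nsmul, h]
  rfl

end Nodal

variable {K : Type u} [Field K] {A : ValuationSubring K} {W : WeierstrassCurve A}

/-- The special fibre of a node model is a nodal cubic. -/
noncomputable def NodeModel.nodal (M : NodeModel W) : Nodal (spc W) where
  α := IsLocalRing.residue A M.α
  β := IsLocalRing.residue A M.β
  a₁_eq := by simp [M.a₁_eq]
  a₂_eq := by simp [M.a₂_eq]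
  a₃_eq := by simp [M.a₃_eq]
  a₄_eq := by simp [M.a₄_eq]
  a₆_eq := by simp [M.residue_a₆]
  ne := M.residue_ne

/-- Translations preserve the kernel of reduction. -/
lemma isE1_translatePoint [DecidableEq K] (W : WeierstrassCurve A) (r t : A)
    (P : (gen (translation r t • W)).toAffine.Point) :
    IsE1 (translatePoint W r t P) ↔ IsE1 P := by
  rcases P with _ | ⟨x, y, h⟩
  · rw [← Affine.Point.zero_def, map_zero]
    exact iff_of_true isE1_zero isE1_zero
  obtain ⟨h', e⟩ := translatePoint_some W r t h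
  rw [e, isE1_some_iff, isE1_some_iff]
  refine not_congr ⟨fun hh => ?_, fun hh => A.add_mem _ _ hh r.2⟩
  have := A.add_mem _ _ hh (A.neg_mem _ r.2)
  rwa [add_neg_cancel_right] at this

/-- In residue characteristic `p`, a `p`-torsion point with nonsingular reduction on a node model
reduces to zero. -/
lemma NodeModel.isE1_of_isE0 [DecidableEq K] (M : NodeModel W) {p : ℕ} [Fact p.Prime]
    [CharP (IsLocalRing.ResidueField A) p] {P : (gen W).toAffine.Point} (h0 : IsE0 P)
    (h : p • P = 0) : IsE1 P := by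
  classical
  refine (red_eq_zero_iff h0).mp (M.nodal.eq_zero_of_char_nsmul (p := p) ?_)
  rw [← (h0.nsmul p).2, h, red_zero]

end FermatAgent.ECLocal
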