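import Fermat.Agent.ECLocal.Supersingular
import Fermat.Agent.ECLocal.Nodal
import Fermat.Agent.EC.XOnly
import Mathlib.FieldTheory.IsAlgClosed.Basic

/-!
# Inertia at `p` on a stable line of `E[p]`

At an odd prime `p` of semistable reduction `(σ - 1) E[p]` lies in a proper subgroup for `σ` in
inertia, unless all of `E[p]` reduces to zero, when there is no stable line at all.
-/

set_option autoImplicit false

namespace FermatAgent.ECLocal

open WeierstrassCurve
open scoped WeierstrassCurve.Affine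

local notation "Qbar" => AlgebraicClosure ℚ

/-- The residue field at a place over `p` has characteristic `p`. -/
lemma residueChar (A : ValuationSubring Qbar) {p : ℕ} [hp : Fact p.Prime]
    (hA : A.LiesOverPrime p) : CharP (IsLocalRing.ResidueField A) p := by
  refine (CharP.charP_iff_prime_eq_zero hp.out).mpr ?_
  have h : IsLocalRing.residue A ((p : ℤ) : A) = 0 :=
    (residue_intCast_eq_zero_iff hp.out hA _).mpr dvd_rfl
  rw [map_intCast] at h
  exact_mod_cast h

/-- A simple root of `Ψ₂²` on a curve with good reduction in odd residue characteristic. -/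
lemma exists_simple_root_good {A : ValuationSubring Qbar} (V : WeierstrassCurve A)
    (h2 : IsLocalRing.residue A (2 : A) ≠ 0) (hΔ : IsLocalRing.residue A V.Δ ≠ 0) :
    ∃ x₁ : IsLocalRing.ResidueField A,
      (spc V).Ψ₂Sq.eval x₁ = 0 ∧ (spc V).Ψ₃.eval x₁ ≠ 0 := by
  classical
  have h2v : A.valuation ((2 : A) : Qbar) = 1 := (residue_ne_zero_iff A _).mp h2
  have h2e : ((2 : A) : Qbar) = 2 := map_ofNat A.subtype 2
  rw [h2e] at h2v
  obtain ⟨x, hx⟩ := IsAlgClosed.exists_root (gen V).Ψ₂Sq (by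
    rw [Polynomial.degree_eq_natDegree (WeierstrassCurve.Ψ₂Sq_ne_zero _ (by norm_num)),
      WeierstrassCurve.natDegree_Ψ₂Sq _ (by norm_num)]
    norm_num)
  simp only [Polynomial.IsRoot, WeierstrassCurve.Ψ₂Sq, Polynomial.eval_add, Polynomial.eval_mul,
    Polynomial.eval_pow, Polynomial.eval_C, Polynomial.eval_X] at hx
  have hb2 : A.valuation (gen V).b₂ ≤ 1 := by
    rw [WeierstrassCurve.map_b₂]; exact A.valuation_le_one _
  have hb4 : A.valuation (2 * (gen V).b₄) ≤ 1 := by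
    rw [map_mul, WeierstrassCurve.map_b₄, h2v, one_mul]; exact A.valuation_le_one _
  have hb6 : A.valuation (gen V).b₆ ≤ 1 := by
    rw [WeierstrassCurve.map_b₆]; exact A.valuation_le_one _
  have hxA : x ∈ A := by
    by_contra hh
    have v1 := (one_lt_valuation_iff A).mpr hh
    have hlt : A.valuation ((gen V).b₂ * x ^ 2 + (2 * (gen V).b₄ * x + (gen V).b₆))
        < A.valuation (4 * x ^ 3) := by
      have e : A.valuation (4 * x ^ 3) = A.valuation x ^ 3 := by
        rw [show (4 : Qbar) = 2 * 2 by norm_num, map_mul, map_mul, h2v, one_mul, one_mul, map_pow]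
      rw [e]
      have h23 : A.valuation x ^ 2 < A.valuation x ^ 3 := pow_lt_pow_right₀ v1 (by norm_num)
      refine A.valuation.map_add_lt ?_ (A.valuation.map_add_lt ?_ ?_)
      · rw [map_mul, map_pow]; exact lt_of_le_of_lt (mul_le_of_le_one_left' hb2) h23
      · rw [map_mul]
        exact lt_of_le_of_lt
          ((mul_le_of_le_one_left' hb4).trans (le_self_pow v1.le two_ne_zero)) h23
      · exact lt_of_le_of_lt (hb6.trans (one_le_pow₀ v1.le)) h23
    have hv := A.valuation.map_add_eq_of_lt_left hlt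
    rw [show 4 * x ^ 3 + ((gen V).b₂ * x ^ 2 + (2 * (gen V).b₄ * x + (gen V).b₆)) = 0 by
      linear_combination hx, map_zero, eq_comm, map_eq_zero] at hv
    exact ne_zero_of_not_mem A hh (by simpa using hv)
  refine ⟨IsLocalRing.residue A ⟨x, hxA⟩, ?_⟩
  have hz : V.Ψ₂Sq.eval ⟨x, hxA⟩ = 0 := by
    apply A.subtype_injective
    rw [map_zero, ← Polynomial.eval_map_apply, ← WeierstrassCurve.map_Ψ₂Sq]
    show (gen V).Ψ₂Sq.eval x = 0
    simp only [WeierstrassCurve.Ψ₂Sq, Polynomial.eval_add, Polynomial.eval_mul,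
      Polynomial.eval_pow, Polynomial.eval_C, Polynomial.eval_X]
    exact hx
  have hzk : (spc V).Ψ₂Sq.eval (IsLocalRing.residue A ⟨x, hxA⟩) = 0 := by
    rw [spc, WeierstrassCurve.map_Ψ₂Sq, Polynomial.eval_map_apply, hz, map_zero]
  refine ⟨hzk, fun h3 => ?_⟩
  have hΔk : (spc V).Δ ≠ 0 := by rw [spc, WeierstrassCurve.map_Δ]; exact hΔ
  rcases EC.Φ_two_or_Ψ₂Sq_ne_zero (spc V) hΔk (IsLocalRing.residue A ⟨x, hxA⟩) with h | h
  · apply h
    rw [WeierstrassCurve.Φ_two]
    simp only [Polynomial.eval_sub, Polynomial.eval_mul, Polynomial.eval_pow, Polynomial.eval_C,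
      Polynomial.eval_X]
    simp only [WeierstrassCurve.Ψ₂Sq, WeierstrassCurve.Ψ₃, Polynomial.eval_add,
      Polynomial.eval_mul, Polynomial.eval_pow, Polynomial.eval_C, Polynomial.eval_X,
      Polynomial.eval_ofNat] at hzk h3
    linear_combination (IsLocalRing.residue A ⟨x, hxA⟩) * hzk - h3
  · exact h hzk

/-- A simple root of `Ψ₂²` on a nodal special fibre in odd residue characteristic. -/
lemma exists_simple_root_node {K : Type*} [Field K] {A : ValuationSubring K}
    {V : WeierstrassCurve A} {r t : A} (M : NodeModel (translation r t • V))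
    (h2 : (2 : IsLocalRing.ResidueField A) ≠ 0) :
    ∃ x₁ : IsLocalRing.ResidueField A,
      (spc V).Ψ₂Sq.eval x₁ = 0 ∧ (spc V).Ψ₃.eval x₁ ≠ 0 := by
  set T := spc (translation r t • V) with hT
  have e : ((translation r t).map (IsLocalRing.residue A)) • spc V = T := translate_spc V r t
  set N := M.nodal
  have z2 : T.b₂ = (N.α - N.β) ^ 2 := by
    rw [WeierstrassCurve.b₂, N.a₁_eq, N.a₂_eq]; ring
  have z4 : T.b₄ = 0 := by rw [WeierstrassCurve.b₄, N.a₃_eq, N.a₄_eq]; ring
  have z6 : T.b₆ = 0 := by rw [WeierstrassCurve.b₆, N.a₃_eq, N.a₆_eq]; ring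
  have z8 : T.b₈ = 0 := by rw [WeierstrassCurve.b₈, N.a₃_eq, N.a₄_eq, N.a₆_eq]; ring
  have hb2 : T.b₂ ≠ 0 := by rw [z2]; exact pow_ne_zero 2 (sub_ne_zero.mpr N.ne)
  rw [← e] at z4 z6 z8 hb2
  rw [variableChange_b₂] at hb2
  rw [variableChange_b₄] at z4
  rw [variableChange_b₆] at z6
  rw [variableChange_b₈] at z8
  simp only [translation, VariableChange.map, map_one, inv_one, Units.val_one, one_pow, one_mul]
    at z4 z6 z8 hb2
  set ρ := IsLocalRing.residue A r
  set β₂ := (spc V).b₂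
  set β₄ := (spc V).b₄
  set β₆ := (spc V).b₆
  set β₈ := (spc V).b₈
  obtain ⟨X, hX⟩ : ∃ X, 4 * X = -(β₂ + 12 * ρ) :=
    ⟨-(β₂ + 12 * ρ) / 4, mul_div_cancel₀ _ (by
      rw [show (4 : IsLocalRing.ResidueField A) = 2 * 2 by norm_num]; exact mul_ne_zero h2 h2)⟩
  refine ⟨ρ + X, ?_, ?_⟩
  · simp only [WeierstrassCurve.Ψ₂Sq, Polynomial.eval_add, Polynomial.eval_mul,
      Polynomial.eval_pow, Polynomial.eval_C, Polynomial.eval_X]
    linear_combination X ^ 2 * hX + 2 * X * z4 + z6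
  · intro h
    simp only [WeierstrassCurve.Ψ₃, Polynomial.eval_add, Polynomial.eval_mul,
      Polynomial.eval_pow, Polynomial.eval_C, Polynomial.eval_X, Polynomial.eval_ofNat] at h
    have h' : X ^ 4 = 0 := by
      linear_combination -h + 3 * X ^ 2 * z4 + 3 * X * z6 + z8 + X ^ 3 * hX
    have hX0 : X = 0 := pow_eq_zero_iff (by norm_num) |>.mp h'
    rw [hX0, mul_zero, eq_comm, neg_eq_zero] at hX
    exact hb2 hX

variable {W : WeierstrassCurve ℤ}

/-- Either inertia moves points inside a subgroup missing some `p`-torsion, or all `p`-torsion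
lies in the kernel of reduction. -/
theorem exists_subgroup_or_all_isE1 {A : ValuationSubring Qbar} {p : ℕ} [hp : Fact p.Prime]
    (hodd : Odd p) (hA : A.LiesOverPrime p) (hΔ0 : W.Δ ≠ 0)
    (hss : (p : ℤ) ∣ W.Δ → ¬(p : ℤ) ∣ W.c₄) :
    (∃ S : AddSubgroup ((W.map (Int.castRingHom ℚ))⁄Qbar).Point,
      (∃ P, p • P = 0 ∧ P ∉ S) ∧ ∀ σ ∈ A.inertiaSubgroupIn ℚ, ∀ P, P - σ • P ∈ S) ∨
      ((∃ x₁ : IsLocalRing.ResidueField A,
        (spc (modelAt W A)).Ψ₂Sq.eval x₁ = 0 ∧ (spc (modelAt W A)).Ψ₃.eval x₁ ≠ 0) ∧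
      ∀ P : ((W.map (Int.castRingHom ℚ))⁄Qbar).Point, p • P = 0 → IsE1 (toGen W A P)) := by
  classical
  have := residueChar A hA
  have hp2 : (2 : IsLocalRing.ResidueField A) ≠ 0 := by
    have h := natCast_residue_ne_zero hp.out hA (n := 2) (fun h => by
      have := Nat.le_of_dvd (by norm_num) h
      have := hp.out.two_le
      obtain ⟨j, hj⟩ := hodd
      omega)
    exact_mod_cast h
  have hp2' : IsLocalRing.residue A (2 : A) ≠ 0 := by rwa [map_ofNat]
  by_cases hd : (p : ℤ) ∣ W.Δ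
  · obtain ⟨r, t, ⟨M⟩, -⟩ := exists_nodeModel_at W A hp.out hA hΔ0 hd (hss hd)
    let S : AddSubgroup ((W.map (Int.castRingHom ℚ))⁄Qbar).Point :=
      (zeroComponent (modelAt W A)).comap (toGen W A).toAddMonoidHom
    by_cases hcon : ∃ P, p • P = 0 ∧ P ∉ S
    · exact Or.inl ⟨S, hcon, fun σ hσ Q => (inZeroComponentAt_iff W A _).mp
        (inertia_sub_inZeroComponentAt hp.out hA hΔ0 hd (hss hd) hσ Q)⟩
    simp only [not_exists, not_and, not_not] at hcon
    refine Or.inr ⟨exists_simple_root_node M hp2, fun P hP => ?_⟩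
    obtain ⟨Q, hQ⟩ := (translatePoint_bijective (modelAt W A) r t).2 (toGen W A P)
    have hQ0 : IsE0 Q := by
      have hmem : IsE0 (toGen W A P) := hcon P hP
      rwa [← hQ, isE0_translatePoint] at hmem
    have hQp : p • Q = 0 := (translatePoint_bijective (modelAt W A) r t).1 (by
      rw [map_nsmul, hQ, ← map_nsmul, hP, map_zero, map_zero])
    rw [← hQ, isE1_translatePoint]
    exact M.isE1_of_isE0 hQ0 hQp
  · have hΔr : IsLocalRing.residue A (modelAt W A).Δ ≠ 0 :=
    residue_modelAt_Δ hp.out hA hd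
    let S : AddSubgroup ((W.map (Int.castRingHom ℚ))⁄Qbar).Point :=
      { carrier := {P | IsE1 (toGen W A P)}
        add_mem' := fun {a b} ha hb => show IsE1 (toGen W A (a + b)) by
          rw [map_add]; exact IsE1.add ha hb
        zero_mem' := show IsE1 (toGen W A 0) by rw [map_zero]; exact isE1_zero
        neg_mem' := fun {a} ha => show IsE1 (toGen W A (-a)) by
          rw [map_neg]; exact IsE1.neg ha }
    by_cases hcon : ∃ P, p • P = 0 ∧ P ∉ S
    · exact Or.inl ⟨S, hcon, fun σ hσ Q => show IsE1 (toGen W A (Q - σ • Q)) by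
        rw [map_sub]
        exact sub_isE1_of_isConj (actsInertially_of_mem A σ hσ) (isConj_toGen W A σ Q)
          (isE0_of_residue_Δ_ne_zero hΔr _)⟩
    simp only [not_exists, not_and, not_not] at hcon
    exact Or.inr ⟨exists_simple_root_good _ hp2' hΔr, fun P hP => hcon P hP⟩

/-- At an odd prime `p` of semistable reduction, inertia kills a stable line of `E[p]` or the
quotient by it. -/
theorem inertia_fix_line_or_quotient {A : ValuationSubring Qbar} {p : ℕ} [hp : Fact p.Prime]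
    (hodd : Odd p) (hA : A.LiesOverPrime p) (hΔ0 : W.Δ ≠ 0)
    (hss : (p : ℤ) ∣ W.Δ → ¬(p : ℤ) ∣ W.c₄)
    {N : Submodule (ZMod p)
      (Submodule.torsionBy ℤ ((W.map (Int.castRingHom ℚ))⁄Qbar).Point p)}
    (hN : Affine.Point.IsGaloisStable ℚ N) (h0 : N ≠ ⊥) (h1 : N ≠ ⊤) :
    (∀ σ ∈ A.inertiaSubgroupIn ℚ, ∀ x ∈ N, σ • x = x) ∨
      ∀ σ ∈ A.inertiaSubgroupIn ℚ, ∀ x, σ • x - x ∈ N := by
  classical
  have hV2 := EC.finrank_torsionBy_rat (W.map (Int.castRingHom ℚ))
    (EC.intMap_Δ_ne_zero hΔ0) p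
  -- a proper subgroup of `E[p]` receiving all `σ x - x`
  suffices hS : ∃ S : AddSubgroup ((W.map (Int.castRingHom ℚ))⁄Qbar).Point,
      (∃ P, p • P = 0 ∧ P ∉ S) ∧
      (∀ σ ∈ A.inertiaSubgroupIn ℚ, ∀ P, P - σ • P ∈ S) by
    obtain ⟨S, ⟨P, hPp, hPS⟩, hSσ⟩ := hS
    let ι : Submodule.torsionBy ℤ ((W.map (Int.castRingHom ℚ))⁄Qbar).Point p →+
        ((W.map (Int.castRingHom ℚ))⁄Qbar).Point := (Submodule.subtype _).toAddMonoidHom
    set T := AddSubgroup.toZModSubmodule p (S.comap ι) with hT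
    have hTtop : T ≠ ⊤ := fun h => hPS (by
      have hmem : (⟨P, by rw [Submodule.mem_torsionBy_iff, natCast_zsmul]; exact hPp⟩ :
          Submodule.torsionBy ℤ ((W.map (Int.castRingHom ℚ))⁄Qbar).Point p) ∈ T := by
        rw [h]; trivial
      exact hmem)
    set L : Set (Module.End (ZMod p)
        (Submodule.torsionBy ℤ ((W.map (Int.castRingHom ℚ))⁄Qbar).Point p)) :=
      {t | ∃ σ ∈ A.inertiaSubgroupIn ℚ,
        t = 1 - Affine.Point.galoisRepModuleEnd ℚ (W.map (Int.castRingHom ℚ)) p σ} with hL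
    rcases fix_or_quotient_fix hV2 h0 h1 hTtop (T := L)
        (by rintro t ⟨σ, -, rfl⟩ x hx; exact N.sub_mem hx (hN σ x hx))
        (by rintro t ⟨σ, hσ, rfl⟩ x; exact hSσ σ hσ x.1) with h | h
    · exact Or.inl fun σ hσ x hx => (sub_eq_zero.mp (h _ ⟨σ, hσ, rfl⟩ x hx)).symm
    · refine Or.inr fun σ hσ x => ?_
      rw [← neg_sub x (σ • x)]
      exact N.neg_mem (h _ ⟨σ, hσ, rfl⟩ x)
  refine (exists_subgroup_or_all_isE1 hodd hA hΔ0 hss).resolve_right fun ⟨hx₁, hall⟩ => ?_
  exact no_stable_line_of_all_isE1 hodd hA hΔ0 hx₁ hall hN h0 h1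

end FermatAgent.ECLocal
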