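import Fermat.Agent.ECLocal.Node
import Fermat.Agent.ECLocal.Translate
import Fermat.Agent.ECLocal.Inertia
import Mathlib.FieldTheory.IsAlgClosed.Basic
import Mathlib.Tactic.ComputeDegree

/-!
# Existence and rigidity of node models
-/

set_option autoImplicit false

universe u

namespace FermatAgent.ECLocal

open WeierstrassCurve

variable {K : Type u} [Field K] {A : ValuationSubring K}

lemma exists_root_mem [IsAlgClosed K] {a b c : A}
    (h : IsLocalRing.residue A a ≠ 0 ∨ IsLocalRing.residue A b ≠ 0) :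
    ∃ x : A, a * x ^ 2 + b * x + c = 0 := by
  suffices hK : ∃ x : K, x ∈ A ∧ (a : K) * x ^ 2 + (b : K) * x + (c : K) = 0 by
    obtain ⟨x, hx, he⟩ := hK
    exact ⟨⟨x, hx⟩, Subtype.ext (by push_cast; exact he)⟩
  have hc := A.valuation_le_one c
  by_cases ha : (a : K) = 0
  · have ha' : IsLocalRing.residue A a = 0 := by
      rw [show a = 0 from Subtype.ext ha, map_zero]
    have hb : A.valuation (b : K) = 1 :=
      (residue_ne_zero_iff A b).mp (h.resolve_left (not_not.mpr ha'))
    have hb0 : (b : K) ≠ 0 := fun h0 => by rw [h0, map_zero] at hb; exact zero_ne_one hb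
    refine ⟨-(c : K) / b, A.mem_of_valuation_le_one _ ?_, ?_⟩
    · rw [map_div₀, hb, div_one, Valuation.map_neg]; exact hc
    · rw [ha]; field_simp; ring
  obtain ⟨x, hx⟩ := IsAlgClosed.exists_root
    (Polynomial.C (a : K) * Polynomial.X ^ 2 + Polynomial.C (b : K) * Polynomial.X
      + Polynomial.C (c : K)) (by rw [Polynomial.degree_quadratic ha]; exact two_ne_zero)
  simp only [Polynomial.IsRoot, Polynomial.eval_add, Polynomial.eval_mul, Polynomial.eval_pow,
    Polynomial.eval_C, Polynomial.eval_X] at hx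
  by_cases hxA : x ∈ A
  · exact ⟨x, hxA, hx⟩
  set x' := -(b : K) / a - x with hx'
  have e1 : (a : K) * x * x' = c := by rw [hx']; field_simp; linear_combination -hx
  have e2 : (a : K) * (x + x') = -b := by rw [hx']; field_simp; ring
  refine ⟨x', ?_, ?_⟩
  · by_contra hxA'
    have v1 : 1 < A.valuation x := (one_lt_valuation_iff A).mpr hxA
    have v2 : 1 < A.valuation x' := (one_lt_valuation_iff A).mpr hxA'
    have hprod : A.valuation (a : K) * A.valuation x * A.valuation x' ≤ 1 := by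
      rw [← map_mul, ← map_mul, e1]; exact hc
    rcases h with h | h
    · rw [(residue_ne_zero_iff A a).mp h, one_mul] at hprod
      exact absurd hprod (not_le.mpr (one_lt_mul_of_lt_of_le v1 v2.le))
    · have hb := (residue_ne_zero_iff A b).mp h
      have hle : 1 ≤ A.valuation (a : K) * max (A.valuation x) (A.valuation x') := by
        rw [← hb, ← A.valuation.map_neg, ← e2, map_mul]
        exact mul_le_mul_right (A.valuation.map_add x x') _
      rcases max_choice (A.valuation x) (A.valuation x') with hm | hm <;> rw [hm] at hle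
      · exact absurd hprod (not_le.mpr (one_lt_mul_of_le_of_lt hle v2))
      · rw [mul_right_comm] at hprod
        exact absurd hprod (not_le.mpr (one_lt_mul_of_le_of_lt hle v1))
  · rw [hx']; field_simp; linear_combination (a : K) * hx

/-- The third and fourth coefficients after a translation. -/
lemma translation_a₃_a₄ (W : WeierstrassCurve A) (r t : A) :
    (translation r t • W).a₃ = W.a₃ + r * W.a₁ + 2 * t ∧
      (translation r t • W).a₄ = W.a₄ + 2 * r * W.a₂ - t * W.a₁ + 3 * r ^ 2 := by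
  constructor <;> simp [translation, variableChange_def]

/-- Given a root `r` of `6x² + b₂x + b₄`, there is `t` killing `a₃` and `a₄`. -/
lemma exists_translation (W : WeierstrassCurve A) (hc4 : IsUnit W.c₄) {r : A}
    (hr : 6 * r ^ 2 + W.b₂ * r + W.b₄ = 0) :
    ∃ t : A, (translation r t • W).a₃ = 0 ∧ (translation r t • W).a₄ = 0 := by
  obtain ⟨d, hd⟩ := hc4.exists_right_inv
  set G := 3 * r ^ 2 + 2 * W.a₂ * r + W.a₄
  set H := -W.a₁ * r - W.a₃
  set P := W.a₁ * (W.a₁ ^ 2 + 8 * W.a₂)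
  set B := 8 * W.a₂ ^ 2 - 12 * W.b₄
  refine ⟨d * (P * G + B * H), ?_, ?_⟩
  · rw [(translation_a₃_a₄ W r _).1]
    simp only [G, H, P, B, WeierstrassCurve.c₄, WeierstrassCurve.b₂, WeierstrassCurve.b₄] at hr hd ⊢
    linear_combination (d * W.a₁ * (W.a₁ ^ 2 + 8 * W.a₂)) * hr + (-(W.a₃ + r * W.a₁)) * hd
  · rw [(translation_a₃_a₄ W r _).2]
    simp only [G, H, P, B, WeierstrassCurve.c₄, WeierstrassCurve.b₂, WeierstrassCurve.b₄] at hr hd ⊢
    linear_combination (d * (8 * W.a₂ ^ 2 - 12 * (2 * W.a₄ + W.a₁ * W.a₃))) * hr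
      + (-(W.a₄ + 2 * r * W.a₂ + 3 * r ^ 2)) * hd

lemma simple_model_invariants {V : WeierstrassCurve A} (h3 : V.a₃ = 0) (h4 : V.a₄ = 0) :
    V.Δ = -(V.a₆ * (V.b₂ ^ 3 + 432 * V.a₆)) ∧ V.c₄ = V.b₂ ^ 2 ∧
      V.c₆ = -V.b₂ ^ 3 - 864 * V.a₆ := by
  simp only [WeierstrassCurve.Δ, WeierstrassCurve.c₄, WeierstrassCurve.c₆, WeierstrassCurve.b₂,
    WeierstrassCurve.b₄, WeierstrassCurve.b₆, WeierstrassCurve.b₈, h3, h4]
  exact ⟨by ring, by ring, by ring⟩

lemma translation_invariants (W : WeierstrassCurve A) (r t : A) :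
    (translation r t • W).Δ = W.Δ ∧ (translation r t • W).c₄ = W.c₄ ∧
      (translation r t • W).c₆ = W.c₆ ∧ (translation r t • W).b₂ = W.b₂ + 12 * r := by
  simp [translation, variableChange_Δ, variableChange_c₄, variableChange_c₆, variableChange_b₂]

/-- A curve with multiplicative reduction has a node model after an integral translation. -/
theorem exists_nodeModel [IsAlgClosed K] (W : WeierstrassCurve A) (hΔ0 : W.Δ ≠ 0)
    (hΔ : IsLocalRing.residue A W.Δ = 0) (hc4 : IsLocalRing.residue A W.c₄ ≠ 0) :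
    ∃ r t : A, Nonempty (NodeModel (translation r t • W)) ∧
      A.valuation ((translation r t • W).a₆ : K) = A.valuation (W.Δ : K) := by
  have hc4u : IsUnit W.c₄ := IsLocalRing.residue_ne_zero_iff_isUnit _ |>.mp hc4
  -- a root of `6x² + b₂x + b₄`
  obtain ⟨r₁, hr₁⟩ := exists_root_mem (a := 6) (b := W.b₂) (c := W.b₄) (by
    by_contra hh
    rw [not_or, not_not, not_not] at hh
    refine hc4 ?_
    have h24 : IsLocalRing.residue A (24 : A) = 0 := by
      rw [show (24 : A) = 4 * 6 by norm_num, map_mul, hh.1, mul_zero]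
    rw [WeierstrassCurve.c₄, map_sub, map_pow, map_mul, h24, hh.2]; ring)
  suffices h : ∃ r t : A, (translation r t • W).a₃ = 0 ∧ (translation r t • W).a₄ = 0 ∧
      IsLocalRing.residue A (translation r t • W).a₆ = 0 by
    obtain ⟨r, t, h3, h4, h6⟩ := h
    set V := translation r t • W with hV
    obtain ⟨eΔ, ec4, -, -⟩ := translation_invariants W r t
    obtain ⟨iΔ, ic4, -⟩ := simple_model_invariants h3 h4
    have hb2 : IsLocalRing.residue A V.b₂ ≠ 0 := fun h0 => hc4 (by
      rw [← ec4, ic4, map_pow, h0, zero_pow two_ne_zero])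
    obtain ⟨α, hα⟩ := exists_root_mem (a := (1 : A)) (b := V.a₁) (c := -V.a₂) (by simp)
    have ha1 : V.a₁ = -(α + (-V.a₁ - α)) := by ring
    refine ⟨r, t, ⟨⟨α, -V.a₁ - α, ha1, ?_, h3, h4, ?_, h6, ?_⟩⟩, ?_⟩
    · linear_combination -hα
    · intro hh
      refine hb2 ?_
      have hsq : V.b₂ = (α - (-V.a₁ - α)) ^ 2 := by
        rw [WeierstrassCurve.b₂]; linear_combination -4 * hα
      rw [hsq, map_pow, map_sub, hh, sub_self, zero_pow two_ne_zero]
    · intro h0
      exact hΔ0 (by rw [← eΔ, iΔ, h0, zero_mul, neg_zero])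
    · have hu : A.valuation ((V.b₂ ^ 3 + 432 * V.a₆ : A) : K) = 1 := by
        rw [← residue_ne_zero_iff, map_add, map_pow, map_mul, h6, mul_zero, add_zero]
        exact pow_ne_zero 3 hb2
      rw [← eΔ, iΔ, NegMemClass.coe_neg, Valuation.map_neg, MulMemClass.coe_mul, map_mul, hu,
        mul_one]
  obtain ⟨t₁, h3, h4⟩ := exists_translation W hc4u hr₁
  by_cases h6 : IsLocalRing.residue A (translation r₁ t₁ • W).a₆ = 0
  · exact ⟨r₁, t₁, h3, h4, h6⟩
  set V := translation r₁ t₁ • W with hV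
  obtain ⟨eΔ, ec4, ec6, eb2⟩ := translation_invariants W r₁ t₁
  obtain ⟨iΔ, ic4, ic6⟩ := simple_model_invariants h3 h4
  have hb2 : IsLocalRing.residue A V.b₂ ≠ 0 := fun h0 => hc4 (by
    rw [← ec4, ic4, map_pow, h0, zero_pow two_ne_zero])
  have hrel : IsLocalRing.residue A V.b₂ ^ 3 + 432 * IsLocalRing.residue A V.a₆ = 0 := by
    have := hΔ
    rw [← eΔ, iΔ, map_neg, neg_eq_zero, map_mul, mul_eq_zero] at this
    simpa [map_add, map_mul, map_pow, map_ofNat] using this.resolve_left h6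
  have h6k : (6 : IsLocalRing.ResidueField A) ≠ 0 := fun h0 => by
    apply hb2
    have : IsLocalRing.residue A V.b₂ ^ 3 = 0 := by
      linear_combination hrel - 72 * IsLocalRing.residue A V.a₆ * h0
    exact (pow_eq_zero_iff three_ne_zero).mp this
  have h6u : IsUnit (6 : A) :=
    IsLocalRing.residue_ne_zero_iff_isUnit _ |>.mp (by rwa [map_ofNat])
  obtain ⟨s, hs⟩ := h6u.exists_right_inv
  obtain ⟨t₂, g3, g4⟩ := exists_translation W hc4u (r := r₁ - s * V.b₂) (by
    rw [eb2]
    linear_combination hr₁ + (s * (W.b₂ + 12 * r₁) ^ 2) * hs)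
  refine ⟨_, t₂, g3, g4, ?_⟩
  set V' := translation (r₁ - s * V.b₂) t₂ • W with hV'
  obtain ⟨-, -, fc6, fb2⟩ := translation_invariants W (r₁ - s * V.b₂) t₂
  obtain ⟨-, -, jc6⟩ := simple_model_invariants g3 g4
  have hb : V'.b₂ = -V.b₂ := by rw [fb2, eb2]; linear_combination (-2 * (W.b₂ + 12 * r₁)) * hs
  have h7 : 864 * V'.a₆ = 2 * V.b₂ ^ 3 + 864 * V.a₆ := by
    have h8 : -V'.b₂ ^ 3 - 864 * V'.a₆ = -V.b₂ ^ 3 - 864 * V.a₆ := by
      rw [← jc6, fc6, ← ec6, ic6]
    rw [hb] at h8
    linear_combination -h8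
  have h9 : (864 : IsLocalRing.ResidueField A) * IsLocalRing.residue A V'.a₆ = 0 := by
    have := congr_arg (IsLocalRing.residue A) h7
    simp only [map_mul, map_add, map_pow, map_ofNat] at this
    linear_combination this + 2 * hrel
  refine (mul_eq_zero.mp h9).resolve_left ?_
  intro h0
  have h2 : (2 : IsLocalRing.ResidueField A) ≠ 0 := fun h => h6k (by linear_combination 3 * h)
  have h3' : (3 : IsLocalRing.ResidueField A) ≠ 0 := fun h => h6k (by linear_combination 2 * h)
  have : (2 : IsLocalRing.ResidueField A) ^ 5 * 3 ^ 3 = 0 := by linear_combination h0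
  exact mul_ne_zero (pow_ne_zero 5 h2) (pow_ne_zero 3 h3') this

namespace NodeModel

variable {W : WeierstrassCurve A} {r t : A} (M : NodeModel (translation r t • W))

/-- An automorphism fixing the coefficients fixes the translation to the node. -/
lemma map_translation_eq {σ : K →+* K} {hr : σ r ∈ A}
    (hres : IsLocalRing.residue A ⟨σ r, hr⟩ = IsLocalRing.residue A r)
    (h1 : σ W.a₁ = W.a₁) (h2 : σ W.a₂ = W.a₂) (h3 : σ W.a₃ = W.a₃) (h4 : σ W.a₄ = W.a₄)
    (M : NodeModel (translation r t • W)) : σ r = r ∧ σ t = t := by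
  obtain ⟨e3, e4⟩ := translation_a₃_a₄ W r t
  have f3 := congr_arg A.subtype (M.a₃_eq.symm.trans e3)
  have f4 := congr_arg A.subtype (M.a₄_eq.symm.trans e4)
  simp only [map_zero, map_add, map_sub, map_mul, map_pow, map_ofNat,
    ValuationSubring.subtype_apply] at f3 f4
  have g3 := congr_arg σ f3
  have g4 := congr_arg σ f4
  simp only [map_zero, map_add, map_sub, map_mul, map_pow, map_ofNat, h1, h2, h3, h4] at g3 g4
  set a1 := (W.a₁ : K)
  set a2 := (W.a₂ : K)
  have hfac : (σ r - r) * (6 * (σ r + r) + (a1 ^ 2 + 4 * a2)) = 0 := by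
    linear_combination a1 * f3 + 2 * f4 - a1 * g3 - 2 * g4
  have hunit : A.valuation (6 * (σ r + r) + (a1 ^ 2 + 4 * a2)) = 1 := by
    set R : A := ⟨σ r, hr⟩
    have hR : IsLocalRing.residue A R = IsLocalRing.residue A r := hres
    have e : (6 * (σ r + r) + (a1 ^ 2 + 4 * a2))
        = ((6 * (R + r) + (W.a₁ ^ 2 + 4 * W.a₂) : A) : K) := by
      push_cast; rfl
    rw [e, ← residue_ne_zero_iff]
    obtain ⟨-, -, -, eb2⟩ := translation_invariants W r t
    have hb : IsLocalRing.residue A (translation r t • W).b₂ ≠ 0 := by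
      rw [WeierstrassCurve.b₂, M.a₁_eq, M.a₂_eq]
      rw [show (-(M.α + M.β)) ^ 2 + 4 * -(M.α * M.β) = (M.α - M.β) ^ 2 by ring, map_pow, map_sub]
      exact pow_ne_zero 2 (sub_ne_zero.mpr M.residue_ne)
    intro h0
    apply hb
    rw [eb2, WeierstrassCurve.b₂]
    simp only [map_add, map_mul, map_pow, map_ofNat, hR] at h0 ⊢
    linear_combination h0
  have hr : σ r = r := sub_eq_zero.mp ((mul_eq_zero.mp hfac).resolve_right fun h0 => by
    rw [h0, map_zero] at hunit; exact zero_ne_one hunit)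
  refine ⟨hr, ?_⟩
  rw [hr] at hunit g3 g4
  have hb0 : (a1 ^ 2 + 4 * a2 + 12 * (r : K)) ≠ 0 := fun h0 => by
    rw [show 6 * ((r : K) + r) + (a1 ^ 2 + 4 * a2) = a1 ^ 2 + 4 * a2 + 12 * (r : K) by ring, h0,
      map_zero] at hunit
    exact zero_ne_one hunit
  have e5 : (σ t - t) * (a1 ^ 2 + 4 * a2 + 12 * (r : K)) = 0 := by
    linear_combination (-(2 * a2 + 6 * (r : K))) * (g3 - f3) + a1 * (g4 - f4)
  exact sub_eq_zero.mp ((mul_eq_zero.mp e5).resolve_right hb0)

/-- An automorphism fixing the coefficients fixes or exchanges the slopes. -/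
lemma map_slopes_cases {V : WeierstrassCurve A} (M : NodeModel V) {σ : K →+* K}
    (h1 : σ V.a₁ = V.a₁) (h2 : σ V.a₂ = V.a₂) :
    (σ M.α = M.α ∧ σ M.β = M.β) ∨ (σ M.α = M.β ∧ σ M.β = M.α) := by
  have e1 : (V.a₁ : K) = -((M.α : K) + M.β) := by rw [M.a₁_eq]; push_cast; rfl
  have e2 : (V.a₂ : K) = -((M.α : K) * M.β) := by rw [M.a₂_eq]; push_cast; rfl
  rw [e1, map_neg, map_add] at h1
  rw [e2, map_neg, map_mul] at h2
  have hfac : (σ M.α - M.α) * (σ M.α - M.β) = 0 := by
    linear_combination h2 - σ (M.α : K) * h1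
  rcases mul_eq_zero.mp hfac with h | h
  · exact Or.inl ⟨sub_eq_zero.mp h, by linear_combination -h1 - h⟩
  · exact Or.inr ⟨sub_eq_zero.mp h, by linear_combination -h1 - h⟩

/-- An inertial automorphism fixes the slopes. -/
lemma map_slopes_eq {V : WeierstrassCurve A} (M : NodeModel V) {σ : K →+* K}
    (hσ : ActsInertially A σ) (h1 : σ V.a₁ = V.a₁) (h2 : σ V.a₂ = V.a₂) :
    σ M.α = M.α ∧ σ M.β = M.β := by
  refine (M.map_slopes_cases h1 h2).resolve_right fun ⟨h, _⟩ => M.residue_ne ?_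
  rw [residue_eq_residue_iff]
  have := hσ.val_map_sub M.α M.α.2
  rw [h, A.valuation.map_sub_swap] at this
  exact this

end NodeModel

end FermatAgent.ECLocal
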