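import Fermat.Prelude.Def_FLTPrelim_Ramification
import Mathlib.NumberTheory.Padics.PadicVal.Basic
import Mathlib.RingTheory.Valuation.ValuationSubring
import Mathlib.RingTheory.Int.Basic
import Mathlib.Tactic.LinearCombination

/-!
# Valuations of rational numbers at a place of `ℚ̄`
-/

set_option autoImplicit false

namespace FermatAgent.ECLocal

local notation "Qbar" => AlgebraicClosure ℚ

variable {A : ValuationSubring Qbar} {q : ℕ}

/-- The valuation of `q` is less than one. -/
lemma valuation_natCast_lt_one (hA : A.LiesOverPrime q) : A.valuation (q : Qbar) < 1 :=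
  A.mem_nonunits_iff.mp hA

/-- The valuation of `q` is nonzero. -/
lemma valuation_natCast_ne_zero (hq : q.Prime) : A.valuation (q : Qbar) ≠ 0 :=
  (Valuation.ne_zero_iff _).mpr (Nat.cast_ne_zero.mpr hq.ne_zero)

/-- Integers have valuation at most one. -/
lemma valuation_intCast_le (A : ValuationSubring Qbar) (n : ℤ) : A.valuation (n : Qbar) ≤ 1 :=
  (A.valuation_le_one_iff _).mpr (intCast_mem A n)

/-- An integer has valuation less than one iff `q` divides it. -/
lemma valuation_intCast_lt_one_iff (hq : q.Prime) (hA : A.LiesOverPrime q) (n : ℤ) :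
    A.valuation (n : Qbar) < 1 ↔ (q : ℤ) ∣ n := by
  have hint := valuation_intCast_le A
  have hq1 : A.valuation ((q : ℤ) : Qbar) < 1 := by simpa using valuation_natCast_lt_one hA
  constructor
  · intro hn
    by_contra hdiv
    obtain ⟨a, b, hab⟩ := (Nat.prime_iff_prime_int.mp hq).coprime_iff_not_dvd.mpr hdiv
    have e : (a : Qbar) * ((q : ℤ) : Qbar) + (b : Qbar) * (n : Qbar) = 1 := by exact_mod_cast hab
    have : A.valuation ((a : Qbar) * ((q : ℤ) : Qbar) + (b : Qbar) * (n : Qbar)) < 1 :=
      A.valuation.map_add_lt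
        (by rw [map_mul]; exact mul_lt_one_of_nonneg_of_lt_one_right (hint a) zero_le hq1)
        (by rw [map_mul]; exact mul_lt_one_of_nonneg_of_lt_one_right (hint b) zero_le hn)
    rw [e, map_one] at this
    exact lt_irrefl _ this
  · rintro ⟨m, rfl⟩
    rw [Int.cast_mul, map_mul]
    exact mul_lt_one_of_nonneg_of_lt_one_left zero_le hq1 (hint m)

/-- An integer prime to `q` has valuation one. -/
lemma valuation_intCast_eq_one (hq : q.Prime) (hA : A.LiesOverPrime q) {n : ℤ}
    (hn : ¬(q : ℤ) ∣ n) : A.valuation (n : Qbar) = 1 :=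
  le_antisymm (valuation_intCast_le A n)
    (not_lt.mp fun h => hn ((valuation_intCast_lt_one_iff hq hA n).mp h))

/-- A natural number prime to `q` has valuation one. -/
lemma valuation_natCast_eq_one (hq : q.Prime) (hA : A.LiesOverPrime q) {n : ℕ} (hn : ¬q ∣ n) :
    A.valuation (n : Qbar) = 1 := by
  simpa using valuation_intCast_eq_one hq hA (n := (n : ℤ)) (by exact_mod_cast hn)

lemma valuation_natCast_eq_pow (hq : q.Prime) (hA : A.LiesOverPrime q) {n : ℕ} (hn : n ≠ 0) :
    A.valuation (n : Qbar) = A.valuation (q : Qbar) ^ padicValNat q n := by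
  have : Fact q.Prime := ⟨hq⟩
  obtain ⟨e, n', hn', rfl⟩ := Nat.exists_eq_pow_mul_and_not_dvd hn q hq.ne_one
  have hn'0 : n' ≠ 0 := fun h => hn' (h ▸ dvd_zero q)
  rw [padicValNat.mul (pow_ne_zero e hq.ne_zero) hn'0, padicValNat.prime_pow,
    padicValNat.eq_zero_of_not_dvd hn', add_zero, Nat.cast_mul, Nat.cast_pow,
    map_mul, map_pow, valuation_natCast_eq_one hq hA hn', mul_one]

/-- The valuation of an integer is that of `q` to the `q`-adic order. -/
lemma valuation_intCast_eq_pow (hq : q.Prime) (hA : A.LiesOverPrime q) {n : ℤ} (hn : n ≠ 0) :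
    A.valuation (n : Qbar) = A.valuation (q : Qbar) ^ padicValInt q n := by
  rw [padicValInt, ← valuation_natCast_eq_pow hq hA (Int.natAbs_ne_zero.mpr hn)]
  rcases Int.natAbs_eq n with e | e <;> conv_lhs => rw [e]
  · rw [Int.cast_natCast]
  · rw [Int.cast_neg, Valuation.map_neg, Int.cast_natCast]

/-- The valuation of a rational is that of `q` to the `q`-adic order. -/
lemma valuation_ratCast_eq_zpow (hq : q.Prime) (hA : A.LiesOverPrime q) {x : ℚ} (hx : x ≠ 0) :
    A.valuation (x : Qbar) = A.valuation (q : Qbar) ^ padicValRat q x := by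
  rw [Rat.cast_def, map_div₀, valuation_intCast_eq_pow hq hA (Rat.num_ne_zero.mpr hx),
    valuation_natCast_eq_pow hq hA x.den_nz, padicValRat_def,
    zpow_sub₀ (valuation_natCast_ne_zero hq), zpow_natCast, zpow_natCast]

end FermatAgent.ECLocal
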