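import Fermat.Agent.ECLocal.NodeInertia
import Fermat.Agent.ECLocal.NodeExists
import Fermat.Agent.ECLocal.PlaceVal
import Fermat.Prelude.Def_EllipticCurve_ZeroComponentAt
import Fermat.Prelude.Def_FLTPrelim_Ramification
import Mathlib

/-!
# Integral Weierstrass curves at a place of `ℚ̄`

An integral model gives a model over the valuation ring of a place over `q`; inertia there fixes
the torsion of order prime to `q` with nonsingular reduction, hence all of it at a good prime, and
all `n`-torsion at a multiplicative prime where the discriminant is an `n`-th power.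
-/

set_option autoImplicit false

namespace FermatAgent.ECLocal

open WeierstrassCurve
open scoped WeierstrassCurve.Affine

local notation "Qbar" => AlgebraicClosure ℚ

instance qbar_algebraic : Algebra.IsAlgebraic ℚ Qbar := AlgebraicClosure.isAlgebraic ℚ

/-- An integer reduces to zero iff `q` divides it. -/
lemma residue_intCast_eq_zero_iff {A : ValuationSubring Qbar} {q : ℕ} (hq : q.Prime)
    (hA : A.LiesOverPrime q) (n : ℤ) :
    IsLocalRing.residue A (n : A) = 0 ↔ (q : ℤ) ∣ n := by
  rw [residue_eq_zero_iff, show ((n : A) : Qbar) = (n : Qbar) by norm_cast,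
    valuation_intCast_lt_one_iff hq hA]

/-- An integer prime to `q` stays nonzero in the residue field. -/
lemma natCast_residue_ne_zero {A : ValuationSubring Qbar} {q : ℕ} (hq : q.Prime)
    (hA : A.LiesOverPrime q) {n : ℕ} (hn : ¬q ∣ n) : (n : IsLocalRing.ResidueField A) ≠ 0 := by
  intro h
  apply hn
  have h2 : IsLocalRing.residue A ((n : ℤ) : A) = 0 := by rw [map_intCast]; exact_mod_cast h
  exact_mod_cast (residue_intCast_eq_zero_iff hq hA (n : ℤ)).mp h2

/-- The integral model at a valuation subring. -/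
noncomputable def modelAt (W : WeierstrassCurve ℤ) (A : ValuationSubring Qbar) :
    WeierstrassCurve A :=
  W.map (Int.castRingHom A)

/-- The local model maps to the base changes of the integral one. -/
lemma map_modelAt_eq {S : Type*} [CommRing S] (W : WeierstrassCurve ℤ)
    (A : ValuationSubring Qbar) (f : A →+* S) :
    (modelAt W A).map f = W.map (Int.castRingHom S) := by
  rw [modelAt, WeierstrassCurve.map_map, RingHom.ext_int (f.comp (Int.castRingHom A))]

/-- The model at a place over a prime not dividing the discriminant is nonsingular residually. -/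
lemma residue_modelAt_Δ {W : WeierstrassCurve ℤ} {A : ValuationSubring Qbar} {q : ℕ} (hq : q.Prime)
    (hA : A.LiesOverPrime q) (hd : ¬(q : ℤ) ∣ W.Δ) :
    IsLocalRing.residue A (modelAt W A).Δ ≠ 0 := by
  rw [show (modelAt W A).Δ = (W.Δ : A) by rw [modelAt, WeierstrassCurve.map_Δ]; rfl, Ne,
    residue_intCast_eq_zero_iff hq hA]
  exact hd

/-- The generic fibre of the local model is the curve over `ℚ̄`. -/
lemma gen_modelAt (W : WeierstrassCurve ℤ) (A : ValuationSubring Qbar) :
    ((W.map (Int.castRingHom ℚ))⁄Qbar).toAffine = (gen (modelAt W A)).toAffine := by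
  show ((W.map (Int.castRingHom ℚ)).map (algebraMap ℚ Qbar)) = (modelAt W A).map A.subtype
  rw [map_modelAt_eq, WeierstrassCurve.map_map, RingHom.ext_int
    ((algebraMap ℚ Qbar).comp (Int.castRingHom ℚ))]

/-- Points over `ℚ̄` as points of the generic fibre of the integral model. -/
noncomputable def toGen (W : WeierstrassCurve ℤ) (A : ValuationSubring Qbar) :
    ((W.map (Int.castRingHom ℚ))⁄Qbar).Point ≃+ (gen (modelAt W A)).toAffine.Point :=
  pointCongr (gen_modelAt W A)

/-- Transport to the generic fibre keeps coordinates. -/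
lemma toGen_some (W : WeierstrassCurve ℤ) (A : ValuationSubring Qbar) {x y : Qbar}
    (h : ((W.map (Int.castRingHom ℚ))⁄Qbar).toAffine.Nonsingular x y) :
    toGen W A (.some x y h) = .some x y (gen_modelAt W A ▸ h) :=
  pointCongr_some _ h

/-- Lying in the identity component means nonsingular reduction. -/
lemma inZeroComponentAt_iff (W : WeierstrassCurve ℤ) (A : ValuationSubring Qbar)
    (P : ((W.map (Int.castRingHom ℚ))⁄Qbar).Point) :
    W.InZeroComponentAt A P ↔ IsE0 (toGen W A P) := by
  rcases P with _ | ⟨x, y, h⟩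
  · rw [← Affine.Point.zero_def, map_zero]
    exact iff_of_true (Or.inl rfl) isE0_zero
  rw [toGen_some]
  have h' : (gen (modelAt W A)).toAffine.Nonsingular x y := gen_modelAt W A ▸ h
  by_cases hx : x ∈ A
  · rw [isE0_some_iff_of_mem _ hx, spc, map_modelAt_eq]
    constructor
    · rintro (h0 | ⟨x', y', h'', e, hh⟩)
      · exact absurd h0 (Affine.Point.some_ne_zero h)
      · injection e with ex ey
        subst ex
        subst ey
        exact (hh.resolve_left (not_not.mpr hx)).choose_spec.choose_spec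
    · exact fun hns => Or.inr ⟨x, y, h, rfl, Or.inr ⟨hx, y_mem_of_x_mem h'.1 hx, hns⟩⟩
  · exact iff_of_true (Or.inr ⟨x, y, h, rfl, Or.inl hx⟩) ((isE1_some_iff _).mpr hx).isE0

/-- Galois fixes the origin. -/
lemma galois_smul_zero (W : WeierstrassCurve ℤ) (σ : Qbar ≃ₐ[ℚ] Qbar) :
    σ • (0 : ((W.map (Int.castRingHom ℚ))⁄Qbar).Point) = 0 := rfl

/-- Galois commutes with multiples. -/
lemma galois_smul_nsmul (W : WeierstrassCurve ℤ) (σ : Qbar ≃ₐ[ℚ] Qbar) (n : ℕ)
    (P : ((W.map (Int.castRingHom ℚ))⁄Qbar).Point) : σ • (n • P) = n • (σ • P) :=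
  map_nsmul (Affine.Point.map σ.toAlgHom) n P

/-- The coordinates of `σ P` are the conjugates of those of `P`. -/
lemma isConj_toGen (W : WeierstrassCurve ℤ) (A : ValuationSubring Qbar)
    (σ : Qbar ≃ₐ[ℚ] Qbar) (P : ((W.map (Int.castRingHom ℚ))⁄Qbar).Point) :
    IsConj (σ : Qbar →+* Qbar) (toGen W A P) (toGen W A (σ • P)) := by
  rcases P with _ | ⟨x, y, h⟩
  · rw [← Affine.Point.zero_def, galois_smul_zero, map_zero]; exact isConj_zero _
  · have h2 : ((W.map (Int.castRingHom ℚ))⁄Qbar).toAffine.Nonsingular (σ x) (σ y) :=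
      (Affine.baseChange_nonsingular (W := W.map (Int.castRingHom ℚ)) (f := σ.toAlgHom)
        σ.injective x y).mpr h
    have e : σ • (Affine.Point.some x y h : ((W.map (Int.castRingHom ℚ))⁄Qbar).Point)
        = .some (σ x) (σ y) h2 := rfl
    rw [e, toGen_some, toGen_some]
    exact ⟨_, rfl⟩

/-- At a multiplicative prime some integral translate of `W` is a node model, its `a₆` having the
valuation of the discriminant. -/
lemma exists_nodeModel_at (W : WeierstrassCurve ℤ) (A : ValuationSubring Qbar) {q : ℕ}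
    (hq : q.Prime) (hA : A.LiesOverPrime q) (hΔ0 : W.Δ ≠ 0) (hΔ : (q : ℤ) ∣ W.Δ)
    (hc4 : ¬(q : ℤ) ∣ W.c₄) :
    ∃ r t : A, Nonempty (NodeModel (translation r t • modelAt W A)) ∧
      A.valuation ((translation r t • modelAt W A).a₆ : Qbar) = A.valuation (W.Δ : Qbar) := by
  have eΔ : (modelAt W A).Δ = (W.Δ : A) := by rw [modelAt, WeierstrassCurve.map_Δ]; rfl
  have ec4 : (modelAt W A).c₄ = (W.c₄ : A) := by rw [modelAt, WeierstrassCurve.map_c₄]; rfl
  obtain ⟨r, t, hM, hv⟩ := exists_nodeModel (modelAt W A)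
    (by rw [eΔ]; intro h; exact hΔ0 (by exact_mod_cast congr_arg (Subtype.val : A → Qbar) h))
    (by rw [eΔ, residue_intCast_eq_zero_iff hq hA]; exact hΔ)
    (by rw [ec4, Ne, residue_intCast_eq_zero_iff hq hA]; exact hc4)
  refine ⟨r, t, hM, ?_⟩
  rw [hv, eΔ]; norm_cast

section

variable {W : WeierstrassCurve ℤ} {A : ValuationSubring Qbar} {q : ℕ}

/-- Galois fixes integers. -/
lemma map_coeff_eq (σ : Qbar →+* Qbar) (n : ℤ) : σ ((n : A) : Qbar) = ((n : A) : Qbar) := by
  rw [show ((n : A) : Qbar) = (n : Qbar) by norm_cast, map_intCast]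

/-- Conjugate points stay conjugate in translated coordinates. -/
lemma IsConj.of_translatePoint {r t : A} {s : Qbar →+* Qbar} (hr : s r = r) (ht : s t = t)
    {Q Q' : (gen (translation r t • modelAt W A)).toAffine.Point}
    (h : IsConj s (translatePoint (modelAt W A) r t Q) (translatePoint (modelAt W A) r t Q')) :
    IsConj s Q Q' := by
  set C := (translation r t).map A.subtype with hC
  have h1 := IsConj.vcHom_pullback C (gen (modelAt W A))
    (by simp [hC, translation, VariableChange.map])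
    (by simpa [hC, translation, VariableChange.map] using hr)
    (by simp [hC, translation, VariableChange.map])
    (by simpa [hC, translation, VariableChange.map] using ht)
    (P := pointCongr (translate_gen (modelAt W A) r t).symm Q)
    (P' := pointCongr (translate_gen (modelAt W A) r t).symm Q') h
  have h2 := h1.congr (translate_gen (modelAt W A) r t)
  have key : ∀ {E E' : Affine Qbar} (e : E = E') (x : E'.Point),
      pointCongr e (pointCongr e.symm x) = x := by
    intro E E' e x; subst e; rfl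
  rwa [key, key] at h2

/-- Transport of a pair of conjugate points to the node model. -/
lemma exists_pullback {r t : A} (M : NodeModel (translation r t • modelAt W A))
    {σ : Qbar ≃ₐ[ℚ] Qbar} (hσ : ActsInertially A (σ : Qbar →+* Qbar))
    (P : ((W.map (Int.castRingHom ℚ))⁄Qbar).Point) :
    ∃ Q Q', translatePoint (modelAt W A) r t Q = toGen W A P ∧
      translatePoint (modelAt W A) r t Q' = toGen W A (σ • P) ∧
      IsConj (σ : Qbar →+* Qbar) Q Q' ∧
      (σ : Qbar →+* Qbar) M.α = M.α ∧ (σ : Qbar →+* Qbar) M.β = M.β := by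
  obtain ⟨Q, hQ⟩ := (translatePoint_bijective (modelAt W A) r t).2 (toGen W A P)
  obtain ⟨Q', hQ'⟩ := (translatePoint_bijective (modelAt W A) r t).2 (toGen W A (σ • P))
  set s : Qbar →+* Qbar := (σ : Qbar →+* Qbar) with hs
  obtain ⟨hr, ht⟩ := NodeModel.map_translation_eq (W := modelAt W A) (hσ.residue_eq r.2)
    (map_coeff_eq s W.a₁) (map_coeff_eq s W.a₂) (map_coeff_eq s W.a₃) (map_coeff_eq s W.a₄) M
  refine ⟨Q, Q', hQ, hQ', ?_, ?_⟩
  · exact IsConj.of_translatePoint hr ht (by rw [hQ, hQ']; exact isConj_toGen W A σ P)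
  · have e₁ : (translation r t • modelAt W A).a₁ = (W.a₁ : A) := by
      simp [translation, variableChange_def, modelAt]
    have e₂ : (translation r t • modelAt W A).a₂ = (W.a₂ : A) + 3 * r := by
      simp [translation, variableChange_def, modelAt]
    apply M.map_slopes_eq hσ
    · rw [e₁]; exact map_coeff_eq s W.a₁
    · rw [e₂]
      show s (A.subtype ((W.a₂ : A) + 3 * r)) = A.subtype ((W.a₂ : A) + 3 * r)
      simp only [map_add, map_mul, map_ofNat, map_intCast, ValuationSubring.subtype_apply, hr]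

/-- At a multiplicative prime, inertia acts trivially modulo the identity component. -/
theorem inertia_sub_inZeroComponentAt (hq : q.Prime) (hA : A.LiesOverPrime q) (hΔ0 : W.Δ ≠ 0)
    (hΔ : (q : ℤ) ∣ W.Δ) (hc4 : ¬(q : ℤ) ∣ W.c₄) {σ : Qbar ≃ₐ[ℚ] Qbar}
    (hσ : σ ∈ A.inertiaSubgroupIn ℚ) (P : ((W.map (Int.castRingHom ℚ))⁄Qbar).Point) :
    W.InZeroComponentAt A (P - σ • P) := by
  have hi := actsInertially_of_mem A σ hσ
  obtain ⟨r, t, ⟨M⟩, -⟩ := exists_nodeModel_at W A hq hA hΔ0 hΔ hc4
  obtain ⟨Q, Q', hQ, hQ', hc, hα, hβ⟩ := exists_pullback M hi P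
  rw [inZeroComponentAt_iff, map_sub, ← hQ, ← hQ', ← map_sub, isE0_translatePoint]
  exact M.sub_isE0_of_isConj hi hα hβ hc

/-- Inertia fixes torsion of order prime to `q` in the identity component. -/
theorem inertia_fixes_of_inZeroComponentAt (hq : q.Prime) (hA : A.LiesOverPrime q) {n : ℕ}
    (hqn : ¬q ∣ n) {σ : Qbar ≃ₐ[ℚ] Qbar} (hσ : σ ∈ A.inertiaSubgroupIn ℚ)
    {P : ((W.map (Int.castRingHom ℚ))⁄Qbar).Point} (hP : W.InZeroComponentAt A P)
    (hn : n • P = 0) : σ • P = P := by
  apply (toGen W A).injective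
  refine conj_eq_self_of_isE0 (actsInertially_of_mem A σ hσ) (isConj_toGen W A σ P)
    ((inZeroComponentAt_iff W A P).mp hP) (natCast_residue_ne_zero hq hA hqn)
    (by rw [← map_nsmul, hn, map_zero]) ?_
  rw [← map_nsmul, ← galois_smul_nsmul, hn, galois_smul_zero, map_zero]

/-- Good reduction: inertia fixes torsion of order prime to `q`. -/
theorem inertia_fixes_of_good (hq : q.Prime) (hA : A.LiesOverPrime q)
    (hΔ : ¬(q : ℤ) ∣ W.Δ) {n : ℕ} (hqn : ¬q ∣ n) {σ : Qbar ≃ₐ[ℚ] Qbar}
    (hσ : σ ∈ A.inertiaSubgroupIn ℚ) {P : ((W.map (Int.castRingHom ℚ))⁄Qbar).Point}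
    (hn : n • P = 0) : σ • P = P := by
  refine inertia_fixes_of_inZeroComponentAt hq hA hqn hσ ?_ hn
  rw [inZeroComponentAt_iff]
  exact isE0_of_residue_Δ_ne_zero (residue_modelAt_Δ hq hA hΔ) _

/-- Multiplicative reduction with discriminant an `n`-th power at `q`: inertia fixes the
`n`-torsion. -/
theorem inertia_fixes_of_multiplicative (hq : q.Prime) (hA : A.LiesOverPrime q)
    (hΔ0 : W.Δ ≠ 0) (hΔ : (q : ℤ) ∣ W.Δ) (hc4 : ¬(q : ℤ) ∣ W.c₄) {n : ℕ} (hodd : Odd n)
    (hqn : ¬q ∣ n) {d : ℤ} (hd : A.valuation (W.Δ : Qbar) = A.valuation (d : Qbar) ^ n)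
    {σ : Qbar ≃ₐ[ℚ] Qbar} (hσ : σ ∈ A.inertiaSubgroupIn ℚ)
    {P : ((W.map (Int.castRingHom ℚ))⁄Qbar).Point} (hn : n • P = 0) : σ • P = P := by
  have hi := actsInertially_of_mem A σ hσ
  obtain ⟨r, t, ⟨M⟩, hv⟩ := exists_nodeModel_at W A hq hA hΔ0 hΔ hc4
  obtain ⟨Q, Q', hQ, hQ', hc, hα, hβ⟩ := exists_pullback M hi P
  have hinj := (translatePoint_bijective (modelAt W A) r t).1
  have hσn : n • σ • P = 0 := by rw [← galois_smul_nsmul, hn, galois_smul_zero]
  have e := M.conj_eq_self hi hα hβ hodd (natCast_residue_ne_zero hq hA hqn)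
    (π := (d : Qbar)) (map_intCast _ d) (hv.trans hd) hc
    (hinj (by rw [map_nsmul, hQ, ← map_nsmul, hn, map_zero, map_zero]))
    (hinj (by rw [map_nsmul, hQ', ← map_nsmul, hσn, map_zero, map_zero]))
  apply (toGen W A).injective
  rw [← hQ', e, hQ]

end

end FermatAgent.ECLocal
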