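import Mathlib.AlgebraicGeometry.EllipticCurve.Affine.Point
import Mathlib.AlgebraicGeometry.EllipticCurve.VariableChange
import Mathlib.Tactic.LinearCombination
import Mathlib.Tactic.FieldSimp

/-!
# Transport of points along equalities and changes of variables
-/

set_option autoImplicit false

universe u

namespace FermatAgent.ECLocal

open WeierstrassCurve WeierstrassCurve.Affine

variable {K : Type u} [Field K] [DecidableEq K]

/-- Points of equal curves. -/
def pointCongr {W W' : Affine K} (h : W = W') : W.Point ≃+ W'.Point :=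
  h ▸ AddEquiv.refl _

/-- Transport along equal curves keeps coordinates. -/
lemma pointCongr_some {W W' : Affine K} (h : W = W') {x y : K} (hxy : W.Nonsingular x y) :
    pointCongr h (.some x y hxy) = .some x y (h ▸ hxy) := by
  subst h; rfl

omit [DecidableEq K] in
/-- A change of variables preserves nonsingularity. -/
lemma nonsingular_variableChange_iff (C : VariableChange K) (W : WeierstrassCurve K) (x y : K) :
    W.toAffine.Nonsingular ((C.u : K) ^ 2 * x + C.r)
        ((C.u : K) ^ 3 * y + (C.u : K) ^ 2 * C.s * x + C.t) ↔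
      (C • W).toAffine.Nonsingular x y := by
  have hu : (C.u : K) ≠ 0 := C.u.ne_zero
  set X := (C.u : K) ^ 2 * x + C.r with hX
  set Y := (C.u : K) ^ 3 * y + (C.u : K) ^ 2 * C.s * x + C.t with hY
  have he : Y ^ 2 + W.a₁ * X * Y + W.a₃ * Y - (X ^ 3 + W.a₂ * X ^ 2 + W.a₄ * X + W.a₆)
      = (C.u : K) ^ 6 * (y ^ 2 + (C • W).a₁ * x * y + (C • W).a₃ * y -
        (x ^ 3 + (C • W).a₂ * x ^ 2 + (C • W).a₄ * x + (C • W).a₆)) := by
    rw [hX, hY, variableChange_def]
    simp only [Units.val_inv_eq_inv_val]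
    field_simp
    ring
  have hy' : 2 * Y + W.a₁ * X + W.a₃
      = (C.u : K) ^ 3 * (2 * y + (C • W).a₁ * x + (C • W).a₃) := by
    rw [hX, hY, variableChange_def]
    simp only [Units.val_inv_eq_inv_val]
    field_simp
    ring
  have hx' : W.a₁ * Y - (3 * X ^ 2 + 2 * W.a₂ * X + W.a₄)
      = (C.u : K) ^ 4 * ((C • W).a₁ * y - (3 * x ^ 2 + 2 * (C • W).a₂ * x + (C • W).a₄))
        - C.s * (2 * Y + W.a₁ * X + W.a₃) := by
    rw [hX, hY, variableChange_def]
    simp only [Units.val_inv_eq_inv_val]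
    field_simp
    ring
  rw [nonsingular_iff', nonsingular_iff', equation_iff', equation_iff', he,
    mul_eq_zero_iff_left (pow_ne_zero 6 hu)]
  refine and_congr_right fun _ => ?_
  rw [← not_and_or, ← not_and_or]
  refine not_congr ⟨fun ⟨hA, hB⟩ => ?_, fun ⟨hA, hB⟩ => ?_⟩
  · rw [hx', hB, mul_zero, sub_zero, mul_eq_zero_iff_left (pow_ne_zero 4 hu)] at hA
    rw [hy', mul_eq_zero_iff_left (pow_ne_zero 3 hu)] at hB
    exact ⟨hA, hB⟩
  · have hB' : 2 * Y + W.a₁ * X + W.a₃ = 0 := by rw [hy', hB, mul_zero]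
    exact ⟨by rw [hx', hA, hB', mul_zero, mul_zero, sub_zero], hB'⟩

/-- The map `(x, y) ↦ (u²x + r, u³y + u²sx + t)` as a function on points. -/
def vcFun (C : VariableChange K) (W : WeierstrassCurve K) :
    (C • W).toAffine.Point → W.toAffine.Point
  | .zero => .zero
  | .some x y h => .some _ _ ((nonsingular_variableChange_iff C W x y).mpr h)

lemma vcFun_add (C : VariableChange K) (W : WeierstrassCurve K)
    (P Q : (C • W).toAffine.Point) : vcFun C W (P + Q) = vcFun C W P + vcFun C W Q := by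
  have hu : (C.u : K) ≠ 0 := C.u.ne_zero
  rcases P with _ | ⟨x₁, y₁, h₁⟩
  · rw [← Point.zero_def, zero_add]; show _ = (0 : W.toAffine.Point) + _; rw [zero_add]
  rcases Q with _ | ⟨x₂, y₂, h₂⟩
  · rw [← Point.zero_def, add_zero]; show _ = _ + (0 : W.toAffine.Point); rw [add_zero]
  have hX : ∀ a b : K, (C.u : K) ^ 2 * a + C.r = (C.u : K) ^ 2 * b + C.r ↔ a = b :=
    fun a b => by simp [hu]
  have hneg : W.toAffine.negY ((C.u : K) ^ 2 * x₂ + C.r)
      ((C.u : K) ^ 3 * y₂ + (C.u : K) ^ 2 * C.s * x₂ + C.t)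
      = (C.u : K) ^ 3 * (C • W).toAffine.negY x₂ y₂ + (C.u : K) ^ 2 * C.s * x₂ + C.t := by
    rw [negY, negY]
    show _ = (C.u : K) ^ 3 * (-y₂ - (C • W).a₁ * x₂ - (C • W).a₃) + _ + _
    rw [variableChange_def]
    simp only [Units.val_inv_eq_inv_val]
    field_simp
    ring
  by_cases hxy : x₁ = x₂ ∧ y₁ = (C • W).toAffine.negY x₂ y₂
  · rw [Point.add_of_Y_eq hxy.1 hxy.2]
    simp only [vcFun]
    rw [Point.add_of_Y_eq]
    · rfl
    · rw [hxy.1]
    · rw [hneg, hxy.1, hxy.2]
  · rw [Point.add_some hxy]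
    simp only [vcFun]
    have hxy' : ¬((C.u : K) ^ 2 * x₁ + C.r = (C.u : K) ^ 2 * x₂ + C.r ∧
        (C.u : K) ^ 3 * y₁ + (C.u : K) ^ 2 * C.s * x₁ + C.t =
          W.toAffine.negY ((C.u : K) ^ 2 * x₂ + C.r)
            ((C.u : K) ^ 3 * y₂ + (C.u : K) ^ 2 * C.s * x₂ + C.t)) := by
      rintro ⟨ha, hb⟩
      obtain rfl := (hX _ _).mp ha
      rw [hneg] at hb
      exact hxy ⟨rfl, mul_left_cancel₀ (pow_ne_zero 3 hu) (by linear_combination hb)⟩
    rw [Point.add_some hxy']
    set L := (C • W).toAffine.slope x₁ x₂ y₁ y₂ with hL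
    have hslope : W.toAffine.slope ((C.u : K) ^ 2 * x₁ + C.r) ((C.u : K) ^ 2 * x₂ + C.r)
        ((C.u : K) ^ 3 * y₁ + (C.u : K) ^ 2 * C.s * x₁ + C.t)
        ((C.u : K) ^ 3 * y₂ + (C.u : K) ^ 2 * C.s * x₂ + C.t) = C.u * L + C.s := by
      by_cases hx : x₁ = x₂
      · subst hx
        have hy : y₁ ≠ (C • W).toAffine.negY x₁ y₂ := fun h => hxy ⟨rfl, h⟩
        have hy' := fun h => hxy' ⟨rfl, h⟩
        have hyy : y₁ = y₂ := Y_eq_of_Y_ne h₁.1 h₂.1 rfl hy
        subst hyy
        rw [hL, slope_of_Y_ne rfl hy, slope_of_Y_ne rfl hy', hneg]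
        have hd : y₁ - (C • W).toAffine.negY x₁ y₁ ≠ 0 := sub_ne_zero.mpr hy
        have hd' : (C.u : K) ^ 3 * y₁ + (C.u : K) ^ 2 * C.s * x₁ + C.t -
            ((C.u : K) ^ 3 * (C • W).toAffine.negY x₁ y₁ + (C.u : K) ^ 2 * C.s * x₁ + C.t)
            = (C.u : K) ^ 3 * (y₁ - (C • W).toAffine.negY x₁ y₁) := by ring
        rw [hd', div_eq_iff (mul_ne_zero (pow_ne_zero 3 hu) hd), add_mul,
          mul_mul_mul_comm, div_mul_cancel₀ _ hd]
        simp only [negY, variableChange_def, Units.val_inv_eq_inv_val]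
        field_simp
        ring
      · rw [hL, slope_of_X_ne hx, slope_of_X_ne (fun h => hx ((hX _ _).mp h))]
        have hd : x₁ - x₂ ≠ 0 := sub_ne_zero.mpr hx
        rw [show (C.u : K) ^ 2 * x₁ + C.r - ((C.u : K) ^ 2 * x₂ + C.r)
          = (C.u : K) ^ 2 * (x₁ - x₂) by ring]
        field_simp
        ring
    have hax : (C.u : K) ^ 2 * (C • W).toAffine.addX x₁ x₂ L + C.r =
        W.toAffine.addX ((C.u : K) ^ 2 * x₁ + C.r) ((C.u : K) ^ 2 * x₂ + C.r) (C.u * L + C.s) := by
      simp only [addX, variableChange_def, Units.val_inv_eq_inv_val]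
      field_simp
      ring
    have hay : (C.u : K) ^ 3 * (C • W).toAffine.addY x₁ x₂ y₁ L +
        (C.u : K) ^ 2 * C.s * (C • W).toAffine.addX x₁ x₂ L + C.t =
        W.toAffine.addY ((C.u : K) ^ 2 * x₁ + C.r) ((C.u : K) ^ 2 * x₂ + C.r)
          ((C.u : K) ^ 3 * y₁ + (C.u : K) ^ 2 * C.s * x₁ + C.t) (C.u * L + C.s) := by
      simp only [addY, negY, negAddY, addX, variableChange_def, Units.val_inv_eq_inv_val]
      field_simp
      ring
    simp only [Point.some.injEq, hslope]
    exact ⟨hax, hay⟩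

/-- The group homomorphism on points induced by a change of variables. -/
def vcHom (C : VariableChange K) (W : WeierstrassCurve K) :
    (C • W).toAffine.Point →+ W.toAffine.Point where
  toFun := vcFun C W
  map_zero' := rfl
  map_add' := vcFun_add C W

/-- The map of a change of variables on coordinates. -/
lemma vcHom_some (C : VariableChange K) (W : WeierstrassCurve K) {x y : K}
    (h : (C • W).toAffine.Nonsingular x y) :
    vcHom C W (.some x y h) = .some _ _ ((nonsingular_variableChange_iff C W x y).mpr h) :=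
  rfl

/-- The map of a change of variables is injective. -/
lemma vcHom_injective (C : VariableChange K) (W : WeierstrassCurve K) :
    Function.Injective (vcHom C W) := by
  have hu : (C.u : K) ≠ 0 := C.u.ne_zero
  rintro (_ | ⟨x₁, y₁, h₁⟩) (_ | ⟨x₂, y₂, h₂⟩) h
  · rfl
  · cases h
  · cases h
  · change Point.some _ _ _ = Point.some _ _ _ at h
    simp only [Point.some.injEq] at h
    obtain ⟨ha, hb⟩ := h
    have : x₁ = x₂ := mul_left_cancel₀ (pow_ne_zero 2 hu) (by linear_combination ha)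
    subst this
    have : y₁ = y₂ := mul_left_cancel₀ (pow_ne_zero 3 hu) (by linear_combination hb)
    subst this
    rfl

/-- The map of a change of variables is surjective. -/
lemma vcHom_surjective (C : VariableChange K) (W : WeierstrassCurve K) :
    Function.Surjective (vcHom C W) := by
  have hu : (C.u : K) ≠ 0 := C.u.ne_zero
  rintro (_ | ⟨X, Y, h⟩)
  · exact ⟨0, map_zero _⟩
  · set x := (X - C.r) / (C.u : K) ^ 2 with hx
    set y := (Y - (C.u : K) ^ 2 * C.s * x - C.t) / (C.u : K) ^ 3 with hy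
    have hX : (C.u : K) ^ 2 * x + C.r = X := by rw [hx]; field_simp; ring
    have hY : (C.u : K) ^ 3 * y + (C.u : K) ^ 2 * C.s * x + C.t = Y := by
      rw [hy]; field_simp; ring
    refine ⟨.some x y ((nonsingular_variableChange_iff C W x y).mp (by rw [hX, hY]; exact h)), ?_⟩
    simp only [vcHom_some, Point.some.injEq]
    exact ⟨hX, hY⟩

end FermatAgent.ECLocal
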