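import Fermat.Agent.ECLocal.Concordant
import Mathlib.Data.Rat.Defs
import Mathlib.Algebra.Field.Rat

/-!
# Rational points on `Y² = M⁴ + 14M² + 625`, a model of `X₀(15)`
-/

set_option autoImplicit false

namespace FermatAgent.ECLocal

/-- The rational points of the quartic have `M = 0` or `M = ± 5`. -/
theorem quartic_fifteen {M Y : ℚ} (h : Y ^ 2 = M ^ 4 + 14 * M ^ 2 + 625) :
    M = 0 ∨ M = 5 ∨ M = -5 := by
  set a := M.num
  set b : ℤ := (M.den : ℤ)
  have hb : (b : ℚ) ≠ 0 := by simp [b]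
  have hM : M = a / b := by simp [a, b, Rat.num_div_den]
  have hsq : IsSquare (((a ^ 2 - 25 * b ^ 2) ^ 2 + 16 * (2 * a * b) ^ 2 : ℤ) : ℚ) :=
    ⟨Y * b ^ 2, by
      rw [show Y * (b : ℚ) ^ 2 * (Y * (b : ℚ) ^ 2) = Y ^ 2 * (b : ℚ) ^ 4 by ring, h, hM]
      push_cast
      field_simp
      ring⟩
  obtain ⟨A, hA⟩ := Rat.isSquare_intCast_iff.mp hsq
  rcases Concordant.mul_eq_zero_of_good (D := a ^ 2 - 25 * b ^ 2) (e := 2 * a * b)
      ⟨⟨A, by rw [hA]; ring⟩, a ^ 2 + 25 * b ^ 2, by ring⟩ with hD | he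
  · have : (a - 5 * b) * (a + 5 * b) = 0 := by linear_combination hD
    rcases mul_eq_zero.mp this with h' | h'
    · exact Or.inr (Or.inl (by rw [hM, show a = 5 * b by linarith]; push_cast; field_simp))
    · exact Or.inr (Or.inr (by rw [hM, show a = -(5 * b) by linarith]; push_cast; field_simp))
  · have ha : a = 0 := by
      rcases mul_eq_zero.mp he with h' | h'
      · simpa using h'
      · exact absurd h' (by simp [b])
    exact Or.inl (by rw [hM, ha]; simp)

end FermatAgent.ECLocal
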