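import Fermat.Agent.ECLocal.AtPrime
import Fermat.Agent.EC.TorsionRat
import Fermat.Agent.GaloisBasic.Inertia

/-!
# Stable lines in `E[p]` of semistable curves

On a Galois stable line of `E[p]` of a semistable curve, or on the quotient by it, every inertia
group acts trivially, so by Minkowski the whole Galois group does.
-/

set_option autoImplicit false

namespace FermatAgent.ECLocal

open WeierstrassCurve
open scoped WeierstrassCurve.Affine Pointwise
open FermatAgent.GaloisBasic (exists_liesOverPrime exists_smul_eq conj_mem_inertiaSubgroupIn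
  eq_top_of_inertia_le)

local notation "Qbar" => AlgebraicClosure ℚ

variable {W : WeierstrassCurve ℤ} {p : ℕ} [hp : Fact p.Prime]

set_option quotPrecheck false in
local notation "Tor" =>
  Submodule.torsionBy ℤ ((W.map (Int.castRingHom ℚ))⁄Qbar).Point p

omit hp in
/-- A `p`-torsion point is killed by `p`. -/
lemma nsmul_coe_torsion (x : Tor) : p • (x : ((W.map (Int.castRingHom ℚ))⁄Qbar).Point) = 0 := by
  have h := x.2
  rwa [Submodule.mem_torsionBy_iff, natCast_zsmul] at h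

/-- At a prime `q ≠ p` of semistable reduction `(σ - 1)² = 0` for inertia `σ`. -/
lemma inertia_unipotent {q : ℕ} (hq : q.Prime) (hqp : q ≠ p) {A : ValuationSubring Qbar}
    (hA : A.LiesOverPrime q) (hΔ0 : W.Δ ≠ 0) (hss : (q : ℤ) ∣ W.Δ → ¬(q : ℤ) ∣ W.c₄)
    {σ : Qbar ≃ₐ[ℚ] Qbar} (hσ : σ ∈ A.inertiaSubgroupIn ℚ) (x : Tor) :
    σ • (σ • x - x) = σ • x - x := by
  have hqn : ¬q ∣ p := fun h => hqp ((Nat.prime_dvd_prime_iff_eq hq hp.out).mp h)
  apply Subtype.ext
  change σ • (σ • x.1 - x.1) = σ • x.1 - x.1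
  by_cases hd : (q : ℤ) ∣ W.Δ
  · have hz := inertia_sub_inZeroComponentAt hq hA hΔ0 hd (hss hd) hσ x.1
    have hn : p • (x.1 - σ • x.1) = 0 := by
      rw [nsmul_sub, ← galois_smul_nsmul, nsmul_coe_torsion, galois_smul_zero, sub_zero]
    have h := inertia_fixes_of_inZeroComponentAt hq hA hqn hσ hz hn
    rw [← neg_sub x.1 (σ • x.1), smul_neg, h]
  · have h := inertia_fixes_of_good hq hA hd hqn hσ (nsmul_coe_torsion x)
    rw [h, sub_self]
    exact galois_smul_zero W σ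

/-- A Galois stable line in `E[p]` of a semistable curve is fixed pointwise or has trivial
quotient. -/
theorem fix_line_or_cofix (hodd : Odd p) (hΔ0 : W.Δ ≠ 0)
    (hss : ∀ q : ℕ, q.Prime → (q : ℤ) ∣ W.Δ → ¬(q : ℤ) ∣ W.c₄)
    {N : Submodule (ZMod p) Tor} (hN : Affine.Point.IsGaloisStable ℚ N) (h0 : N ≠ ⊥)
    (h1 : N ≠ ⊤) :
    (∀ σ : Qbar ≃ₐ[ℚ] Qbar, ∀ x ∈ N, σ • x = x) ∨
      ∀ (σ : Qbar ≃ₐ[ℚ] Qbar) (x : Tor), σ • x - x ∈ N := by
  classical
  have hΔq := EC.intMap_Δ_ne_zero hΔ0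
  have hV2 := EC.finrank_torsionBy_rat (W.map (Int.castRingHom ℚ)) hΔq p
  have : FiniteDimensional (ZMod p) Tor := Module.finite_of_finrank_eq_succ hV2
  have : Finite Tor := Module.finite_of_finite (ZMod p)
  let H₁ : Subgroup (Qbar ≃ₐ[ℚ] Qbar) :=
    { carrier := {σ | ∀ x ∈ N, σ • x = x}
      one_mem' := fun x _ => one_smul _ x
      mul_mem' := fun {σ τ} hσ hτ x hx => by rw [mul_smul, hτ x hx, hσ x hx]
      inv_mem' := fun {σ} hσ x hx => by rw [inv_smul_eq_iff, hσ x hx] }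
  let H₂ : Subgroup (Qbar ≃ₐ[ℚ] Qbar) :=
    { carrier := {σ | ∀ x, σ • x - x ∈ N}
      one_mem' := fun x => by rw [one_smul, sub_self]; exact N.zero_mem
      mul_mem' := fun {σ τ} hσ hτ x => by
        rw [mul_smul, ← sub_add_sub_cancel _ (σ • x), ← smul_sub]
        exact N.add_mem (hN σ _ (hτ x)) (hσ x)
      inv_mem' := fun {σ} hσ x => by
        have h := N.neg_mem (hN σ⁻¹ _ (hσ x))
        rwa [smul_sub, inv_smul_smul, neg_sub] at h }
  have hn₁ : H₁.Normal := ⟨fun σ hσ τ x hx => by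
    rw [mul_smul, mul_smul, hσ _ (hN τ⁻¹ x hx), smul_inv_smul]⟩
  have hn₂ : H₂.Normal := ⟨fun σ hσ τ x => by
    have h := hN τ _ (hσ (τ⁻¹ • x))
    rwa [smul_sub, smul_inv_smul, ← mul_smul, ← mul_smul] at h⟩
  obtain ⟨L, hL, hLfix⟩ := EC.exists_finiteDimensional_fixing (W.map (Int.castRingHom ℚ))
    (Set.range (Subtype.val : Tor → _)) (Set.finite_range _)
  have hfix : ∀ σ ∈ L.fixingSubgroup, ∀ x : Tor, σ • x = x := fun σ hσ x =>
    Subtype.ext (hLfix σ ((IntermediateField.mem_fixingSubgroup_iff L σ).mp hσ) _ ⟨x, rfl⟩)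
  have ho₁ : IsOpen (H₁ : Set (Qbar ≃ₐ[ℚ] Qbar)) :=
    Subgroup.isOpen_mono (fun σ hσ x _ => hfix σ hσ x) L.fixingSubgroup_isOpen
  have ho₂ : IsOpen (H₂ : Set (Qbar ≃ₐ[ℚ] Qbar)) :=
    Subgroup.isOpen_mono (fun σ hσ x => by rw [hfix σ hσ x, sub_self]; exact N.zero_mem)
      L.fixingSubgroup_isOpen
  have hoff : ∀ q : ℕ, q.Prime → q ≠ p → ∀ A : ValuationSubring Qbar, A.LiesOverPrime q →
      A.inertiaSubgroupIn ℚ ≤ H₁ ⊓ H₂ := by
    intro q hq hqp A hA σ hσ
    let t : Module.End (ZMod p) Tor :=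
      Affine.Point.galoisRepModuleEnd ℚ (W.map (Int.castRingHom ℚ)) p σ - 1
    have ht : ∀ x, t x = σ • x - x := fun x => rfl
    obtain ⟨ha, hb⟩ := sq_zero_stable_line hV2 h0 h1 (t := t)
      (fun x => by
        rw [ht, ht, inertia_unipotent hq hqp hA hΔ0 (hss q hq) hσ, sub_self])
      (fun x hx => by rw [ht]; exact N.sub_mem (hN σ x hx) hx)
    exact ⟨fun x hx => sub_eq_zero.mp (ha x hx), fun x => hb x⟩
  obtain ⟨A₀, hA₀⟩ := exists_liesOverPrime hp.out
  have transfer : ∀ H : Subgroup (Qbar ≃ₐ[ℚ] Qbar), H.Normal →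
      A₀.inertiaSubgroupIn ℚ ≤ H → ∀ A : ValuationSubring Qbar, A.LiesOverPrime p →
      A.inertiaSubgroupIn ℚ ≤ H := by
    intro H hH hle A hA σ hσ
    obtain ⟨g, hg⟩ := exists_smul_eq hp.out hA₀ hA
    have h := conj_mem_inertiaSubgroupIn hp.out hA hσ g⁻¹
    have e : g⁻¹ • A = A₀ := by
      rw [← hg]
      exact inv_smul_smul g A₀
    rw [inv_inv, e] at h
    have h' := hH.conj_mem _ (hle h) g
    rwa [show g * (g⁻¹ * σ * g) * g⁻¹ = σ by group] at h'
  rcases inertia_fix_line_or_quotient hodd hA₀ hΔ0 (hss p hp.out) hN h0 h1 with h | h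
  · refine Or.inl fun σ => ?_
    have e := eq_top_of_inertia_le ho₁ fun q hq A hA => by
      by_cases hqp : q = p
      · subst hqp; exact transfer H₁ hn₁ h A hA
      · exact (hoff q hq hqp A hA).trans inf_le_left
    exact (e ▸ Subgroup.mem_top σ : σ ∈ H₁)
  · refine Or.inr fun σ => ?_
    have e := eq_top_of_inertia_le ho₂ fun q hq A hA => by
      by_cases hqp : q = p
      · subst hqp; exact transfer H₂ hn₂ h A hA
      · exact (hoff q hq hqp A hA).trans inf_le_right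
    exact (e ▸ Subgroup.mem_top σ : σ ∈ H₂)

end FermatAgent.ECLocal
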