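import Fermat.Agent.ECLocal.TateNormal
import Fermat.Agent.ECLocal.RatQuartic
import Fermat.Agent.ECLocal.StableLine

/-!
# No semistable curve has Galois stable lines in both `E[3]` and `E[5]`

Lines spanned by `R` of order three and `P` of order five make two functions of the abscissae of
`R`, `P`, `2P` rational; they give a rational point on `Y² = M⁴ + 14M² + 625`, so the parameter
`s` in `j = (s² + 10 s + 5)³ / s` is one of five values, none of which is semistable at `5`.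
-/

set_option autoImplicit false

namespace FermatAgent.ECLocal

open WeierstrassCurve
open scoped WeierstrassCurve.Affine

local notation "Qbar" => AlgebraicClosure ℚ

/-- The abscissa of a point, `0` at infinity. -/
def xcoord {F : Type*} [Field F] {V : Affine F} : V.Point → F
  | .zero => 0
  | .some x _ _ => x

lemma xcoord_neg {F : Type*} [Field F] {V : Affine F} (P : V.Point) : xcoord (-P) = xcoord P := by
  rcases P with _ | ⟨x, y, h⟩ <;> rfl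

lemma eq_or_eq_neg_of_xcoord {F : Type*} [Field F] {V : Affine F} {P Q : V.Point}
    (hP : P ≠ 0) (hQ : Q ≠ 0) (h : xcoord P = xcoord Q) : P = Q ∨ P = -Q := by
  rcases P with _ | ⟨x₁, y₁, h₁⟩
  · exact absurd rfl hP
  rcases Q with _ | ⟨x₂, y₂, h₂⟩
  · exact absurd rfl hQ
  change x₁ = x₂ at h
  rcases Affine.Y_eq_of_X_eq h₁.1 h₂.1 h with e | e
  · exact Or.inl (by simp only [Affine.Point.some.injEq]; exact ⟨h, e⟩)
  · exact Or.inr (by rw [Affine.Point.neg_some]; simp only [Affine.Point.some.injEq]; exact ⟨h, e⟩)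

variable {W : WeierstrassCurve ℤ}

lemma xcoord_smul (σ : Qbar ≃ₐ[ℚ] Qbar) (P : ((W.map (Int.castRingHom ℚ))⁄Qbar).Point) :
    xcoord (σ • P) = σ (xcoord P) := by
  rcases P with _ | ⟨x, y, h⟩
  · exact (map_zero σ).symm
  · rfl

lemma Ψ₂Sq_eval_smul (σ : Qbar ≃ₐ[ℚ] Qbar) (x : Qbar) :
    σ (((W.map (Int.castRingHom ℚ))⁄Qbar).Ψ₂Sq.eval x) =
      ((W.map (Int.castRingHom ℚ))⁄Qbar).Ψ₂Sq.eval (σ x) := by
  have e : ((W.map (Int.castRingHom ℚ))⁄Qbar).Ψ₂Sq = W.Ψ₂Sq.map (Int.castRingHom Qbar) := by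
    show ((W.map (Int.castRingHom ℚ)).map (algebraMap ℚ Qbar)).Ψ₂Sq = _
    rw [WeierstrassCurve.map_map, RingHom.ext_int
      ((algebraMap ℚ Qbar).comp (Int.castRingHom ℚ)) (Int.castRingHom Qbar),
      WeierstrassCurve.map_Ψ₂Sq]
  rw [e, Polynomial.eval_map, Polynomial.eval_map]
  change (σ : Qbar →+* Qbar) _ = _
  rw [Polynomial.hom_eval₂, RingHom.ext_int ((σ : Qbar →+* Qbar).comp (Int.castRingHom Qbar))
    (Int.castRingHom Qbar)]
  rfl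

/-- Galois maps a nonzero point of a stable line to a multiple. -/
lemma exists_smul_eq_nsmul {p : ℕ} [hp : Fact p.Prime] (hΔ0 : W.Δ ≠ 0)
    {N : Submodule (ZMod p)
      (Submodule.torsionBy ℤ ((W.map (Int.castRingHom ℚ))⁄Qbar).Point p)}
    (hN : Affine.Point.IsGaloisStable ℚ N) (h0 : N ≠ ⊥) (h1 : N ≠ ⊤)
    {x : Submodule.torsionBy ℤ ((W.map (Int.castRingHom ℚ))⁄Qbar).Point p} (hx : x ∈ N)
    (hx0 : x ≠ 0) (σ : Qbar ≃ₐ[ℚ] Qbar) :
    ∃ c : ℕ, 0 < c ∧ c < p ∧ σ • (x : ((W.map (Int.castRingHom ℚ))⁄Qbar).Point) = c • x.1 := by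
  classical
  have hV2 := EC.finrank_torsionBy_rat (W.map (Int.castRingHom ℚ))
    (EC.intMap_Δ_ne_zero hΔ0) p
  obtain ⟨c, hc⟩ := (finrank_eq_one_iff_of_nonzero' (⟨x, hx⟩ : N)
    (fun h => hx0 (congr_arg Subtype.val h))).mp (finrank_line hV2 h0 h1) ⟨σ • x, hN σ x hx⟩
  have hc' : c • x = σ • x := congr_arg Subtype.val hc
  refine ⟨c.val, Nat.pos_of_ne_zero fun hz => hx0 ?_, ZMod.val_lt c, ?_⟩
  · rw [(ZMod.val_eq_zero c).mp hz, zero_smul] at hc'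
    rwa [eq_comm, smul_eq_zero_iff_eq] at hc'
  · rw [← ZMod.natCast_zmod_val c, Nat.cast_smul_eq_nsmul] at hc'
    exact (congr_arg Subtype.val hc').symm

/-- A nonzero line contains an affine point. -/
lemma exists_point_of_line {p : ℕ}
    {N : Submodule (ZMod p)
      (Submodule.torsionBy ℤ ((W.map (Int.castRingHom ℚ))⁄Qbar).Point p)} (h0 : N ≠ ⊥) :
    ∃ x ∈ N, x ≠ 0 ∧ ∃ a b h, (x : ((W.map (Int.castRingHom ℚ))⁄Qbar).Point) = .some a b h := by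
  obtain ⟨x, hx, hx0⟩ := Submodule.exists_mem_ne_zero_of_ne_bot h0
  refine ⟨x, hx, hx0, ?_⟩
  rcases hxe : (x : ((W.map (Int.castRingHom ℚ))⁄Qbar).Point) with _ | ⟨a, b, h⟩
  · exact absurd (Subtype.ext hxe) hx0
  · exact ⟨a, b, h, rfl⟩

/-- For `5 ∣ b`, `125 ∤ b`, `5 ∤ a` a curve semistable at `5` has `c₄³ a ≠ Δ b`. -/
lemma no_c₄_cube_relation (hss : (5 : ℤ) ∣ W.Δ → ¬(5 : ℤ) ∣ W.c₄) {a b : ℤ} (ha : ¬(5 : ℤ) ∣ a)
    (hb : (5 : ℤ) ∣ b) (hb' : ¬(125 : ℤ) ∣ b) : W.c₄ ^ 3 * a ≠ W.Δ * b := by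
  intro h
  have h5 : Prime (5 : ℤ) := Int.prime_iff_natAbs_prime.mpr (by norm_num)
  have hc : (5 : ℤ) ∣ W.c₄ :=
    h5.dvd_of_dvd_pow ((h5.dvd_or_dvd (h ▸ hb.mul_left W.Δ)).resolve_right ha)
  have h125 : (5 : ℤ) ^ 3 ∣ W.Δ * b := h ▸ (pow_dvd_pow_of_dvd hc 3).mul_right a
  exact hb' (by
    simpa using h5.pow_dvd_of_dvd_mul_left 3 (fun hd => hss hd hc) h125)

/-- The finitely many values of the parameter. -/
lemma parameter_values {G Y : ℚ} (hY : Y ^ 2 = 16 * ((G ^ 2 + 4) * ((G + 3) ^ 2 + 4))) :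
    ((G + 3) * (Y / 4) - G * ((G + 3) ^ 2 + 2)) / 2 - 11 ∈
      ({0, -10, -40, -25 / 8, -25 / 2} : Set ℚ) := by
  have hq : Y ^ 2 = (2 * G + 3) ^ 4 + 14 * (2 * G + 3) ^ 2 + 625 := by rw [hY]; ring
  rcases quartic_fifteen hq with h | h | h
  · have hG : G = -3 / 2 := by linarith
    subst hG
    have : Y = 25 ∨ Y = -25 := sq_eq_sq_iff_eq_or_eq_neg.mp (by rw [hY]; norm_num)
    rcases this with rfl | rfl <;> norm_num
  · have hG : G = 1 := by linarith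
    subst hG
    have : Y = 40 ∨ Y = -40 := sq_eq_sq_iff_eq_or_eq_neg.mp (by rw [hY]; norm_num)
    rcases this with rfl | rfl <;> norm_num
  · have hG : G = -4 := by linarith
    subst hG
    have : Y = 40 ∨ Y = -40 := sq_eq_sq_iff_eq_or_eq_neg.mp (by rw [hY]; norm_num)
    rcases this with rfl | rfl <;> norm_num

/-- None of the five parameter values occurs for a curve semistable at `5`. -/
lemma false_of_parameter (hΔ0 : W.Δ ≠ 0) (hss : (5 : ℤ) ∣ W.Δ → ¬(5 : ℤ) ∣ W.c₄) {s : ℚ}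
    (hmem : s ∈ ({0, -10, -40, -25 / 8, -25 / 2} : Set ℚ))
    (hrel : (W.c₄ : ℚ) ^ 3 * s = (W.Δ : ℚ) * (s ^ 2 + 10 * s + 5) ^ 3) : False := by
  simp only [Set.mem_insert_iff, Set.mem_singleton_iff] at hmem
  rcases hmem with e | e | e | e | e <;> rw [e] at hrel <;> norm_num at hrel
  · exact hΔ0 (by exact_mod_cast hrel)
  · refine no_c₄_cube_relation hss (a := 2) (b := -25) (by norm_num) (by norm_num) (by norm_num) ?_
    have : (W.c₄ : ℚ) ^ 3 * 2 = (W.Δ : ℚ) * -25 := by linear_combination (-1 / 5 : ℚ) * hrel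
    exact_mod_cast this
  · refine no_c₄_cube_relation hss (a := 8) (b := -349938025) (by norm_num) (by norm_num)
      (by norm_num) ?_
    have : (W.c₄ : ℚ) ^ 3 * 8 = (W.Δ : ℚ) * -349938025 := by linear_combination (-1 / 5 : ℚ) * hrel
    exact_mod_cast this
  · refine no_c₄_cube_relation hss (a := 32768) (b := 46969655) (by norm_num) (by norm_num)
      (by norm_num) ?_
    have : (W.c₄ : ℚ) ^ 3 * 32768 = (W.Δ : ℚ) * 46969655 := by
      linear_combination (262144 / 25 : ℚ) * hrel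
    exact_mod_cast this
  · refine no_c₄_cube_relation hss (a := 32) (b := -121945) (by norm_num) (by norm_num)
      (by norm_num) ?_
    have : (W.c₄ : ℚ) ^ 3 * 32 = (W.Δ : ℚ) * -121945 := by
      linear_combination (-64 / 25 : ℚ) * hrel
    exact_mod_cast this

/-- On a stable line spanned by `P` of order five, Galois fixes or exchanges the abscissae of `P`
and `2P`. -/
lemma abscissae_fixed_or_swapped [Fact (Nat.Prime 5)] (hΔ0 : W.Δ ≠ 0)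
    {N : Submodule (ZMod 5)
      (Submodule.torsionBy ℤ ((W.map (Int.castRingHom ℚ))⁄Qbar).Point ((5 : ℕ) : ℤ))}
    (hN : Affine.Point.IsGaloisStable ℚ N) (h0 : N ≠ ⊥) (h1 : N ≠ ⊤)
    {v : Submodule.torsionBy ℤ ((W.map (Int.castRingHom ℚ))⁄Qbar).Point ((5 : ℕ) : ℤ)}
    (hv : v ∈ N) (hv0 : v ≠ 0) (hP5 : 5 • v.1 = 0) {x₁ x₂ : Qbar} (k1 : xcoord v.1 = x₁)
    (k2 : xcoord (2 • v.1) = x₂) (σ : Qbar ≃ₐ[ℚ] Qbar) :
    (σ x₁ = x₁ ∧ σ x₂ = x₂) ∨ (σ x₁ = x₂ ∧ σ x₂ = x₁) := by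
  classical
  set P := v.1
  obtain ⟨c, hc0, hc5, hc⟩ := exists_smul_eq_nsmul hΔ0 hN h0 h1 hv hv0 σ
  have a1 : σ x₁ = xcoord (c • P) := by rw [← k1, ← xcoord_smul, hc]
  have a2 : σ x₂ = xcoord ((2 * c) • P) := by
    rw [← k2, ← xcoord_smul, galois_smul_nsmul, hc, ← mul_nsmul, mul_comm]
  have f3 : (3 : ℕ) • P = -(2 • P) := eq_neg_of_add_eq_zero_left (by rw [← add_nsmul]; exact hP5)
  have f4 : (4 : ℕ) • P = -P := eq_neg_of_add_eq_zero_left (by rw [← succ_nsmul]; exact hP5)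
  have f6 : (6 : ℕ) • P = P := by rw [succ_nsmul, hP5, zero_add]
  have f8 : (8 : ℕ) • P = -(2 • P) := by
    rw [show (8 : ℕ) = 5 + 3 from rfl, add_nsmul, hP5, zero_add, f3]
  rw [a1, a2]
  interval_cases c <;> norm_num only [one_nsmul, f3, f4, f6, f8, xcoord_neg, k1, k2] <;> simp

/-- A curve semistable at `5` has no stable lines in both `E[3]` and `E[5]`. -/
theorem false_of_stable_lines (hΔ0 : W.Δ ≠ 0) (hss : (5 : ℤ) ∣ W.Δ → ¬(5 : ℤ) ∣ W.c₄)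
    [Fact (Nat.Prime 3)] [Fact (Nat.Prime 5)]
    {N₃ : Submodule (ZMod 3)
      (Submodule.torsionBy ℤ ((W.map (Int.castRingHom ℚ))⁄Qbar).Point ((3 : ℕ) : ℤ))}
    (hN₃ : Affine.Point.IsGaloisStable ℚ N₃) (h30 : N₃ ≠ ⊥) (h31 : N₃ ≠ ⊤)
    {N₅ : Submodule (ZMod 5)
      (Submodule.torsionBy ℤ ((W.map (Int.castRingHom ℚ))⁄Qbar).Point ((5 : ℕ) : ℤ))}
    (hN₅ : Affine.Point.IsGaloisStable ℚ N₅) (h50 : N₅ ≠ ⊥) (h51 : N₅ ≠ ⊤) : False := by
  classical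
  obtain ⟨u, hu, hu0, x₃, y₃, h3, eu⟩ := exists_point_of_line h30
  obtain ⟨v, hv, hv0, x₁, y₁, h1, ev⟩ := exists_point_of_line h50
  set R := u.1 with hR
  set P := v.1 with hP
  have hR3 : 3 • R = 0 := nsmul_coe_torsion u
  have hP5 : 5 • P = 0 := nsmul_coe_torsion v
  have hR0 : R ≠ 0 := eu ▸ Affine.Point.some_ne_zero h3
  have hP0 : P ≠ 0 := ev ▸ Affine.Point.some_ne_zero h1
  have h2P0 : 2 • P ≠ 0 := fun h => hP0 (eq_zero_of_two_nsmul ⟨2, rfl⟩ (by rwa [← two_nsmul]) hP5)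
  obtain ⟨x₂, y₂, h2, e2⟩ : ∃ a b h, 2 • P = (.some a b h :
      ((W.map (Int.castRingHom ℚ))⁄Qbar).Point) := by
    rcases hc : 2 • P with _ | ⟨a, b, h⟩
    · exact absurd hc h2P0
    · exact ⟨a, b, h, rfl⟩
  have k1 : xcoord P = x₁ := by rw [ev]; rfl
  have k2 : xcoord (2 • P) = x₂ := by rw [e2]; rfl
  have k3 : xcoord R = x₃ := by rw [eu]; rfl
  have hRP : ∀ T : ((W.map (Int.castRingHom ℚ))⁄Qbar).Point,
      T ≠ 0 → 5 • T = 0 → xcoord R ≠ xcoord T := by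
    intro T hT0 hT hx
    have hR5 : 5 • R = 0 := by
      rcases eq_or_eq_neg_of_xcoord hR0 hT0 hx with e | e <;> rw [e] <;> simp [hT]
    apply hR0
    have : R = 2 • (3 • R) - 5 • R := by abel
    rw [this, hR3, hR5, nsmul_zero, sub_zero]
  have n₁ : x₃ ≠ x₁ := k3 ▸ k1 ▸ hRP P hP0 hP5
  have n₂ : x₃ ≠ x₂ :=
    k3 ▸ k2 ▸ hRP _ h2P0 (by rw [← mul_nsmul, mul_comm, mul_nsmul, hP5, nsmul_zero])
  have hfix3 : ∀ σ : Qbar ≃ₐ[ℚ] Qbar, σ x₃ = x₃ := by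
    intro σ
    obtain ⟨c, hc0, hc3, hc⟩ := exists_smul_eq_nsmul hΔ0 hN₃ h30 h31 hu hu0 σ
    rw [← k3, ← xcoord_smul, hc]
    interval_cases c
    · rw [one_nsmul]
    · rw [show (2 : ℕ) • R = -R from eq_neg_of_add_eq_zero_left (by rw [← succ_nsmul]; exact hR3),
        xcoord_neg]
  have hswap := abscissae_fixed_or_swapped hΔ0 hN₅ h50 h51 hv hv0 hP5 k1 k2
  set V := ((W.map (Int.castRingHom ℚ))⁄Qbar) with hVdef
  obtain ⟨t, ht⟩ : ∃ t, t = (x₂ - x₁) ^ 3 / V.Ψ₂Sq.eval x₁ := ⟨_, rfl⟩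
  obtain ⟨q, hq⟩ : ∃ q, q = (x₃ - x₁) / (x₃ - x₂) := ⟨_, rfl⟩
  obtain ⟨g, hg⟩ : ∃ g, g = t * q ^ 2 := ⟨_, rfl⟩
  obtain ⟨T, hT⟩ : ∃ T, T = t * q := ⟨_, rfl⟩
  obtain ⟨ht0, hq0, ht2, hgT, hj⟩ := five_three_relations V h1 (ev ▸ hP5) h3 (eu ▸ hR3) h2
    (ev ▸ e2) n₁ n₂ t q g T ht hq hT hg
  have hg0 : g ≠ 0 := hg ▸ mul_ne_zero ht0 (pow_ne_zero 2 hq0)
  have hT0 : T ≠ 0 := hT ▸ mul_ne_zero ht0 hq0
  have hσ : ∀ σ : Qbar ≃ₐ[ℚ] Qbar,
      σ (g - g⁻¹) = g - g⁻¹ ∧ σ ((g + g⁻¹) * (T + T⁻¹)) = (g + g⁻¹) * (T + T⁻¹) := by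
    intro σ
    rcases hswap σ with ⟨s1, s2⟩ | ⟨s1, s2⟩
    · have et : σ t = t := by rw [ht, map_div₀, map_pow, map_sub, Ψ₂Sq_eval_smul, s1, s2]
      have eq : σ q = q := by rw [hq, map_div₀, map_sub, map_sub, s1, s2, hfix3]
      simp [hg, hT, et, eq]
    · have et : σ t = -1 / t := by
        rw [← ht2, ht, map_div₀, map_pow, map_sub, Ψ₂Sq_eval_smul, s1, s2]
      have eq : σ q = q⁻¹ := by rw [hq, map_div₀, map_sub, map_sub, s1, s2, hfix3, inv_div]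
      simp only [hg, hT, map_sub, map_add, map_mul, map_inv₀, map_pow, et, eq]
      constructor <;> field_simp <;> ring
  obtain ⟨G, hG⟩ := exists_rat_of_fixed fun σ => (hσ σ).1
  obtain ⟨Y, hY⟩ := exists_rat_of_fixed (x := 4 * ((g + g⁻¹) * (T + T⁻¹)))
    fun σ => by rw [map_mul, map_ofNat, (hσ σ).2]
  have hH : T - T⁻¹ = (G : Qbar) + 3 := by rw [hG]; linear_combination -hgT
  have hgi : g * g⁻¹ = 1 := mul_inv_cancel₀ hg0
  have hTi : T * T⁻¹ = 1 := mul_inv_cancel₀ hT0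
  have hgg : (g + g⁻¹) ^ 2 = (G : Qbar) ^ 2 + 4 := by
    rw [hG]; linear_combination 4 * hgi
  have hTT : (T + T⁻¹) ^ 2 = ((G : Qbar) + 3) ^ 2 + 4 := by
    rw [← hH]; linear_combination 4 * hTi
  have hYsq : Y ^ 2 = 16 * ((G ^ 2 + 4) * ((G + 3) ^ 2 + 4)) := by
    have : ((Y ^ 2 : ℚ) : Qbar) = ((16 * ((G ^ 2 + 4) * ((G + 3) ^ 2 + 4)) : ℚ) : Qbar) := by
      push_cast
      rw [hY, ← hgg, ← hTT]
      ring
    exact_mod_cast this
  set s : ℚ := ((G + 3) * (Y / 4) - G * ((G + 3) ^ 2 + 2)) / 2 - 11 with hs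
  have htg : t = T ^ 2 * g⁻¹ := (eq_mul_inv_iff_mul_eq₀ hg0).mpr (by rw [hT, hg]; ring)
  have hti : t⁻¹ = g * T⁻¹ ^ 2 := by rw [htg, mul_inv, inv_inv, inv_pow]; ring
  have hts : (s : Qbar) = t - t⁻¹ - 11 := by
    rw [hs]
    push_cast
    rw [hY, ← hH, hG, hti, htg]
    linear_combination (g - g⁻¹) * hTi
  have hrel : (W.c₄ : ℚ) ^ 3 * s = (W.Δ : ℚ) * (s ^ 2 + 10 * s + 5) ^ 3 := by
    have : (((W.c₄ : ℚ) ^ 3 * s : ℚ) : Qbar) =
        (((W.Δ : ℚ) * (s ^ 2 + 10 * s + 5) ^ 3 : ℚ) : Qbar) := by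
      push_cast
      rw [hts]
      have hm : V = W.map (Int.castRingHom Qbar) := by
        show ((W.map (Int.castRingHom ℚ)).map (algebraMap ℚ Qbar)) = _
        rw [WeierstrassCurve.map_map, RingHom.ext_int
          ((algebraMap ℚ Qbar).comp (Int.castRingHom ℚ)) (Int.castRingHom Qbar)]
      have ec : V.c₄ = (W.c₄ : Qbar) := by rw [hm, WeierstrassCurve.map_c₄]; rfl
      have ed : V.Δ = (W.Δ : Qbar) := by rw [hm, WeierstrassCurve.map_Δ]; rfl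
      rw [← ec, ← ed]
      exact hj
    exact_mod_cast this
  have hmem := parameter_values hYsq
  rw [← hs] at hmem
  exact false_of_parameter hΔ0 hss hmem hrel

end FermatAgent.ECLocal
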