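import Fermat.Agent.ECLocal.IntCurve
import Fermat.Prelude.Def_FLTPrelim_FreyPackage
import Mathlib.RingTheory.Int.Basic
import Mathlib.Data.Int.GCD

/-!
# Invariants of the Frey curve
-/

set_option autoImplicit false

namespace FermatAgent.ECLocal

open WeierstrassCurve

variable (P : FreyPackage)

lemma frey_div4 : (4 : ℤ) ∣ P.b ^ P.p - 1 - P.a ^ P.p := by
  rw [show (4 : ℤ) = ((4 : ℕ) : ℤ) by rfl, ← ZMod.intCast_zmod_eq_zero_iff_dvd]
  push_cast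
  have hb : (2 : ℤ) ∣ P.b := (ZMod.intCast_zmod_eq_zero_iff_dvd P.b 2).mp P.hb2
  obtain ⟨k, hk⟩ := hb
  obtain ⟨m, hm⟩ : ∃ m, P.p = m + 2 := ⟨P.p - 2, by have := P.hp5; omega⟩
  obtain ⟨j, hj⟩ := P.hp_odd
  have e4 : (4 : ZMod 4) = 0 := by decide
  rw [P.ha4, hk]
  push_cast
  rw [show (3 : ZMod 4) = -1 by decide, neg_one_pow_eq_neg_one_iff_odd (by decide) |>.mpr P.hp_odd,
    hm, mul_pow, pow_add]
  linear_combination ((2 : ZMod 4) ^ m * (k : ZMod 4) ^ (m + 2)) * e4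

/-- `16` divides `-a ^ p b ^ p`. -/
lemma frey_div16 : (16 : ℤ) ∣ -(P.a ^ P.p) * P.b ^ P.p := by
  obtain ⟨k, hk⟩ := (ZMod.intCast_zmod_eq_zero_iff_dvd P.b 2).mp P.hb2
  obtain ⟨m, hm⟩ : ∃ m, P.p = m + 4 := ⟨P.p - 4, by have := P.hp5; omega⟩
  refine ⟨-(P.a ^ P.p) * (2 ^ m * k ^ P.p), ?_⟩
  push_cast at hk
  rw [hk, mul_pow, hm, pow_add (2 : ℤ) m 4]
  ring

/-- The Frey curve is its integral model over `ℚ`. -/
lemma freyCurve_eq_map : P.freyCurve = P.freyCurveInt.map (Int.castRingHom ℚ) := by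
  refine WeierstrassCurve.ext ?_ ?_ ?_ ?_ ?_ <;>
    simp only [FreyPackage.freyCurve, FreyPackage.freyCurveInt, WeierstrassCurve.map,
      eq_intCast, Int.cast_zero, Int.cast_one]
  · rw [Int.cast_div (frey_div4 P) (by norm_num)]; push_cast; ring
  · rw [Int.cast_div (frey_div16 P) (by norm_num)]; push_cast; ring

lemma frey_c₄ :
    P.freyCurveInt.c₄ = P.a ^ (2 * P.p) + P.a ^ P.p * P.b ^ P.p + P.b ^ (2 * P.p) := by
  have h4 := Int.ediv_mul_cancel (frey_div4 P)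
  have h16 := Int.ediv_mul_cancel (frey_div16 P)
  simp only [FreyPackage.freyCurveInt, WeierstrassCurve.c₄, WeierstrassCurve.b₂,
    WeierstrassCurve.b₄]
  set u := (P.b ^ P.p - 1 - P.a ^ P.p) / 4
  set w := -(P.a ^ P.p) * P.b ^ P.p / 16
  rw [pow_mul', pow_mul']
  linear_combination (1 + 4 * u + (P.b ^ P.p - P.a ^ P.p)) * h4 - 3 * h16

/-- The discriminant of the integral Frey curve is `(a b c) ^ (2 p) / 256`. -/
lemma frey_Δ : 256 * P.freyCurveInt.Δ = (P.a * P.b * P.c) ^ (2 * P.p) := by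
  have h4 := Int.ediv_mul_cancel (frey_div4 P)
  have h16 := Int.ediv_mul_cancel (frey_div16 P)
  have hs := P.hFLT
  simp only [FreyPackage.freyCurveInt, WeierstrassCurve.Δ, WeierstrassCurve.b₂, WeierstrassCurve.b₄,
    WeierstrassCurve.b₆, WeierstrassCurve.b₈]
  set u := (P.b ^ P.p - 1 - P.a ^ P.p) / 4
  set w := -(P.a ^ P.p) * P.b ^ P.p / 16
  have e1 : 4 * u + 1 = P.b ^ P.p - P.a ^ P.p := by linear_combination h4
  have e2 : 16 * w = -(P.a ^ P.p * P.b ^ P.p) := by linear_combination h16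
  rw [pow_mul', mul_pow, mul_pow, ← hs]
  calc 256 * _ = (16 * w) ^ 2 * ((4 * u + 1) ^ 2 - 4 * (16 * w)) := by ring
    _ = _ := by rw [e1, e2]; ring

/-- The integral Frey model is nonsingular over `ℚ`. -/
lemma freyCurveInt_Δ_ne_zero : P.freyCurveInt.Δ ≠ 0 := by
  intro h
  have := frey_Δ P
  rw [h, mul_zero] at this
  exact pow_ne_zero _ P.habc0 this.symm

/-- The Frey model is semistable: a prime dividing `abc` does not divide `c₄`. -/
lemma frey_not_dvd_c₄ {q : ℕ} (hq : q.Prime) (h : (q : ℤ) ∣ P.a * P.b * P.c) :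
    ¬(q : ℤ) ∣ P.freyCurveInt.c₄ := by
  have hp : Prime (q : ℤ) := Nat.prime_iff_prime_int.mp hq
  have hcop : ∀ x y : ℤ, gcd x y = 1 → (q : ℤ) ∣ x → (q : ℤ) ∣ y → False := fun x y hg hx hy =>
    hp.not_dvd_one (hg ▸ dvd_gcd hx hy)
  intro hc
  rw [frey_c₄, pow_mul', pow_mul'] at hc
  have hpw : ∀ x : ℤ, (q : ℤ) ∣ x → (q : ℤ) ∣ x ^ P.p := fun x hx => dvd_pow hx P.hp0
  rcases hp.dvd_or_dvd h with h | h
  · rcases hp.dvd_or_dvd h with ha | hb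
    · refine hcop _ _ P.hgcdab ha (hp.dvd_of_dvd_pow (n := P.p) (hp.dvd_of_dvd_pow (n := 2) ?_))
      have h1 : (q : ℤ) ∣ P.a ^ P.p * (P.a ^ P.p + P.b ^ P.p) := dvd_mul_of_dvd_left (hpw _ ha) _
      have hc' : (q : ℤ) ∣ P.a ^ P.p * (P.a ^ P.p + P.b ^ P.p) + (P.b ^ P.p) ^ 2 := by
        rw [show P.a ^ P.p * (P.a ^ P.p + P.b ^ P.p) + (P.b ^ P.p) ^ 2
          = (P.a ^ P.p) ^ 2 + P.a ^ P.p * P.b ^ P.p + (P.b ^ P.p) ^ 2 by ring]
        exact hc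
      exact (dvd_add_right h1).mp hc'
    · refine hcop _ _ P.hgcdab (hp.dvd_of_dvd_pow (n := P.p) (hp.dvd_of_dvd_pow (n := 2) ?_)) hb
      have h1 : (q : ℤ) ∣ P.b ^ P.p * (P.a ^ P.p + P.b ^ P.p) := dvd_mul_of_dvd_left (hpw _ hb) _
      have hc' : (q : ℤ) ∣ (P.a ^ P.p) ^ 2 + P.b ^ P.p * (P.a ^ P.p + P.b ^ P.p) := by
        rw [show (P.a ^ P.p) ^ 2 + P.b ^ P.p * (P.a ^ P.p + P.b ^ P.p)
          = (P.a ^ P.p) ^ 2 + P.a ^ P.p * P.b ^ P.p + (P.b ^ P.p) ^ 2 by ring]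
        exact hc
      exact (dvd_add_left h1).mp hc'
  · refine hcop _ _ P.hgcdac (hp.dvd_of_dvd_pow (n := P.p) (hp.dvd_of_dvd_pow (n := 2) ?_)) h
    have h1 : (q : ℤ) ∣ P.b ^ P.p * (P.a ^ P.p + P.b ^ P.p) := by
      rw [P.hFLT]; exact dvd_mul_of_dvd_right (hpw _ h) _
    have hc' : (q : ℤ) ∣ (P.a ^ P.p) ^ 2 + P.b ^ P.p * (P.a ^ P.p + P.b ^ P.p) := by
      rw [show (P.a ^ P.p) ^ 2 + P.b ^ P.p * (P.a ^ P.p + P.b ^ P.p)
        = (P.a ^ P.p) ^ 2 + P.a ^ P.p * P.b ^ P.p + (P.b ^ P.p) ^ 2 by ring]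
      exact hc
    exact (dvd_add_left h1).mp hc'

/-- The bad primes of the Frey curve divide `abc`. -/
lemma frey_dvd_abc {q : ℕ} (hq : q.Prime) (h : (q : ℤ) ∣ P.freyCurveInt.Δ) :
    (q : ℤ) ∣ P.a * P.b * P.c := by
  have := frey_Δ P ▸ dvd_mul_of_dvd_right h (256 : ℤ)
  exact (Nat.prime_iff_prime_int.mp hq).dvd_of_dvd_pow this

/-- At an odd prime the valuation of the discriminant is a `p`-th power. -/
lemma frey_valuation_Δ {A : ValuationSubring (AlgebraicClosure ℚ)} {q : ℕ} (hq : q.Prime)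
    (hA : A.LiesOverPrime q) (hq2 : q ≠ 2) :
    A.valuation (P.freyCurveInt.Δ : AlgebraicClosure ℚ)
      = A.valuation (((P.a * P.b * P.c) ^ 2 : ℤ) : AlgebraicClosure ℚ) ^ P.p := by
  have h256 : ¬(q : ℤ) ∣ 256 := by
    intro h
    have h2 : (q : ℤ) ∣ 2 ^ 8 := by norm_num; exact h
    have := (Nat.prime_iff_prime_int.mp hq).dvd_of_dvd_pow h2
    exact hq2 ((Nat.prime_dvd_prime_iff_eq hq Nat.prime_two).mp (by exact_mod_cast this))
  have e := congr_arg (fun n : ℤ => A.valuation (n : AlgebraicClosure ℚ)) (frey_Δ P)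
  simp only [Int.cast_mul, map_mul, valuation_intCast_eq_one hq hA h256, one_mul] at e
  rw [e, ← map_pow, ← Int.cast_pow, ← pow_mul]

end FermatAgent.ECLocal
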