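import Fermat.Agent.ECLocal.IntCurve
import Fermat.Agent.GaloisBasic.Frobenius

/-!
# Galois-fixed elements
-/

set_option autoImplicit false

namespace FermatAgent.ECLocal

local notation "Qbar" => AlgebraicClosure ℚ

/-- An algebraic number fixed by Galois is rational. -/
lemma exists_rat_of_fixed {x : Qbar} (h : ∀ σ : Qbar ≃ₐ[ℚ] Qbar, σ x = x) :
    ∃ z : ℚ, (z : Qbar) = x := by
  obtain ⟨z, hz⟩ := IntermediateField.mem_bot.mp ((InfiniteGalois.mem_bot_iff_fixed x).mpr h)
  exact ⟨z, by rw [← hz, eq_ratCast]⟩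

end FermatAgent.ECLocal
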