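import Fermat.Agent.ECLocal.Frey
import Fermat.Agent.ECLocal.Rational
import Fermat.Agent.ECLocal.NoTorsion

/-!
# The Frey curve has no rational point of order `p`: the place `2`

At `2` the discriminant has valuation `2e` with `p ∤ 2e` and the values of rational points in the
component group are powers of `|2|`, so a rational `p`-torsion point `T` has nonsingular
reduction; the only nonsingular affine reductions of rational points have `x = 1`, so `T` and
`2T` would have the same reduced abscissa, impossible for `p ≥ 5`.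
-/

set_option autoImplicit false

namespace FermatAgent.ECLocal

open WeierstrassCurve
open scoped WeierstrassCurve.Affine

local notation "Qbar" => AlgebraicClosure ℚ

/-- A `2`-integral rational number reduces to `0` or `1`. -/
lemma residue_ratCast_two {A : ValuationSubring Qbar} (hA : A.LiesOverPrime 2) {x : Qbar}
    (hx : x ∈ A) {z : ℚ} (hz : (z : Qbar) = x) :
    IsLocalRing.residue A ⟨x, hx⟩ = 0 ∨ IsLocalRing.residue A ⟨x, hx⟩ = 1 := by
  have h2 := Nat.prime_two
  subst hz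
  have hd : ¬(2 : ℤ) ∣ (z.den : ℤ) := by
    intro hd
    have hn : ¬(2 : ℤ) ∣ z.num := by
      intro hn
      have h : (2 : ℕ) ∣ Nat.gcd z.num.natAbs z.den :=
        Nat.dvd_gcd (Int.natCast_dvd.mp (by exact_mod_cast hn)) (by exact_mod_cast hd)
      rw [z.reduced] at h
      norm_num at h
    have h1 : A.valuation ((z : Qbar)) ≤ 1 := (A.valuation_le_one_iff _).mpr hx
    have e : (z : Qbar) * ((z.den : ℤ) : Qbar) = ((z.num : ℤ) : Qbar) := by
      have hz0 : ((z.den : ℕ) : Qbar) ≠ 0 := Nat.cast_ne_zero.mpr z.den_nz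
      rw [Rat.cast_def, Int.cast_natCast, div_mul_cancel₀ _ hz0]
    have := congr_arg A.valuation e
    rw [map_mul, valuation_intCast_eq_one h2 hA (n := z.num) (by exact_mod_cast hn)] at this
    exact (mul_lt_one_of_nonneg_of_lt_one_right h1 zero_le
      ((valuation_intCast_lt_one_iff h2 hA (z.den : ℤ)).mpr (by exact_mod_cast hd))).ne this
  have hd1 : A.valuation ((z.den : ℤ) : Qbar) = 1 :=
    valuation_intCast_eq_one h2 hA (by exact_mod_cast hd)
  rcases Int.even_or_odd z.num with he | ho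
  · left
    rw [residue_eq_zero_iff]
    show A.valuation (z : Qbar) < 1
    rw [Rat.cast_def, map_div₀, show (z.den : Qbar) = ((z.den : ℤ) : Qbar) by norm_cast, hd1,
      div_one]
    exact (valuation_intCast_lt_one_iff h2 hA _).mpr (by exact_mod_cast even_iff_two_dvd.mp he)
  · right
    rw [← sub_eq_zero, ← map_one (IsLocalRing.residue A), ← map_sub, residue_eq_zero_iff]
    show A.valuation ((z : Qbar) - 1) < 1
    have hz0 : ((z.den : ℕ) : Qbar) ≠ 0 := Nat.cast_ne_zero.mpr z.den_nz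
    rw [show (z : Qbar) - 1 = ((z.num - z.den : ℤ) : Qbar) / ((z.den : ℤ) : Qbar) by
      rw [Rat.cast_def]; push_cast; field_simp, map_div₀, hd1, div_one]
    refine (valuation_intCast_lt_one_iff h2 hA _).mpr ?_
    push_cast
    obtain ⟨k, hk⟩ := ho
    omega

/-- The `x`-coordinate of a point fixed by Galois is rational. -/
lemma exists_rat_x_of_fixed {W : WeierstrassCurve ℤ} {x y : Qbar}
    (h : ((W.map (Int.castRingHom ℚ))⁄Qbar).toAffine.Nonsingular x y)
    (hfix : ∀ σ : Qbar ≃ₐ[ℚ] Qbar, σ • (Affine.Point.some x y h :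
      ((W.map (Int.castRingHom ℚ))⁄Qbar).Point) = .some x y h) :
    ∃ z : ℚ, (z : Qbar) = x :=
  exists_rat_of_fixed fun σ => by
    have e := hfix σ
    injection e

variable (P : FreyPackage)

/-- `16 a₄ = -(ab)^p`, so `a₄` is even and nonzero. -/
lemma frey_a₄_data : (2 : ℤ) ∣ P.freyCurveInt.a₄ ∧ P.freyCurveInt.a₄ ≠ 0 ∧
    P.freyCurveInt.a₄ * 16 = -(P.a * P.b) ^ P.p := by
  have h16 : P.freyCurveInt.a₄ * 16 = -(P.a * P.b) ^ P.p := by
    rw [show P.freyCurveInt.a₄ = -(P.a ^ P.p) * (P.b ^ P.p) / 16 from rfl,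
      Int.ediv_mul_cancel (frey_div16 P), mul_pow, neg_mul]
  refine ⟨?_, ?_, h16⟩
  · obtain ⟨k, hk⟩ := (ZMod.intCast_zmod_eq_zero_iff_dvd P.b 2).mp P.hb2
    obtain ⟨m, hm⟩ : ∃ m, P.p = m + 5 := ⟨P.p - 5, by have := P.hp5; omega⟩
    refine ⟨-(P.a ^ P.p) * (2 ^ m * k ^ P.p), mul_right_cancel₀ (b := (16 : ℤ)) (by norm_num) ?_⟩
    rw [h16, mul_pow, hk]
    push_cast
    rw [mul_pow, show (2 : ℤ) ^ P.p = 2 ^ m * 32 by rw [hm, pow_add]; norm_num]
    ring
  · intro h
    rw [h, zero_mul, eq_comm, neg_eq_zero] at h16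
    exact pow_ne_zero _ (mul_ne_zero P.ha0 P.hb0) h16

/-- The discriminant of the Frey model factors as `a₄²` times an odd number. -/
lemma frey_Δ_factor : P.freyCurveInt.Δ = P.freyCurveInt.a₄ ^ 2 *
    ((1 + 4 * P.freyCurveInt.a₂) ^ 2 - 64 * P.freyCurveInt.a₄) := by
  simp only [WeierstrassCurve.Δ, WeierstrassCurve.b₂, WeierstrassCurve.b₄,
    WeierstrassCurve.b₆, WeierstrassCurve.b₈, FreyPackage.freyCurveInt]
  ring

variable {A : ValuationSubring Qbar}

/-- At `2` the valuation of `a₄` is `2` to a power prime to `p`. -/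
lemma frey_valuation_a₄ (hA : A.LiesOverPrime 2) :
    ∃ e : ℕ, A.valuation (P.freyCurveInt.a₄ : Qbar) = A.valuation (2 : Qbar) ^ e ∧
      ¬P.p ∣ 2 * e := by
  obtain ⟨-, h0, h16⟩ := frey_a₄_data P
  obtain ⟨e, he⟩ : ∃ e : ℕ, _ = _ ^ e := ⟨_, valuation_intCast_eq_pow Nat.prime_two hA h0⟩
  obtain ⟨j, hj⟩ : ∃ j : ℕ, _ = _ ^ j :=
    ⟨_, valuation_intCast_eq_pow Nat.prime_two hA (mul_ne_zero P.ha0 P.hb0)⟩
  rw [Nat.cast_ofNat] at he hj
  refine ⟨e, he, fun hdiv => ?_⟩
  have h := congr_arg (fun n : ℤ => A.valuation (n : Qbar)) h16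
  simp only [Int.cast_mul, Int.cast_neg, Int.cast_pow, Valuation.map_neg, map_mul, map_pow,
    Int.cast_ofNat] at h
  rw [he, ← map_mul, ← Int.cast_mul, hj, show (16 : Qbar) = 2 ^ 4 by norm_num, map_pow, ← pow_add,
    ← pow_mul] at h
  have hlt : A.valuation (2 : Qbar) < 1 := by
    have := valuation_natCast_lt_one hA
    rwa [Nat.cast_ofNat] at this
  have hpos : 0 < A.valuation (2 : Qbar) :=
    zero_lt_iff.mpr ((Valuation.ne_zero_iff _).mpr two_ne_zero)
  have heq : e + 4 = j * P.p := (pow_right_inj₀ hpos hlt.ne).mp h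
  have h8 : P.p ∣ 2 ^ 3 := (Nat.dvd_add_right hdiv).mp
    (show P.p ∣ 2 * e + 2 ^ 3 from ⟨2 * j, by linear_combination 2 * heq⟩)
  have := (Nat.prime_dvd_prime_iff_eq P.pp Nat.prime_two).mp (P.pp.dvd_of_dvd_pow h8)
  have := P.hp5
  omega

/-- At `2` the discriminant has the valuation of `a₄ ^ 2`. -/
private lemma frey_valuation_Δ_two (hA : A.LiesOverPrime 2) :
    A.valuation (P.freyCurveInt.Δ : Qbar) = A.valuation (P.freyCurveInt.a₄ : Qbar) ^ 2 := by
  have h2 := Nat.prime_two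
  rw [frey_Δ_factor, Int.cast_mul, map_mul, Int.cast_pow, map_pow,
    valuation_intCast_eq_one h2 hA
      (n := (1 + 4 * P.freyCurveInt.a₂) ^ 2 - 64 * P.freyCurveInt.a₄), mul_one]
  intro hd
  have h64 : ((2 : ℕ) : ℤ) ∣ 64 * P.freyCurveInt.a₄ := dvd_mul_of_dvd_left (by norm_num) _
  have := (Nat.prime_iff_prime_int.mp h2).dvd_of_dvd_pow ((dvd_sub_left h64).mp hd)
  push_cast at this
  omega

/-- The translation to a node model at `2` moves `x` by less than the square root of `a₆`. -/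
private lemma frey_valuation_translation_lt (hA : A.LiesOverPrime 2) {r t : A}
    (M : NodeModel (translation r t • modelAt P.freyCurveInt A))
    (hv : A.valuation ((translation r t • modelAt P.freyCurveInt A).a₆ : Qbar) =
      A.valuation (P.freyCurveInt.Δ : Qbar)) :
    A.valuation (r : Qbar) ^ 2 <
      A.valuation ((translation r t • modelAt P.freyCurveInt A).a₆ : Qbar) := by
  have hv2 : A.valuation (2 : Qbar) < 1 := by
    have := valuation_natCast_lt_one hA
    rwa [Nat.cast_ofNat] at this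
  obtain ⟨-, ha40, -⟩ := frey_a₄_data P
  have hodd : A.valuation ((1 + 4 * P.freyCurveInt.a₂ : ℤ) : Qbar) = 1 :=
    valuation_intCast_eq_one Nat.prime_two hA (by push_cast; omega)
  obtain ⟨f3, f4⟩ := translation_a₃_a₄ (modelAt P.freyCurveInt A) r t
  rw [M.a₃_eq] at f3
  rw [M.a₄_eq] at f4
  have e1 : (modelAt P.freyCurveInt A).a₁ = 1 := by simp [modelAt, FreyPackage.freyCurveInt]
  have e3 : (modelAt P.freyCurveInt A).a₃ = 0 := by simp [modelAt, FreyPackage.freyCurveInt]
  have e2 : (modelAt P.freyCurveInt A).a₂ = (P.freyCurveInt.a₂ : A) := by simp [modelAt]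
  have e4 : (modelAt P.freyCurveInt A).a₄ = (P.freyCurveInt.a₄ : A) := by simp [modelAt]
  rw [e1, e3] at f3
  rw [e1, e2, e4] at f4
  have g3 := congr_arg (Subtype.val : A → Qbar) f3
  have g4 := congr_arg (Subtype.val : A → Qbar) f4
  push_cast at g3 g4
  rw [show ((2 : A) : Qbar) = 2 from map_ofNat A.subtype 2] at g3 g4
  rw [show ((3 : A) : Qbar) = 3 from map_ofNat A.subtype 3] at g4
  have hr1 : A.valuation (r : Qbar) < 1 := by
    rw [show (r : Qbar) = -(2 * (t : Qbar)) by linear_combination -g3, Valuation.map_neg, map_mul]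
    exact mul_lt_one_of_nonneg_of_lt_one_left zero_le hv2 (A.valuation_le_one _)
  have hu : A.valuation (((1 + 4 * P.freyCurveInt.a₂ : ℤ) : Qbar) + 6 * (r : Qbar)) = 1 := by
    rw [A.valuation.map_add_eq_of_lt_left (by
      rw [hodd, map_mul]
      exact mul_lt_one_of_nonneg_of_lt_one_right
        ((A.valuation_le_one_iff _).mpr (by exact_mod_cast intCast_mem A 6)) zero_le hr1), hodd]
  have he : (r : Qbar) * (((1 + 4 * P.freyCurveInt.a₂ : ℤ) : Qbar) + 6 * (r : Qbar))
      = -(2 * (P.freyCurveInt.a₄ : Qbar)) := by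
    push_cast
    linear_combination -g3 - 2 * g4
  have hvr := congr_arg A.valuation he
  rw [map_mul, hu, mul_one, Valuation.map_neg, map_mul] at hvr
  rw [hvr, hv, frey_valuation_Δ_two P hA, mul_pow]
  exact mul_lt_of_lt_one_left (zero_lt_iff.mpr (pow_ne_zero _ ((Valuation.ne_zero_iff _).mpr
    (Int.cast_ne_zero.mpr ha40)))) (pow_lt_one₀ zero_le hv2 two_ne_zero)

/-- A Galois-fixed point whose `x`-coordinate exceeds the translation has that coordinate of
valuation a power of `v 2`. -/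
private lemma exists_zpow_valuation_x (hA : A.LiesOverPrime 2) {W : WeierstrassCurve ℤ} {r t : A}
    {x y : Qbar} {hxy : (gen (translation r t • modelAt W A)).toAffine.Nonsingular x y}
    {T : ((W.map (Int.castRingHom ℚ))⁄Qbar).Point}
    (hfix : ∀ σ : Qbar ≃ₐ[ℚ] Qbar, σ • T = T)
    (hQ : translatePoint (modelAt W A) r t (.some x y hxy) = toGen W A T)
    (hxr : A.valuation (r : Qbar) < A.valuation x) :
    ∃ i : ℤ, A.valuation x = A.valuation (2 : Qbar) ^ i := by
  have hsum : A.valuation (x + r) = A.valuation x := A.valuation.map_add_eq_of_lt_left hxr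
  obtain ⟨hgen, htr⟩ := translatePoint_some (modelAt W A) r t hxy
  rcases T with _ | ⟨x₀, y₀, h₀⟩
  · rw [← Affine.Point.zero_def, map_zero, htr] at hQ
    exact absurd hQ (Affine.Point.some_ne_zero _)
  rw [toGen_some, htr] at hQ
  injection hQ with ex ey
  obtain ⟨z, hz⟩ := exists_rat_x_of_fixed h₀ hfix
  rw [← ex] at hz
  have hz0 : z ≠ 0 := by
    rintro rfl
    rw [Rat.cast_zero] at hz
    rw [← hz, map_zero] at hsum
    rw [← hsum] at hxr
    exact not_lt_zero hxr
  exact ⟨_, by rw [← hsum, ← hz, valuation_ratCast_eq_zpow Nat.prime_two hA hz0, Nat.cast_ofNat]⟩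

/-- If the valuation of `x` is a power of `w` whenever its square exceeds that of `a₆`, then the
value of a point off the identity component is `w ^ i`, `c / w ^ i` or a square root of `c`. -/
private lemma exists_zpow_value {W : WeierstrassCurve A} (M : NodeModel W) {x y : Qbar}
    (hxy : (gen W).toAffine.Nonsingular x y) (hx : A.valuation x < 1) {w : A.ValueGroup}
    (hrat : A.valuation (W.a₆ : Qbar) < A.valuation x ^ 2 → ∃ i : ℤ, A.valuation x = w ^ i) :
    ∃ i : ℤ, M.value (.some x y hxy) = w ^ i ∨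
      M.value (.some x y hxy) = A.valuation (W.a₆ : Qbar) / w ^ i ∨
      M.value (.some x y hxy) ^ 2 = A.valuation (W.a₆ : Qbar) := by
  have hd : A.valuation ((M.β : Qbar) - (M.α : Qbar)) = 1 := by
    rw [A.valuation.map_sub_swap]; exact M.val_sub
  have he := M.equation_iff.mp hxy.1
  obtain ⟨hU, hV⟩ := M.val_UV_lt_one hxy.1 hx
  rw [M.value_some_off hxy hx]
  rcases lt_trichotomy (A.valuation (y - (M.β : Qbar) * x))
      (A.valuation (y - (M.α : Qbar) * x)) with hlt | heq | hgt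
  · obtain ⟨e₁, e₂⟩ := nodePoint_of_lt hd (x := x) (by ring) he hU hlt
    obtain ⟨i, hi⟩ := hrat (by rw [e₁]; exact e₂)
    exact ⟨i, Or.inl (by rw [nodeValue, if_pos hlt.le, ← e₁, hi])⟩
  · exact ⟨0, Or.inr (Or.inr (by
      rw [nodeValue, if_pos heq.le]
      exact (nodePoint_of_eq hd (x := x) (by ring) he hU M.c_ne_zero heq).2))⟩
  · obtain ⟨e₁, e₂⟩ := nodePoint_of_lt (d := -((M.β : Qbar) - (M.α : Qbar))) (x := x)
      (by rw [Valuation.map_neg, hd]) (by ring) (by rw [mul_comm]; exact he) hV hgt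
    obtain ⟨i, hi⟩ := hrat (by rw [e₁]; exact e₂)
    exact ⟨i, Or.inr (Or.inl (by rw [nodeValue, if_neg (not_le.mpr hgt), ← e₁, hi]))⟩

/-- If `c = w ^ (2 * e)` with `p` prime to `2 * e`, and `v ^ p` is a power of `c`, then no `v`
strictly between `c` and `1` is a power of `w`. -/
private lemma ne_zpow_of_between {G₀ : Type*} [LinearOrderedCommGroupWithZero G₀] {w c v : G₀}
    {p e : ℕ} (hp : p.Prime) (hpe : ¬p ∣ 2 * e) (hw0 : 0 < w) (hw1 : w < 1)
    (hce : c = w ^ (2 * e : ℤ)) (hc0 : 0 < c) (hc1 : c < 1) {k : ℤ} (hk : c ^ k = v ^ p)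
    (hlo : c < v) (hhi : v < 1) (i : ℤ) : v ≠ w ^ i := by
  intro hi
  rw [hi, hce, ← zpow_natCast, ← zpow_mul, ← zpow_mul] at hk
  have hik : (2 * e : ℤ) * k = i * p := (zpow_right_inj₀ hw0 hw1.ne).mp hk
  have hpk : (p : ℤ) ∣ k := by
    refine ((Nat.prime_iff_prime_int.mp hp).dvd_or_dvd ⟨i, by rw [hik, mul_comm]⟩).resolve_left ?_
    intro hh
    exact hpe (by exact_mod_cast hh)
  obtain ⟨k', rfl⟩ := hpk
  have hi' : i = 2 * e * k' := mul_right_cancel₀ (b := (p : ℤ))
    (by exact_mod_cast hp.ne_zero) (by rw [← hik]; ring)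
  rw [hi, hi', zpow_mul, ← hce] at hlo hhi
  rw [zpow_lt_one_iff_right_of_lt_one₀ hc0 hc1] at hhi
  nth_rewrite 1 [← zpow_one c] at hlo
  rw [zpow_lt_zpow_iff_right_of_lt_one₀ hc0 hc1] at hlo
  omega

/-- A rational `p`-torsion point meets the identity component at `2`. -/
lemma frey_fixed_torsion_isE0 (hA : A.LiesOverPrime 2)
    {T : ((P.freyCurveInt.map (Int.castRingHom ℚ))⁄Qbar).Point}
    (hfix : ∀ σ : Qbar ≃ₐ[ℚ] Qbar, σ • T = T) (hT : P.p • T = 0) :
    IsE0 (toGen P.freyCurveInt A T) := by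
  have h2 := Nat.prime_two
  have hv2 : A.valuation (2 : Qbar) < 1 := by
    have := valuation_natCast_lt_one hA
    rwa [Nat.cast_ofNat] at this
  obtain ⟨ha4, -, -⟩ := frey_a₄_data P
  have hΔdvd : ((2 : ℕ) : ℤ) ∣ P.freyCurveInt.Δ := by
    rw [frey_Δ_factor]; exact dvd_mul_of_dvd_left (dvd_pow (by exact_mod_cast ha4) two_ne_zero) _
  have hc4 : ¬((2 : ℕ) : ℤ) ∣ P.freyCurveInt.c₄ :=
    frey_not_dvd_c₄ P h2 (by exact_mod_cast P.two_dvd_abc)
  obtain ⟨r, t, ⟨M⟩, hv⟩ :=
    exists_nodeModel_at P.freyCurveInt A h2 hA (freyCurveInt_Δ_ne_zero P) hΔdvd hc4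
  obtain ⟨Q, hQ⟩ := (translatePoint_bijective (modelAt P.freyCurveInt A) r t).2
    (toGen P.freyCurveInt A T)
  have hinj := (translatePoint_bijective (modelAt P.freyCurveInt A) r t).1
  rw [← hQ, isE0_translatePoint]
  by_contra hQ0
  have hrc := frey_valuation_translation_lt P hA M hv
  -- the coordinates
  obtain ⟨x, y, hxy, rfl, hx⟩ := M.exists_of_not_isE0 hQ0
  have hpow := exists_zpow_value M hxy hx (w := A.valuation (2 : Qbar)) fun hlt =>
    exists_zpow_valuation_x hA hfix hQ (lt_of_pow_lt_pow_left₀ 2 zero_le (hrc.trans hlt))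
  -- the class in the component group
  have hQp : P.p • (Affine.Point.some x y hxy : (gen _).toAffine.Point) = 0 := hinj (by
    rw [map_nsmul, hQ, ← map_nsmul, hT, map_zero, map_zero])
  obtain ⟨k, hk⟩ := M.value_pow_eq (P := .some x y hxy) (n := P.p)
    (by rw [← map_nsmul, hQp, map_zero])
  obtain ⟨hlo, hhi⟩ := M.value_between hQ0
  set c := A.valuation ((translation r t • modelAt P.freyCurveInt A).a₆ : Qbar)
  set v := M.value (.some x y hxy)
  obtain ⟨e, he₄, hpe⟩ := frey_valuation_a₄ P hA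
  have hce : c = A.valuation (2 : Qbar) ^ (2 * e : ℤ) := by
    rw [hv, frey_valuation_Δ_two P hA, he₄, ← pow_mul, ← zpow_natCast]
    congr 1
    push_cast
    ring
  have hpos : 0 < A.valuation (2 : Qbar) :=
    zero_lt_iff.mpr ((Valuation.ne_zero_iff _).mpr two_ne_zero)
  -- `v` is a power of `v 2`, hence of `c`
  have finish : ∀ i : ℤ, v ≠ A.valuation (2 : Qbar) ^ i := ne_zpow_of_between P.pp hpe hpos hv2
    hce (zero_lt_iff.mpr M.c_ne_zero) M.c_lt_one hk hlo hhi
  obtain ⟨i, h | h | h⟩ := hpow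
  · exact finish i h
  · exact finish (2 * e - i) (by rw [h, hce, zpow_sub₀ hpos.ne'])
  · have hp2 : v = v ^ P.p / c ^ ((P.p - 1 : ℕ) / 2) := by
      obtain ⟨j, hj⟩ := P.hp_odd
      rw [hj, Nat.add_sub_cancel, Nat.mul_div_cancel_left _ two_pos, pow_succ, pow_mul, h,
        mul_div_cancel_left₀ _ (pow_ne_zero _ M.c_ne_zero)]
    exact finish (2 * e * k - 2 * e * ((P.p - 1) / 2 : ℕ)) (by
      rw [hp2, ← hk, hce, ← zpow_natCast (A.valuation (2 : Qbar) ^ (2 * e : ℤ)), ← zpow_mul,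
        ← zpow_mul, zpow_sub₀ hpos.ne'])

/-- The reduction at `2` of a rational point has `x = 1`. -/
lemma frey_red_two (hA : A.LiesOverPrime 2)
    {T : ((P.freyCurveInt.map (Int.castRingHom ℚ))⁄Qbar).Point}
    (hfix : ∀ σ : Qbar ≃ₐ[ℚ] Qbar, σ • T = T) (h0 : IsE0 (toGen P.freyCurveInt A T)) :
    red (toGen P.freyCurveInt A T) = 0 ∨
      ∃ b h, red (toGen P.freyCurveInt A T) = .some 1 b h := by
  rcases T with _ | ⟨x, y, h⟩
  · rw [← Affine.Point.zero_def, map_zero]; exact Or.inl red_zero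
  rw [toGen_some] at h0 ⊢
  have h' : (gen (modelAt P.freyCurveInt A)).toAffine.Nonsingular x y :=
    gen_modelAt P.freyCurveInt A ▸ h
  by_cases hx : x ∈ A
  swap
  · exact Or.inl ((red_eq_zero_iff h0).mpr ((isE1_some_iff h').mpr hx))
  obtain ⟨z, hz⟩ := exists_rat_x_of_fixed h hfix
  rw [red_some_of_mem h' hx h0]
  have hns := (isE0_some_iff_of_mem h' hx).mp h0
  rcases residue_ratCast_two hA hx hz with e | e
  · exfalso
    set b := IsLocalRing.residue A ⟨y, y_mem_of_x_mem h'.1 hx⟩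
    rw [e] at hns
    have c1 : (spc (modelAt P.freyCurveInt A)).a₁ = 1 := by simp [modelAt, FreyPackage.freyCurveInt]
    have c3 : (spc (modelAt P.freyCurveInt A)).a₃ = 0 := by simp [modelAt, FreyPackage.freyCurveInt]
    have c6 : (spc (modelAt P.freyCurveInt A)).a₆ = 0 := by simp [modelAt, FreyPackage.freyCurveInt]
    have c4 : (spc (modelAt P.freyCurveInt A)).a₄ = 0 := by
      have h4 : IsLocalRing.residue A (P.freyCurveInt.a₄ : A) = 0 :=
        (residue_intCast_eq_zero_iff Nat.prime_two hA _).mpr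
          (by exact_mod_cast (frey_a₄_data P).1)
      simpa [modelAt] using h4
    have hb : b = 0 := by
      have he := (Affine.equation_iff ..).mp hns.1
      rw [c1, c3, c6] at he
      have : b ^ 2 = 0 := by linear_combination he
      exact (pow_eq_zero_iff two_ne_zero).mp this
    rw [hb, Affine.nonsingular_zero, c3, c4, c6] at hns
    simp at hns
  · refine Or.inr ⟨_, e ▸ hns, ?_⟩
    simp only [Affine.Point.some.injEq]
    exact ⟨e, trivial⟩

/-- A point of order `p ≥ 5` on an affine curve does not have `x(R) = x(2R)`. -/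
lemma eq_zero_of_same_x {F : Type*} [Field F] [DecidableEq F] {V : Affine F} {p : ℕ}
    (hp : p.Prime) (hp5 : 5 ≤ p) {x y₁ y₂ : F} (h₁ : V.Nonsingular x y₁)
    (h₂ : V.Nonsingular x y₂) (h : p • (Affine.Point.some x y₁ h₁) = 0)
    (hd : 2 • (Affine.Point.some x y₁ h₁) = Affine.Point.some x y₂ h₂) : False := by
  set R := Affine.Point.some x y₁ h₁ with hR
  have hne : R ≠ 0 := Affine.Point.some_ne_zero _
  have hord : addOrderOf R = p :=
    ((Nat.dvd_prime hp).mp (addOrderOf_dvd_of_nsmul_eq_zero h)).resolve_left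
      (fun h1 => hne (AddMonoid.addOrderOf_eq_one_iff.mp h1))
  have key : ∀ n, 0 < n → n < p → n • R ≠ 0 := fun n hn hlt h0 => by
    have := Nat.le_of_dvd hn (hord ▸ addOrderOf_dvd_of_nsmul_eq_zero h0)
    omega
  rcases Affine.Y_eq_of_X_eq h₁.1 h₂.1 rfl with e | e
  · subst e
    refine key 1 (by omega) (by omega) ?_
    rw [one_nsmul]
    rw [← hR, two_nsmul] at hd
    simp at hd
  · subst e
    refine key 3 (by omega) (by omega) ?_
    rw [show (3 : ℕ) = 2 + 1 from rfl, add_nsmul, one_nsmul, hd, hR, ← eq_neg_iff_add_eq_zero,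
      Affine.Point.neg_some]
    simp only [Affine.Point.some.injEq, true_and]
    rw [Affine.negY_negY]

/-- **The Frey curve has no rational point of order `p`.** -/
theorem frey_fixed_torsion_eq_zero
    {T : ((P.freyCurveInt.map (Int.castRingHom ℚ))⁄Qbar).Point}
    (hfix : ∀ σ : Qbar ≃ₐ[ℚ] Qbar, σ • T = T) (hT : P.p • T = 0) : T = 0 := by
  classical
  obtain ⟨A, hA⟩ := FermatAgent.GaloisBasic.exists_liesOverPrime Nat.prime_two
  have hres : (P.p : IsLocalRing.ResidueField A) ≠ 0 :=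
    natCast_residue_ne_zero Nat.prime_two hA fun h =>
      absurd ((Nat.prime_dvd_prime_iff_eq Nat.prime_two P.pp).mp h) (by have := P.hp5; omega)
  apply (toGen P.freyCurveInt A).injective
  rw [map_zero]
  set G := toGen P.freyCurveInt A T with hG
  have hGp : P.p • G = 0 := by rw [hG, ← map_nsmul, hT, map_zero]
  have hG0 := frey_fixed_torsion_isE0 P hA hfix hT
  rw [← hG] at hG0
  by_cases h1 : IsE1 G
  · exact IsE1.eq_zero_of_nsmul_eq_zero h1 hres hGp
  exfalso
  rcases frey_red_two P hA hfix hG0 with e | ⟨b₁, h₁, e₁⟩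
  · exact h1 ((red_eq_zero_iff hG0).mp e)
  rw [← hG] at e₁
  have hfix2 : ∀ σ : Qbar ≃ₐ[ℚ] Qbar, σ • (2 • T) = 2 • T := fun σ => by
    rw [galois_smul_nsmul, hfix σ]
  obtain ⟨h20, h2r⟩ := hG0.nsmul 2
  have hRp : P.p • red G = 0 := by rw [← (hG0.nsmul P.p).2, hGp, red_zero]
  rw [e₁] at hRp h2r
  rcases frey_red_two P hA hfix2 (by rw [map_nsmul]; exact h20) with e | ⟨b₂, h₂, e₂⟩
  · rw [map_nsmul, ← hG, h2r] at e
    have hne : (Affine.Point.some 1 b₁ h₁ : (spc (modelAt P.freyCurveInt A)).toAffine.Point) ≠ 0 :=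
      Affine.Point.some_ne_zero _
    have hord := ((Nat.dvd_prime P.pp).mp (addOrderOf_dvd_of_nsmul_eq_zero hRp)).resolve_left
      (fun h => hne (AddMonoid.addOrderOf_eq_one_iff.mp h))
    have := Nat.le_of_dvd two_pos (hord ▸ addOrderOf_dvd_of_nsmul_eq_zero e)
    have := P.hp5
    omega
  · rw [map_nsmul, ← hG, h2r] at e₂
    exact eq_zero_of_same_x P.pp P.hp5 h₁ h₂ hRp e₂

end FermatAgent.ECLocal
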