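import Fermat.Agent.ECLocal.Node
import Mathlib.RingTheory.Valuation.Basic
import Mathlib.Data.Nat.Choose.Dvd

/-!
# Translation by the kernel of reduction near a node

On a node model the ratio `U / V` is multiplicative on the kernel of reduction up to the
discriminant; a point of order `p` there is not too close to the origin, and translation by it
moves the dominant coordinate of a point off the identity component to first order.
-/

set_option autoImplicit false

universe u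

namespace FermatAgent.ECLocal

open WeierstrassCurve

variable {K : Type u} [Field K] {A : ValuationSubring K}

/-- The valuation of `(1 + η) ^ p - 1` for small `η`. -/
theorem val_one_add_pow_sub_one {p : ℕ} (hp : p.Prime) {η : K} (h0 : η ≠ 0)
    (hp1 : A.valuation (p : K) < 1)
    (h : A.valuation η ^ (p - 1) < A.valuation (p : K)) :
    A.valuation ((η + 1) ^ p - 1) = A.valuation (p : K) * A.valuation η := by
  have hη : 0 < A.valuation η := zero_lt_iff.mpr ((Valuation.ne_zero_iff _).mpr h0)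
  have hη1 : A.valuation η < 1 := by
    by_contra hle
    exact (lt_of_le_of_lt (one_le_pow₀ (not_lt.mp hle)) (h.trans hp1)).false
  have hp0 : 0 < A.valuation (p : K) := lt_of_le_of_lt zero_le h
  obtain ⟨n, rfl⟩ : ∃ n, p = n + 2 := ⟨p - 2, by have := hp.two_le; omega⟩
  have e : (η + 1) ^ (n + 2) - 1 =
      (∑ i ∈ Finset.range (n + 1), η ^ (i + 1 + 1) * ((n + 2).choose (i + 1 + 1) : K)) +
        ((n + 2 : ℕ) : K) * η := by
    rw [add_pow, Finset.sum_range_succ', Finset.sum_range_succ']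
    simp only [one_pow, mul_one, pow_zero, Nat.choose_zero_right, Nat.cast_one, zero_add, pow_one,
      Nat.choose_one_right]
    ring
  rw [e]
  rw [A.valuation.map_add_eq_of_lt_right, map_mul]
  rw [map_mul]
  refine A.valuation.map_sum_lt (mul_ne_zero hp0.ne' hη.ne') fun i hi => ?_
  rw [Finset.mem_range] at hi
  rw [map_mul, map_pow]
  rcases (Nat.lt_succ_iff.mp hi).lt_or_eq with hlt | rfl
  · obtain ⟨r, hr⟩ := hp.dvd_choose_self (k := i + 1 + 1) (by omega) (by omega)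
    rw [hr, Nat.cast_mul, map_mul, mul_comm, mul_assoc]
    refine mul_lt_mul_of_pos_left ?_ hp0
    calc A.valuation (r : K) * A.valuation η ^ (i + 1 + 1) ≤ A.valuation η ^ (i + 1 + 1) :=
          mul_le_of_le_one_left' ((A.valuation_le_one_iff _).mpr (natCast_mem A r))
      _ < A.valuation η ^ 1 := pow_lt_pow_right_of_lt_one₀ hη hη1 (by omega)
      _ = A.valuation η := pow_one _
  · rw [Nat.choose_self, Nat.cast_one, map_one, mul_one, pow_succ]
    refine mul_lt_mul_of_pos_right ?_ hη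
    simpa using h

/-- The value of `ε ^ 3 - e ^ 3` on a line whose slopes differ by a unit. -/
theorem val_cube_sub_le {ε e : K} {m : A.ValueGroup} (hd : A.valuation (ε - e) = 1) (hm : 1 ≤ m)
    (h : A.valuation (ε * e) ≤ m) : A.valuation (ε ^ 3 - e ^ 3) ≤ m := by
  rw [show ε ^ 3 - e ^ 3 = (ε - e) * (ε * ε + ε * e + e * e) by ring, map_mul, hd, one_mul]
  by_cases he : A.valuation e ≤ 1
  · have hε : A.valuation ε ≤ 1 := by
      rw [show ε = e + (ε - e) by ring]
      exact A.valuation.map_add_le he hd.le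
    refine le_trans ?_ hm
    refine A.valuation.map_add_le (A.valuation.map_add_le ?_ ?_) ?_ <;> rw [map_mul] <;>
      exact mul_le_one₀ (by assumption) zero_le (by assumption)
  · rw [not_le] at he
    have hε : A.valuation ε = A.valuation e := by
      rw [show ε = e + (ε - e) by ring]
      exact A.valuation.map_add_eq_of_lt_left (hd ▸ he)
    have h2 : A.valuation e * A.valuation e ≤ m := by
      nth_rewrite 1 [← hε]
      rw [← map_mul]; exact h
    refine A.valuation.map_add_le (A.valuation.map_add_le ?_ ?_) ?_ <;>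
      rw [map_mul] <;> first | exact h2 | (rw [hε]; exact h2)

/-- Three large coordinates are small against the product of their partners. -/
theorem max_lt_mul_prod {Γ : Type*} [LinearOrderedCommGroupWithZero Γ]
    {a X₁ X₂ X₃ Y₁ Y₂ Y₃ : Γ} (ha : 0 < a) (hX₁ : 1 < X₁) (hY₁ : 1 < Y₁) (hY₂ : 1 < Y₂)
    (hY₃ : 1 < Y₃) (q₁ : Y₁ ^ 2 = X₁ ^ 3) (q₃ : Y₃ ^ 2 = X₃ ^ 3) (hA₁ : X₁ ≤ a * Y₁)
    (hA₂ : X₂ ≤ a * Y₂) : max (max X₁ X₂) X₃ < a * (Y₁ * Y₂ * Y₃) := by
  have h₁ : Y₁ < Y₁ * Y₂ * Y₃ := calc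
    Y₁ = Y₁ * 1 * 1 := by rw [mul_one, mul_one]
    _ < Y₁ * Y₂ * Y₃ := mul_lt_mul' (mul_le_mul' le_rfl hY₂.le) hY₃ zero_le
      (mul_pos (zero_le.trans_lt hY₁) (zero_le.trans_lt hY₂))
  have h₂ : Y₂ < Y₁ * Y₂ * Y₃ := calc
    Y₂ = 1 * Y₂ * 1 := by rw [mul_one, one_mul]
    _ < Y₁ * Y₂ * Y₃ := mul_lt_mul' (mul_le_mul' hY₁.le le_rfl) hY₃ zero_le
      (mul_pos (zero_le.trans_lt hY₁) (zero_le.trans_lt hY₂))
  have h₃ : Y₃ < Y₁ * Y₂ * Y₃ := calc
    Y₃ = 1 * 1 * Y₃ := by rw [mul_one, one_mul]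
    _ < Y₁ * Y₂ * Y₃ := mul_lt_mul_of_pos_right (mul_lt_mul'' hY₁ hY₂ zero_le zero_le)
      (zero_le.trans_lt hY₃)
  have hlt₁ := hA₁.trans_lt (mul_lt_mul_of_pos_left h₁ ha)
  have hlt₂ := hA₂.trans_lt (mul_lt_mul_of_pos_left h₂ ha)
  refine max_lt (max_lt hlt₁ hlt₂) ?_
  rcases le_total X₃ X₁ with hle | hle
  · exact hle.trans_lt hlt₁
  have hA₃ : X₃ ≤ a * Y₃ := by
    refine le_of_pow_le_pow_left₀ two_ne_zero zero_le ?_
    rw [mul_pow, q₃]
    have hs : X₁ ^ 2 ≤ a ^ 2 * X₁ ^ 3 := by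
      rw [← q₁, ← mul_pow]; exact pow_le_pow_left₀ zero_le hA₁ 2
    have h1 : 1 ≤ a ^ 2 * X₁ := by
      refine le_of_mul_le_mul_right ?_ (pow_pos (zero_le.trans_lt hX₁) 2)
      rw [one_mul, mul_assoc, ← pow_succ']
      exact hs
    calc X₃ ^ 2 ≤ a ^ 2 * X₁ * X₃ ^ 2 := le_mul_of_one_le_left' h1
      _ ≤ a ^ 2 * X₃ * X₃ ^ 2 := mul_le_mul' (mul_le_mul' le_rfl hle) le_rfl
      _ = a ^ 2 * X₃ ^ 3 := by rw [mul_assoc, ← pow_succ']
  exact hA₃.trans_lt (mul_lt_mul_of_pos_left h₃ ha)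

theorem val_three_mul_le (z : K) : A.valuation (3 * z) ≤ A.valuation z := by
  rw [map_mul]
  refine mul_le_of_le_one_left' ((A.valuation_le_one_iff _).mpr ?_)
  exact_mod_cast natCast_mem A 3

/-- The leading bracket of the translated coordinate. -/
theorem val_translate_lead {d x x₀ V V₀ c : K} (hd : A.valuation d = 1) (hc : A.valuation c < 1)
    (hV : A.valuation V < 1) (hx : A.valuation x < 1) (hX : 1 < A.valuation x₀)
    (hl : A.valuation x₀ < A.valuation V₀) :
    A.valuation (-(d * x₀ * V₀ ^ 2) + ((-(V * (3 * V₀ ^ 2 - 3 * V₀ * V + V ^ 2)) +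
      V₀ * (x * (3 * x₀ ^ 2 - 3 * x₀ * x + x ^ 2))) + c * V₀)) =
      A.valuation V₀ ^ 2 * A.valuation x₀ := by
  set X := A.valuation x₀
  set Y := A.valuation V₀
  have hY : 1 < Y := hX.trans hl
  set T := Y ^ 2 * X
  have hT : Y ≤ T := by
    calc Y = Y * 1 * 1 := by rw [mul_one, mul_one]
      _ ≤ Y * Y * X := mul_le_mul' (mul_le_mul' le_rfl hY.le) hX.le
      _ = T := by rw [← pow_two]
  have hlead : A.valuation (-(d * x₀ * V₀ ^ 2)) = T := by
    rw [Valuation.map_neg, map_mul, map_mul, hd, one_mul, map_pow, mul_comm]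
  rw [A.valuation.map_add_eq_of_lt_left, hlead]
  rw [hlead]
  have hb : ∀ {z z₀ : K}, A.valuation z ≤ A.valuation z₀ →
      A.valuation (3 * z₀ ^ 2 - 3 * z₀ * z + z ^ 2) ≤ A.valuation z₀ ^ 2 := fun {z z₀} hz => by
    refine A.valuation.map_add_le (A.valuation.map_sub_le
      ((val_three_mul_le _).trans_eq (map_pow _ _ _)) ?_)
      (by rw [map_pow]; exact pow_le_pow_left₀ zero_le hz 2)
    rw [mul_assoc]
    refine (val_three_mul_le _).trans ?_
    rw [map_mul, pow_two]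
    exact mul_le_mul' le_rfl hz
  refine A.valuation.map_add_lt (A.valuation.map_add_lt ?_ ?_) ?_
  · rw [Valuation.map_neg, map_mul]
    calc A.valuation V * _ ≤ A.valuation V * Y ^ 2 :=
          mul_le_mul' le_rfl (hb (hV.le.trans hY.le))
      _ < 1 * Y ^ 2 := mul_lt_mul_of_pos_right hV (pow_pos (zero_le.trans_lt hY) 2)
      _ ≤ T := by rw [one_mul]; exact le_mul_of_one_le_right' hX.le
  · rw [map_mul, map_mul]
    calc Y * (A.valuation x * _) ≤ Y * (1 * X ^ 2) :=
          mul_le_mul' le_rfl (mul_le_mul' hx.le (hb (hx.le.trans hX.le)))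
      _ < Y * (Y * X) := by
        refine mul_lt_mul_of_pos_left ?_ (zero_le.trans_lt hY)
        rw [one_mul, pow_two]
        exact mul_lt_mul_of_pos_right hl (zero_le.trans_lt hX)
      _ = T := by rw [← mul_assoc, ← pow_two]
  · rw [map_mul]
    exact lt_of_lt_of_le (mul_lt_of_lt_one_left (zero_le.trans_lt hY) hc) hT

/-- The remainder of the translated coordinate. -/
theorem val_translate_rest {e x x₀ U V V₀ : K} (hX : 1 < A.valuation x₀)
    (hl : A.valuation x₀ < A.valuation V₀)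
    (hve : A.valuation e * A.valuation x₀ = A.valuation V₀)
    (hxsub : A.valuation (x₀ - x) = A.valuation x₀) (hU : A.valuation U < 1)
    (hUpos : 0 < A.valuation U) (hVU : A.valuation V ≤ A.valuation U)
    (hxU : A.valuation x ≤ A.valuation U) :
    A.valuation ((V ^ 2 - 3 * V * e * x + 3 * e ^ 2 * x ^ 2) * (x₀ - x) ^ 3) <
      A.valuation U * (A.valuation V₀ ^ 2 * A.valuation x₀) := by
  have he1 : 1 ≤ A.valuation e := by
    by_contra hlt
    rw [not_le] at hlt
    exact (mul_lt_of_lt_one_left (zero_le.trans_lt hX) hlt).not_ge (hve ▸ hl.le)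
  have hb : A.valuation (V ^ 2 - 3 * V * e * x + 3 * e ^ 2 * x ^ 2) ≤
      A.valuation e ^ 2 * A.valuation U ^ 2 := by
    refine A.valuation.map_add_le (A.valuation.map_sub_le ?_ ?_) ?_
    · rw [map_pow]
      exact (pow_le_pow_left₀ zero_le hVU 2).trans (le_mul_of_one_le_left' (one_le_pow₀ he1))
    · rw [show 3 * V * e * x = 3 * (e * (V * x)) by ring]
      refine (val_three_mul_le _).trans ?_
      rw [map_mul, map_mul, pow_two, pow_two]
      exact mul_le_mul' (le_mul_of_one_le_left' he1) (mul_le_mul' hVU hxU)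
    · rw [show 3 * e ^ 2 * x ^ 2 = 3 * (e ^ 2 * x ^ 2) by ring]
      refine (val_three_mul_le _).trans ?_
      rw [map_mul, map_pow, map_pow]
      exact mul_le_mul' le_rfl (pow_le_pow_left₀ zero_le hxU 2)
  set X := A.valuation x₀
  rw [map_mul, map_pow, hxsub]
  calc _ ≤ A.valuation e ^ 2 * A.valuation U ^ 2 * X ^ 3 := mul_le_mul' hb le_rfl
    _ = A.valuation U * ((A.valuation e * X) ^ 2 * X) * A.valuation U := by
      simp only [pow_succ, pow_zero, one_mul]; ac_rfl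
    _ < A.valuation U * (A.valuation V₀ ^ 2 * X) * 1 := by
      rw [hve]
      exact mul_lt_mul_of_pos_left hU (mul_pos hUpos
        (mul_pos (pow_pos (zero_le.trans_lt (hX.trans hl)) 2) (zero_le.trans_lt hX)))
    _ = _ := mul_one _

variable {W : WeierstrassCurve A}

namespace NodeModel

variable (M : NodeModel W)

/-- `y - α x`. -/
abbrev uc (x y : K) : K := y - (M.α : K) * x

/-- `y - β x`. -/
abbrev vcoord (x y : K) : K := y - (M.β : K) * x

theorem uc_sub_vcoord (x y : K) :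
    M.uc x y - M.vcoord x y = ((M.β : K) - (M.α : K)) * x := by ring

/-- The difference of the slopes is a unit. -/
theorem val_sub' : A.valuation ((M.β : K) - (M.α : K)) = 1 := by
  rw [A.valuation.map_sub_swap]; exact M.val_sub

/-- Negation exchanges the tangent coordinates up to sign. -/
theorem uc_negY (x y : K) :
    M.uc x ((gen W).toAffine.negY x y) = -M.vcoord x y := by
  simp only [uc, vcoord, Affine.negY, WeierstrassCurve.map_a₁, WeierstrassCurve.map_a₃,
    ValuationSubring.subtype_apply, M.a₁_eq, M.a₃_eq]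
  push_cast; ring

/-- Negation exchanges the tangent coordinates up to sign, second coordinate. -/
theorem vcoord_negY (x y : K) :
    M.vcoord x ((gen W).toAffine.negY x y) = -M.uc x y := by
  simp only [uc, vcoord, Affine.negY, WeierstrassCurve.map_a₁, WeierstrassCurve.map_a₃,
    ValuationSubring.subtype_apply, M.a₁_eq, M.a₃_eq]
  push_cast; ring

/-- The coordinates of a point of the kernel of reduction. -/
theorem val_large {x y : K} (h : (gen W).toAffine.Equation x y) (hx : 1 < A.valuation x) :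
    A.valuation (M.uc x y) = A.valuation (M.vcoord x y) ∧
      A.valuation (M.vcoord x y) ^ 2 = A.valuation x ^ 3 ∧
      A.valuation x < A.valuation (M.vcoord x y) := by
  set U := M.uc x y
  set V := M.vcoord x y
  have hd : A.valuation (U - V) = A.valuation x := by
    rw [M.uc_sub_vcoord, map_mul, M.val_sub', one_mul]
  have hprod : A.valuation U * A.valuation V = A.valuation x ^ 3 := by
    rw [← map_mul, M.equation_iff.mp h, ← map_pow, A.valuation.map_add_eq_of_lt_left]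
    rw [map_pow]
    exact M.c_lt_one.trans_le (one_le_pow₀ hx.le)
  have h23 : A.valuation x ^ 2 < A.valuation x ^ 3 := pow_lt_pow_right₀ hx (by norm_num)
  have heq : A.valuation U = A.valuation V := by
    by_contra hne
    rcases lt_or_gt_of_ne hne with hlt | hlt
    · rw [A.valuation.map_sub_eq_of_lt_right hlt] at hd
      rw [hd] at hlt hprod
      rw [← hprod, pow_two] at h23
      exact (mul_le_mul' hlt.le le_rfl).not_gt h23
    · rw [A.valuation.map_sub_eq_of_lt_left hlt] at hd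
      rw [hd] at hlt hprod
      rw [← hprod, pow_two] at h23
      exact (mul_le_mul' le_rfl hlt.le).not_gt h23
  rw [heq, ← pow_two] at hprod
  refine ⟨heq, hprod, lt_of_pow_lt_pow_left₀ 2 zero_le ?_⟩
  rwa [hprod]

theorem vcoord_ne_zero {x y : K} (h : (gen W).toAffine.Equation x y) (hx : 1 < A.valuation x) :
    M.vcoord x y ≠ 0 := fun h0 => by
  have := (M.val_large h hx).2.2
  rw [h0, map_zero] at this
  exact not_lt_zero this

/-- `U / V`, and one at the origin. -/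
noncomputable def ratio : (gen W).toAffine.Point → K
  | .zero => 1
  | .some x y _ => M.uc x y / M.vcoord x y

theorem ratio_zero : M.ratio 0 = 1 := rfl

theorem ratio_some {x y : K} (h : (gen W).toAffine.Nonsingular x y) :
    M.ratio (.some x y h) = M.uc x y / M.vcoord x y := rfl

theorem val_ratio_sub_one {x y : K} (h : (gen W).toAffine.Nonsingular x y)
    (hx : 1 < A.valuation x) :
    A.valuation (M.ratio (.some x y h) - 1) = A.valuation x / A.valuation (M.vcoord x y) := by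
  rw [M.ratio_some, div_sub_one (M.vcoord_ne_zero h.1 hx), map_div₀, M.uc_sub_vcoord, map_mul,
    M.val_sub', one_mul]

variable [DecidableEq K]

/-- The third point on the line through two points. -/
theorem exists_chord {x₁ y₁ x₂ y₂ : K} (h₁ : (gen W).toAffine.Nonsingular x₁ y₁)
    (h₂ : (gen W).toAffine.Nonsingular x₂ y₂)
    (hxy : ¬(x₁ = x₂ ∧ y₁ = (gen W).toAffine.negY x₂ y₂)) :
    ∃ (x₃ y₃ : K) (h₃ : (gen W).toAffine.Nonsingular x₃ ((gen W).toAffine.negY x₃ y₃))
      (ε e μ : K),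
      Affine.Point.some x₁ y₁ h₁ + Affine.Point.some x₂ y₂ h₂ =
        .some x₃ ((gen W).toAffine.negY x₃ y₃) h₃ ∧
      (gen W).toAffine.Equation x₃ y₃ ∧
      ε - e = (M.β : K) - (M.α : K) ∧
      (M.uc x₁ y₁ = ε * x₁ + μ ∧ M.vcoord x₁ y₁ = e * x₁ + μ) ∧
      (M.uc x₂ y₂ = ε * x₂ + μ ∧ M.vcoord x₂ y₂ = e * x₂ + μ) ∧
      (M.uc x₃ y₃ = ε * x₃ + μ ∧ M.vcoord x₃ y₃ = e * x₃ + μ) ∧
      x₁ + x₂ + x₃ = ε * e ∧ x₁ * x₂ + x₁ * x₃ + x₂ * x₃ = -μ * (ε + e) ∧
      x₁ * x₂ * x₃ = μ ^ 2 - (W.a₆ : K) := by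
  set L := (gen W).toAffine.slope x₁ x₂ y₁ y₂ with hL
  set μ := y₁ - L * x₁ with hμdef
  set x₃ := (gen W).toAffine.addX x₁ x₂ L with hx₃def
  set y₃ := (gen W).toAffine.negAddY x₁ x₂ y₁ L with hy₃def
  have hy₁ : y₁ = L * x₁ + μ := by rw [hμdef]; ring
  obtain ⟨hy₂, hy₃, s1, s2, s3, -, -⟩ :=
    node_chord M.gen_coeff_eq.1 M.gen_coeff_eq.2.1 M.gen_coeff_eq.2.2.1 M.gen_coeff_eq.2.2.2
      h₁.1 h₂.1 hxy
  have hU : ∀ x y : K, y = L * x + μ → M.uc x y = (L - M.α) * x + μ := by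
    intro x y h; rw [uc, h]; ring
  have hV : ∀ x y : K, y = L * x + μ → M.vcoord x y = (L - M.β) * x + μ := by
    intro x y h; rw [vcoord, h]; ring
  refine ⟨x₃, y₃, Affine.nonsingular_add h₁ h₂ hxy, L - M.α, L - M.β, μ,
    Affine.Point.add_some hxy, (Affine.nonsingular_negAdd h₁ h₂ hxy).1, by ring,
    ⟨hU _ _ hy₁, hV _ _ hy₁⟩, ⟨hU _ _ hy₂, hV _ _ hy₂⟩, ⟨hU _ _ hy₃, hV _ _ hy₃⟩,
    s1, s2, s3⟩

omit [DecidableEq K] in
theorem val_ratio_mul_sub_one_le {a : A.ValueGroup} {R S : (gen W).toAffine.Point} (hS : IsE1 S)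
    (hRa : A.valuation (M.ratio R - 1) ≤ a) (hSa : A.valuation (M.ratio S - 1) ≤ a) :
    A.valuation (M.ratio R * M.ratio S - 1) ≤ a := by
  rw [show M.ratio R * M.ratio S - 1 =
    (M.ratio R - 1) * (M.ratio S - 1) + (M.ratio R - 1) + (M.ratio S - 1) by ring]
  refine A.valuation.map_add_le (A.valuation.map_add_le ?_ hRa) hSa
  rw [map_mul]
  rcases le_total a 1 with h | h
  · exact (mul_le_mul' hRa (hSa.trans h)).trans_eq (mul_one a)
  · refine (mul_le_of_le_one_right' ?_).trans hRa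
    rcases S with _ | ⟨x, y, hxy⟩
    · rw [show M.ratio _ = (1 : K) from rfl, sub_self, map_zero]; exact zero_le
    · have hx := (one_lt_valuation_iff A).mpr ((isE1_some_iff hxy).mp hS)
      rw [M.val_ratio_sub_one hxy hx]
      exact (div_le_one₀ (zero_le.trans_lt (M.val_large hxy.1 hx).2.2)).mpr
        (M.val_large hxy.1 hx).2.2.le

omit [DecidableEq K] in
theorem val_le_mul_vcoord {a : A.ValueGroup} {x y : K} (h : (gen W).toAffine.Nonsingular x y)
    (hx : 1 < A.valuation x) (ha : A.valuation (M.ratio (.some x y h) - 1) ≤ a) :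
    A.valuation x ≤ a * A.valuation (M.vcoord x y) := by
  rwa [M.val_ratio_sub_one h hx,
    div_le_iff₀ (zero_lt_iff.mpr (by simpa using M.vcoord_ne_zero h.1 hx))] at ha

/-- Multiplicativity of the ratio on the kernel of reduction. -/
theorem ratio_add {a : A.ValueGroup} (ha : 0 < a) {R S : (gen W).toAffine.Point}
    (hR : IsE1 R) (hS : IsE1 S) (hRa : A.valuation (M.ratio R - 1) ≤ a)
    (hSa : A.valuation (M.ratio S - 1) ≤ a) :
    A.valuation (M.ratio (R + S) - M.ratio R * M.ratio S) < A.valuation (W.a₆ : K) * a ∧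
      A.valuation (M.ratio (R + S) - 1) ≤ a := by
  have hca : 0 < A.valuation (W.a₆ : K) * a := mul_pos (zero_lt_iff.mpr M.c_ne_zero) ha
  suffices key : A.valuation (M.ratio (R + S) - M.ratio R * M.ratio S) <
      A.valuation (W.a₆ : K) * a by
    refine ⟨key, ?_⟩
    rw [show M.ratio (R + S) - 1 =
      (M.ratio (R + S) - M.ratio R * M.ratio S) + (M.ratio R * M.ratio S - 1) by ring]
    exact A.valuation.map_add_le (key.le.trans (mul_le_of_le_one_left' M.c_lt_one.le))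
      (M.val_ratio_mul_sub_one_le hS hRa hSa)
  have hR' := hR
  have hS' := hS
  rcases R with _ | ⟨x₁, y₁, h₁⟩
  · rw [← Affine.Point.zero_def, zero_add, M.ratio_zero, one_mul, sub_self, map_zero]; exact hca
  rcases S with _ | ⟨x₂, y₂, h₂⟩
  · rw [← Affine.Point.zero_def, add_zero, M.ratio_zero, mul_one, sub_self, map_zero]; exact hca
  have hx₁ := (one_lt_valuation_iff A).mpr ((isE1_some_iff h₁).mp hR')
  have hx₂ := (one_lt_valuation_iff A).mpr ((isE1_some_iff h₂).mp hS')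
  by_cases hxy : x₁ = x₂ ∧ y₁ = (gen W).toAffine.negY x₂ y₂
  · rw [Affine.Point.add_of_Y_eq hxy.1 hxy.2, M.ratio_zero, M.ratio_some, M.ratio_some]
    obtain ⟨rfl, rfl⟩ := hxy
    rw [M.uc_negY, M.vcoord_negY, neg_div_neg_eq,
      div_mul_div_cancel₀' (M.vcoord_ne_zero h₂.1 hx₂), div_self, sub_self, map_zero]
    · exact hca
    · intro h0
      have := (M.val_large h₂.1 hx₂).1
      rw [h0, map_zero] at this
      exact M.vcoord_ne_zero h₂.1 hx₂ ((map_eq_zero _).mp this.symm)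
  obtain ⟨x₃, y₃, h₃, ε, e, μ, hsum, hq₃, hde, ⟨hU₁, hV₁⟩, ⟨hU₂, hV₂⟩, ⟨hU₃, hV₃⟩, s1, s2, s3⟩ :=
    M.exists_chord h₁ h₂ hxy
  have hx₃ : 1 < A.valuation x₃ := by
    have := IsE1.add hR' hS'
    rw [hsum, isE1_some_iff, ← one_lt_valuation_iff] at this
    exact this
  obtain ⟨-, q₁, l₁⟩ := M.val_large h₁.1 hx₁
  obtain ⟨-, -, l₂⟩ := M.val_large h₂.1 hx₂
  obtain ⟨e₃, q₃, l₃⟩ := M.val_large hq₃ hx₃
  have n₁ := M.vcoord_ne_zero h₁.1 hx₁
  have n₂ := M.vcoord_ne_zero h₂.1 hx₂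
  have n₃ := M.vcoord_ne_zero hq₃ hx₃
  have m₃ : M.uc x₃ y₃ ≠ 0 := fun h0 => by
    rw [h0, map_zero] at e₃
    exact n₃ ((map_eq_zero _).mp e₃.symm)
  have hA₁ := M.val_le_mul_vcoord h₁ hx₁ hRa
  have hA₂ := M.val_le_mul_vcoord h₂ hx₂ hSa
  rw [hsum, M.ratio_some, M.ratio_some, M.ratio_some, M.uc_negY, M.vcoord_negY, neg_div_neg_eq]
  set U₁ := M.uc x₁ y₁
  set U₂ := M.uc x₂ y₂
  set U₃ := M.uc x₃ y₃
  set V₁ := M.vcoord x₁ y₁
  set V₂ := M.vcoord x₂ y₂
  set V₃ := M.vcoord x₃ y₃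
  set c := (W.a₆ : K)
  have hprod : V₁ * V₂ * V₃ - U₁ * U₂ * U₃ = c * (ε ^ 3 - e ^ 3) := by
    rw [hU₁, hU₂, hU₃, hV₁, hV₂, hV₃]
    linear_combination (e ^ 3 - ε ^ 3) * s3 + (e ^ 2 - ε ^ 2) * μ * s2 + (e - ε) * μ ^ 2 * s1
  have e' : V₃ / U₃ - U₁ / V₁ * (U₂ / V₂) = c * (ε ^ 3 - e ^ 3) / (V₁ * V₂ * U₃) := by
    field_simp
    linear_combination hprod
  rw [e', map_div₀, map_mul, map_mul, map_mul, e₃,
    div_lt_iff₀ (by simp only [zero_lt_iff, ne_eq, mul_eq_zero, map_eq_zero, n₁, n₂, n₃,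
      or_self, not_false_eq_true])]
  rw [mul_assoc (A.valuation c)]
  refine mul_lt_mul_of_pos_left ((val_cube_sub_le (by rw [hde, M.val_sub'])
    (hx₁.le.trans (le_max_of_le_left (le_max_left _ _))) ?_).trans_lt (max_lt_mul_prod ha hx₁
      (hx₁.trans l₁) (hx₂.trans l₂) (hx₃.trans l₃) q₁ q₃ hA₁ hA₂))
    (zero_lt_iff.mpr M.c_ne_zero)
  rw [← s1]
  exact A.valuation.map_add_le (A.valuation.map_add_le (le_max_of_le_left (le_max_left _ _))
    (le_max_of_le_left (le_max_right _ _))) (le_max_right _ _)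

/-- **A point of order `p` in the kernel of reduction is not too close to the origin.** -/
theorem le_pow_of_nsmul_eq_zero {p : ℕ} (hp : p.Prime) (hp1 : A.valuation (p : K) < 1)
    (hc : A.valuation (W.a₆ : K) ≤ A.valuation (p : K)) {x y : K}
    (h : (gen W).toAffine.Nonsingular x y) (hx : 1 < A.valuation x)
    (hn : p • (Affine.Point.some x y h : (gen W).toAffine.Point) = 0) :
    A.valuation (p : K) ≤ (A.valuation x / A.valuation (M.vcoord x y)) ^ (p - 1) := by
  set R : (gen W).toAffine.Point := Affine.Point.some x y h with hRdef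
  by_contra hlt
  rw [not_le] at hlt
  set a := A.valuation x / A.valuation (M.vcoord x y) with hadef
  have hR1 : IsE1 R := (isE1_some_iff h).mpr ((one_lt_valuation_iff A).mp hx)
  have hRa : A.valuation (M.ratio R - 1) = a := M.val_ratio_sub_one h hx
  have ha : 0 < a := div_pos (zero_le.trans_lt hx) (zero_le.trans_lt (M.val_large h.1 hx).2.2)
  set w := M.ratio R
  have hw : A.valuation w ≤ 1 := by
    rw [show w = M.uc x y / M.vcoord x y from M.ratio_some h, map_div₀, (M.val_large h.1 hx).1,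
      div_self (zero_le.trans_lt (M.val_large h.1 hx).2.2).ne']
  have key : ∀ i : ℕ, IsE1 (i • R) ∧ A.valuation (M.ratio (i • R) - 1) ≤ a ∧
      A.valuation (M.ratio (i • R) - w ^ i) < A.valuation (W.a₆ : K) * a := by
    intro i
    induction i with
    | zero =>
      rw [zero_nsmul, M.ratio_zero, pow_zero, sub_self, map_zero]
      exact ⟨isE1_zero, zero_le, mul_pos (zero_lt_iff.mpr M.c_ne_zero) ha⟩
    | succ i ih =>
      obtain ⟨h1, h2, h3⟩ := ih
      obtain ⟨h4, h5⟩ := M.ratio_add ha h1 hR1 h2 hRa.le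
      rw [succ_nsmul]
      refine ⟨IsE1.add h1 hR1, h5, ?_⟩
      rw [show M.ratio (i • R + R) - w ^ (i + 1) = (M.ratio (i • R + R) - M.ratio (i • R) * w) +
        (M.ratio (i • R) - w ^ i) * w by ring]
      refine A.valuation.map_add_lt h4 ?_
      rw [map_mul]
      exact lt_of_le_of_lt (mul_le_of_le_one_right' hw) h3
  have h1 := (key p).2.2
  rw [hn, M.ratio_zero, A.valuation.map_sub_swap, show w = (w - 1) + 1 by ring,
    val_one_add_pow_sub_one hp (fun h0 => by rw [h0, map_zero] at hRa; exact ha.ne hRa) hp1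
      (hRa ▸ hlt), hRa] at h1
  exact (mul_le_mul' hc (le_refl a)).not_gt h1

/-- **Translation moves the dominant coordinate to first order.** -/
theorem exists_add_off {x y x₀ y₀ : K} (h : (gen W).toAffine.Nonsingular x y)
    (h₀ : (gen W).toAffine.Nonsingular x₀ y₀) (hx : A.valuation x < 1) (hx₀ : 1 < A.valuation x₀)
    (hVU : A.valuation (M.vcoord x y) ≤ A.valuation (M.uc x y)) :
    ∃ (x' y' : K) (h' : (gen W).toAffine.Nonsingular x' y'),
      Affine.Point.some x y h + Affine.Point.some x₀ y₀ h₀ = .some x' y' h' ∧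
      A.valuation (M.uc x' y' - M.uc x y) =
        A.valuation (M.uc x y) * (A.valuation x₀ / A.valuation (M.vcoord x₀ y₀)) := by
  have hne : x ≠ x₀ := fun h => by
    rw [h] at hx; exact (hx₀.trans hx).false
  obtain ⟨x₃, y₃, h₃, ε, e, μ, hsum, -, hde, ⟨hU₁, hV₁⟩, ⟨hU₂, hV₂⟩, ⟨hU₃, hV₃⟩, s1, s2, s3⟩ :=
    M.exists_chord h h₀ fun hh => hne hh.1
  refine ⟨_, _, h₃, hsum, ?_⟩
  rw [M.uc_negY]
  obtain ⟨-, q₀, l₀⟩ := M.val_large h₀.1 hx₀
  obtain ⟨hU1, hV1⟩ := M.val_UV_lt_one h.1 hx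
  have hq := M.equation_iff.mp h.1
  have hq₀ := M.equation_iff.mp h₀.1
  set c := (W.a₆ : K)
  set d := (M.β : K) - (M.α : K) with hd
  set U := M.uc x y with hUdef
  set V := M.vcoord x y with hVdef
  set U₀ := M.uc x₀ y₀
  set V₀ := M.vcoord x₀ y₀
  set X := A.valuation x₀
  set Y := A.valuation V₀
  have hX1 : 1 < X := hx₀
  have hY1 : 1 < Y := hX1.trans l₀
  have hdx : U - V = d * x := M.uc_sub_vcoord x y
  have hdx₀ : U₀ - V₀ = d * x₀ := M.uc_sub_vcoord x₀ y₀
  have hxU : A.valuation x ≤ A.valuation U := by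
    have h1 : A.valuation (d * x) ≤ A.valuation U := hdx ▸ A.valuation.map_sub_le le_rfl hVU
    rwa [map_mul, M.val_sub', one_mul] at h1
  have hUpos : 0 < A.valuation U := by
    by_contra h0
    rw [zero_lt_iff, not_not] at h0
    have hU0 : U = 0 := (map_eq_zero _).mp h0
    have hV0 : V = 0 := (map_eq_zero _).mp (le_zero_iff.mp (h0 ▸ hVU))
    have hx0 : x = 0 := (map_eq_zero _).mp (le_zero_iff.mp (h0 ▸ hxU))
    refine M.c_ne_zero ((map_eq_zero _).mpr ?_)
    have : U * V = x ^ 3 + c := hq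
    rw [hU0, hx0] at this
    linear_combination -this
  have hxsub : A.valuation (x₀ - x) = X :=
    A.valuation.map_sub_eq_of_lt_left (hx.trans hX1)
  have he : e * (x₀ - x) = V₀ - V := by rw [hV₁, hV₂]; ring
  have hve : A.valuation e * X = Y := by
    rw [← hxsub, ← map_mul, he]
    exact A.valuation.map_sub_eq_of_lt_left (hV1.trans hY1)
  have hV₃' : M.vcoord x₃ y₃ * V₀ = V ^ 2 - 3 * V * e * x + 3 * e ^ 2 * x ^ 2 - e ^ 3 * U := by
    have hqV : U * V = x ^ 3 + c := hq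
    rw [hV₃, hV₂]
    rw [hU₁, hV₁] at hqV
    rw [hU₁, hV₁]
    linear_combination (e ^ 2) * s2 + (e * μ - e ^ 2 * x) * s1 + (0 : K) * hqV
  have e1 : (-M.vcoord x₃ y₃ - U) * V₀ * (x₀ - x) ^ 3 =
      U * (-(d * x₀ * V₀ ^ 2) + ((-(V * (3 * V₀ ^ 2 - 3 * V₀ * V + V ^ 2)) +
        V₀ * (x * (3 * x₀ ^ 2 - 3 * x₀ * x + x ^ 2))) + c * V₀)) -
      (V ^ 2 - 3 * V * e * x + 3 * e ^ 2 * x ^ 2) * (x₀ - x) ^ 3 := by
    have h3 : (e * (x₀ - x)) ^ 3 = (V₀ - V) ^ 3 := by rw [he]
    have hq0' : U₀ * V₀ = x₀ ^ 3 + c := hq₀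
    linear_combination -(x₀ - x) ^ 3 * hV₃' + U * h3 + U * V₀ * hq0' - U * V₀ ^ 2 * hdx₀
  set T := Y ^ 2 * X
  have main : A.valuation (U * (-(d * x₀ * V₀ ^ 2) + ((-(V * (3 * V₀ ^ 2 - 3 * V₀ * V + V ^ 2)) +
      V₀ * (x * (3 * x₀ ^ 2 - 3 * x₀ * x + x ^ 2))) + c * V₀))) = A.valuation U * T := by
    rw [map_mul, val_translate_lead M.val_sub' M.c_lt_one hV1 hx hX1 l₀]
  have small : A.valuation ((V ^ 2 - 3 * V * e * x + 3 * e ^ 2 * x ^ 2) * (x₀ - x) ^ 3) <
      A.valuation U * T :=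
    val_translate_rest hX1 l₀ hve hxsub hU1 hUpos hVU hxU
  have htot : A.valuation ((-M.vcoord x₃ y₃ - U) * V₀ * (x₀ - x) ^ 3) = A.valuation U * T := by
    rw [e1, A.valuation.map_sub_eq_of_lt_left (main.symm ▸ small), main]
  rw [map_mul, map_mul, map_pow, hxsub] at htot
  have hY0 : Y ≠ 0 := (zero_le.trans_lt hY1).ne'
  have hX0 : X ≠ 0 := (zero_le.trans_lt hX1).ne'
  rw [mul_div_assoc']
  rw [eq_div_iff hY0]
  refine mul_right_cancel₀ (pow_ne_zero 3 hX0) (htot.trans ?_)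
  show A.valuation U * (Y ^ 2 * X) = A.valuation U * X * X ^ 3
  rw [show Y ^ 2 = X ^ 3 from q₀, mul_assoc, mul_comm X (X ^ 3)]

end NodeModel

end FermatAgent.ECLocal
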