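import Mathlib.NumberTheory.PythagoreanTriples
import Mathlib.RingTheory.Int.Basic
import Mathlib.RingTheory.PrincipalIdealDomain
import Mathlib.Data.ZMod.Basic
import Mathlib.Algebra.GCDMonoid.Nat
import Mathlib.Data.Int.Lemmas
import Mathlib.Tactic

/-!
# Descent: `D² + 16e²` and `D² + 25e²` are not both squares

This is the rank zero statement for the elliptic curve `X₀(15)`, in elementary form.
-/

set_option autoImplicit false

namespace FermatAgent.ECLocal.Concordant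

lemma three_dvd_of_sq_add_sq {x y : ℤ} (h : (3 : ℤ) ∣ x ^ 2 + y ^ 2) :
    (3 : ℤ) ∣ x ∧ (3 : ℤ) ∣ y := by
  have key : ∀ a b : ZMod 3, a ^ 2 + b ^ 2 = 0 → a = 0 ∧ b = 0 := by decide
  have h' := (ZMod.intCast_zmod_eq_zero_iff_dvd (x ^ 2 + y ^ 2) 3).mpr h
  push_cast at h'
  obtain ⟨hx, hy⟩ := key _ _ h'
  exact ⟨(ZMod.intCast_zmod_eq_zero_iff_dvd x 3).mp hx,
    (ZMod.intCast_zmod_eq_zero_iff_dvd y 3).mp hy⟩

lemma split_nonneg {a b n : ℤ} (h : IsCoprime a b) (ha : 0 ≤ a) (hb : 0 ≤ b)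
    (he : a * b = n ^ 2) : ∃ x y : ℤ, a = x ^ 2 ∧ b = y ^ 2 := by
  obtain ⟨x, hx⟩ := Int.sq_of_isCoprime h he
  obtain ⟨y, hy⟩ := Int.sq_of_isCoprime h.symm ((mul_comm b a).trans he)
  refine ⟨x, y, ?_, ?_⟩
  · rcases hx with hx | hx
    · exact hx
    · nlinarith [sq_nonneg x]
  · rcases hy with hy | hy
    · exact hy
    · nlinarith [sq_nonneg y]

lemma split_signed {a b n : ℤ} (h : IsCoprime a b) (he : a * b = n ^ 2) (hn : n ≠ 0) :
    ∃ x y : ℤ, (a = x ^ 2 ∧ b = y ^ 2) ∨ (a = -x ^ 2 ∧ b = -y ^ 2) := by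
  have hpos : 0 < a * b := he ▸ by positivity
  rcases pos_and_pos_or_neg_and_neg_of_mul_pos hpos with ⟨ha, hb⟩ | ⟨ha, hb⟩
  · obtain ⟨x, y, hx, hy⟩ := split_nonneg h ha.le hb.le he
    exact ⟨x, y, Or.inl ⟨hx, hy⟩⟩
  · obtain ⟨x, y, hx, hy⟩ := split_nonneg (h.neg_neg) (neg_nonneg.mpr ha.le) (neg_nonneg.mpr hb.le)
      ((neg_mul_neg a b).trans he)
    exact ⟨x, y, Or.inr ⟨by linear_combination -hx, by linear_combination -hy⟩⟩

/-- Both `D² + 16e²` and `D² + 25e²` are squares. -/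
def Good (D e : ℤ) : Prop := (∃ A, D ^ 2 + 16 * e ^ 2 = A ^ 2) ∧ ∃ B, D ^ 2 + 25 * e ^ 2 = B ^ 2

/-- Existence of a smaller solution. -/
def Smaller (k : ℤ) : Prop := ∃ D e, Odd D ∧ e ≠ 0 ∧ e.natAbs < k.natAbs ∧ Good D e

lemma natAbs_lt_of {e f k : ℤ} (hk : k ^ 2 = 4 * f ^ 2) (he : e ∣ f) (hk0 : k ≠ 0) :
    e.natAbs < k.natAbs := by
  have hf : f ≠ 0 := fun h => hk0 (by simpa [h] using hk)
  have h1 : e.natAbs ≤ f.natAbs :=
    Nat.le_of_dvd (Int.natAbs_pos.mpr hf) (Int.natAbs_dvd_natAbs.mpr he)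
  have h2 : f.natAbs < k.natAbs := Int.natAbs_lt_iff_sq_lt.mpr (by
    rw [hk]; nlinarith [sq_pos_of_ne_zero hf])
  omega

lemma smaller_one_fifteen {α β v k : ℤ} (hab : IsCoprime α β) (hv : Odd v)
    (hk : k ^ 2 = 4 * (α * β) ^ 2) (hk0 : k ≠ 0)
    (h : v ^ 2 = (α ^ 2 - 9 * β ^ 2) * (α ^ 2 - 25 * β ^ 2)) : Smaller k := by
  have hodd : Odd (α ^ 2 - 9 * β ^ 2) ∧ Odd (α ^ 2 - 25 * β ^ 2) :=
    Int.odd_mul.mp (h ▸ hv.pow)
  have hαβ : α * β ≠ 0 := fun h0 => hk0 (by simpa [h0] using hk)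
  have hcop : IsCoprime (α ^ 2 - 9 * β ^ 2) (α ^ 2 - 25 * β ^ 2) := by
    refine isCoprime_of_prime_dvd (fun hh => ?_) fun p hp h1 h2 => ?_
    · rw [hh.1] at hodd; simp at hodd
    have h16 : p ∣ (2 : ℤ) ^ 4 * β ^ 2 := by
      have := dvd_sub h1 h2
      rwa [show α ^ 2 - 9 * β ^ 2 - (α ^ 2 - 25 * β ^ 2) = 2 ^ 4 * β ^ 2 by ring] at this
    rcases hp.dvd_or_dvd h16 with h3 | h3
    · have h4 : p ∣ (2 : ℤ) := hp.dvd_of_dvd_pow h3
      have h5 : Associated p 2 := hp.associated_of_dvd Int.prime_two h4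
      exact (Int.not_even_iff_odd.mpr hodd.1) (even_iff_two_dvd.mpr (h5.symm.dvd.trans h1))
    · have hβ := hp.dvd_of_dvd_pow h3
      have hα : p ∣ α := hp.dvd_of_dvd_pow (n := 2) (by
        simpa using dvd_add h1 ((dvd_pow hβ two_ne_zero).mul_left 9))
      exact hp.not_isUnit (hab.isUnit_of_dvd' hα hβ)
  obtain ⟨γ, δ, h' | h'⟩ :=
    split_signed hcop h.symm (Int.odd_iff.mp hv |> fun h1 h0 => by simp [h0] at h1)
  · refine ⟨δ, β, ?_, right_ne_zero_of_mul hαβ, natAbs_lt_of hk (dvd_mul_left β α) hk0,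
      ⟨γ, by linear_combination h'.1 - h'.2⟩, α, by linear_combination -h'.2⟩
    have := h'.2 ▸ hodd.2
    exact (Int.odd_pow.mp this).resolve_right two_ne_zero
  · obtain ⟨⟨α', rfl⟩, γ', rfl⟩ := three_dvd_of_sq_add_sq (x := α) (y := γ)
      ⟨3 * β ^ 2, by linear_combination h'.1⟩
    have e1 : β ^ 2 = α' ^ 2 + γ' ^ 2 := by nlinarith [h'.1]
    refine ⟨5 * γ', α', ?_, fun h0 => hαβ (by simp [h0]), natAbs_lt_of hk ⟨3 * β, by ring⟩ hk0,
      ⟨δ, by linear_combination (-25 : ℤ) * e1 - h'.2⟩, 5 * β, by linear_combination (-25 : ℤ) * e1⟩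
    have : Odd (-(3 * γ') ^ 2) := h'.1 ▸ hodd.1
    have h3 : Odd (3 * γ') := (Int.odd_pow.mp (odd_neg.mp this)).resolve_right two_ne_zero
    exact Int.odd_mul.mpr ⟨by decide, (Int.odd_mul.mp h3).2⟩

lemma smaller_three_five {α β v k : ℤ} (hab : IsCoprime α β) (hv : Odd v)
    (hk : k ^ 2 = 4 * (α * β) ^ 2) (hk0 : k ≠ 0)
    (h : v ^ 2 = (α ^ 2 - β ^ 2) * (9 * α ^ 2 - 25 * β ^ 2)) : Smaller k := by
  have hodd : Odd (α ^ 2 - β ^ 2) ∧ Odd (9 * α ^ 2 - 25 * β ^ 2) := Int.odd_mul.mp (h ▸ hv.pow)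
  have hαβ : α * β ≠ 0 := fun h0 => hk0 (by simpa [h0] using hk)
  have hv0 : v ≠ 0 := fun h0 => by simp [h0] at hv
  have hcop : IsCoprime (α ^ 2 - β ^ 2) (9 * α ^ 2 - 25 * β ^ 2) := by
    refine isCoprime_of_prime_dvd (fun hh => ?_) fun p hp h1 h2 => ?_
    · rw [hh.1] at hodd; simp at hodd
    have h16 : p ∣ (2 : ℤ) ^ 4 * β ^ 2 := by
      have := dvd_sub (h1.mul_left 9) h2
      rwa [show 9 * (α ^ 2 - β ^ 2) - (9 * α ^ 2 - 25 * β ^ 2) = 2 ^ 4 * β ^ 2 by ring] at this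
    rcases hp.dvd_or_dvd h16 with h3 | h3
    · have h5 : Associated p 2 := hp.associated_of_dvd Int.prime_two (hp.dvd_of_dvd_pow h3)
      exact (Int.not_even_iff_odd.mpr hodd.1) (even_iff_two_dvd.mpr (h5.symm.dvd.trans h1))
    · have hβ := hp.dvd_of_dvd_pow h3
      have hα : p ∣ α := hp.dvd_of_dvd_pow (n := 2) (by
        simpa using dvd_add h1 (dvd_pow hβ two_ne_zero))
      exact hp.not_isUnit (hab.isUnit_of_dvd' hα hβ)
  obtain ⟨γ, δ, h' | h'⟩ := split_signed hcop h.symm hv0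
  · obtain ⟨⟨δ', rfl⟩, β', rfl⟩ := three_dvd_of_sq_add_sq (x := δ) (y := β)
      ⟨3 * γ ^ 2 - 5 * β ^ 2, by linear_combination 9 * h'.1 - h'.2⟩
    have e1 : γ ^ 2 = δ' ^ 2 + 16 * β' ^ 2 := by nlinarith [h'.1, h'.2]
    refine ⟨δ', β', ?_, fun h0 => hαβ (by simp [h0]), natAbs_lt_of hk ⟨3 * α, by ring⟩ hk0,
      ⟨γ, e1.symm⟩, α, by linear_combination -h'.1 - e1⟩
    have h3 : Odd (3 * δ') := (Int.odd_pow.mp (h'.2 ▸ hodd.2)).resolve_right two_ne_zero
    exact (Int.odd_mul.mp h3).2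
  · refine ⟨5 * γ, α, ?_, left_ne_zero_of_mul hαβ, natAbs_lt_of hk (dvd_mul_right α β) hk0,
      ⟨δ, by linear_combination 25 * h'.1 - h'.2⟩, 5 * β, by linear_combination 25 * h'.1⟩
    exact Int.odd_mul.mpr ⟨by decide,
      (Int.odd_pow.mp (odd_neg.mp (h'.1 ▸ hodd.1))).resolve_right two_ne_zero⟩

/-- The first half of the descent. -/
lemma smaller_of_squares {k v r s : ℤ} (hv : Odd v) (hkv : IsCoprime k v) (hk0 : k ≠ 0)
    (hr : k ^ 2 + v ^ 2 = r ^ 2) (hs : 16 * k ^ 2 + v ^ 2 = s ^ 2) : Smaller k := by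
  wlog hpos : 0 ≤ r ∧ 0 ≤ s generalizing r s
  · exact this (r := |r|) (s := |s|) (by rw [sq_abs]; exact hr) (by rw [sq_abs]; exact hs)
      ⟨abs_nonneg r, abs_nonneg s⟩
  obtain ⟨v', rfl⟩ := hv
  -- `k` is even
  have hk2 : (2 : ℤ) ∣ k := by
    by_contra h
    obtain ⟨k', rfl⟩ : Odd k := Int.not_even_iff_odd.mp fun he => h he.two_dvd
    have key : ∀ a b c : ZMod 4, (2 * a + 1) ^ 2 + (2 * b + 1) ^ 2 ≠ c ^ 2 := by decide
    exact key k' v' r (by exact_mod_cast congr_arg (fun n : ℤ => (n : ZMod 4)) hr)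
  obtain ⟨l, rfl⟩ := hk2
  have hro : Odd r :=
    (Int.odd_pow.mp (hr ▸ ⟨2 * l ^ 2 + 2 * v' ^ 2 + 2 * v', by ring⟩)).resolve_right
      two_ne_zero
  have hso : Odd s :=
    (Int.odd_pow.mp (hs ▸ ⟨32 * l ^ 2 + 2 * v' ^ 2 + 2 * v', by ring⟩)).resolve_right two_ne_zero
  obtain ⟨a, ha⟩ := (hso.sub_odd hro).two_dvd
  obtain ⟨b, hb⟩ := (hso.add_odd hro).two_dvd
  have hl0 : l ≠ 0 := fun h0 => hk0 (by simp [h0])
  have hrs : r ≤ s := by nlinarith [sq_nonneg l]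
  have ha0 : 0 ≤ a := by omega
  have hb0 : 0 ≤ b := by omega
  have hab : a * b = 15 * l ^ 2 := by nlinarith [ha, hb]
  have hra : r = b - a := by omega
  have hcop : IsCoprime a b := by
    refine isCoprime_of_prime_dvd (fun h => ?_) fun p hp hpa hpb => ?_
    · rw [h.1, h.2] at hab; exact hl0 (by simpa using hab.symm)
    have hpr : p ∣ r := hra ▸ dvd_sub hpb hpa
    have hpl : p ∣ l := by
      have h15 : p * p ∣ 15 * l ^ 2 := hab ▸ mul_dvd_mul hpa hpb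
      rcases hp.dvd_or_dvd ((dvd_mul_right p p).trans h15) with h | h
      · by_contra hl
        have hcp : IsCoprime (p * p) (l ^ 2) :=
          ((hp.coprime_iff_not_dvd.mpr hl).pow_right).mul_left
            (hp.coprime_iff_not_dvd.mpr hl).pow_right
        have h' : p.natAbs * p.natAbs ∣ 15 := by
          rw [← Int.natAbs_mul]; exact Int.natAbs_dvd_natAbs.mpr (hcp.dvd_of_dvd_mul_right h15)
        have hpp := Int.prime_iff_natAbs_prime.mp hp
        have hle : p.natAbs ≤ 15 := Nat.le_of_dvd (by norm_num) ((dvd_mul_right _ _).trans h')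
        have := Nat.le_of_dvd (by norm_num) h'
        have h3 : p.natAbs ≤ 3 := by nlinarith
        interval_cases h : p.natAbs <;> revert h' hpp <;> norm_num
      · exact hp.dvd_of_dvd_pow h
    have hpv : p ∣ 2 * v' + 1 := hp.dvd_of_dvd_pow (n := 2) (by
      rw [show (2 * v' + 1) ^ 2 = r ^ 2 - (2 * l) ^ 2 by linear_combination hr]
      exact dvd_sub (dvd_pow hpr two_ne_zero) (dvd_pow (hpl.mul_left 2) two_ne_zero))
    exact hp.not_isUnit (hkv.isUnit_of_dvd' (hpl.mul_left 2) hpv)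
  have h3 : (3 : ℤ) ∣ a ∨ (3 : ℤ) ∣ b :=
    (Int.prime_three.dvd_or_dvd (hab ▸ dvd_mul_of_dvd_left (by norm_num) _))
  have h5 : (5 : ℤ) ∣ a ∨ (5 : ℤ) ∣ b :=
    ((Int.prime_iff_natAbs_prime.mpr (by norm_num) : Prime (5 : ℤ)).dvd_or_dvd
      (hab ▸ dvd_mul_of_dvd_left (by norm_num) _))
  have hv : Odd (2 * v' + 1) := odd_two_mul_add_one v'
  have hv2 : (2 * v' + 1) ^ 2 = (b - a) ^ 2 - (2 * l) ^ 2 := by
    rw [← hra]; linear_combination hr
  rcases h3 with ⟨a₁, rfl⟩ | ⟨b₁, rfl⟩ <;> rcases h5 with h5 | h5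
  · -- `15 ∣ a`
    obtain ⟨a₂, rfl⟩ := ((Int.prime_iff_natAbs_prime.mpr (by norm_num) : Prime (5 : ℤ)).dvd_or_dvd
      h5).resolve_left (by norm_num)
    obtain ⟨β, α, rfl, rfl⟩ := split_nonneg (n := l) hcop.of_mul_left_right.of_mul_left_right
      (by omega) hb0 (by linarith)
    have el : l ^ 2 = β ^ 2 * α ^ 2 := by linarith
    refine smaller_one_fifteen (α := α) (β := β) ?_ hv (by linear_combination (4 : ℤ) * el) hk0
      (by linear_combination hv2 - 4 * el)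
    exact ((IsCoprime.pow_iff two_pos two_pos).mp hcop.of_mul_left_right.of_mul_left_right).symm
  · -- `3 ∣ a`, `5 ∣ b`
    obtain ⟨b₁, rfl⟩ := h5
    obtain ⟨α, β, rfl, rfl⟩ := split_nonneg (n := l) hcop.of_mul_left_right.of_mul_right_right
      (by omega) (by omega) (by linarith)
    have el : l ^ 2 = α ^ 2 * β ^ 2 := by linarith
    refine smaller_three_five (α := α) (β := β) ?_ hv (by linear_combination (4 : ℤ) * el) hk0
      (by linear_combination hv2 - 4 * el)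
    exact (IsCoprime.pow_iff two_pos two_pos).mp hcop.of_mul_left_right.of_mul_right_right
  · -- `3 ∣ b`, `5 ∣ a`
    obtain ⟨a₁, rfl⟩ := h5
    obtain ⟨β, α, rfl, rfl⟩ := split_nonneg (n := l) hcop.of_mul_left_right.of_mul_right_right
      (by omega) (by omega) (by linarith)
    have el : l ^ 2 = α ^ 2 * β ^ 2 := by linarith
    refine smaller_three_five (α := α) (β := β) ?_ hv (by linear_combination (4 : ℤ) * el) hk0
      (by linear_combination hv2 - 4 * el)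
    exact ((IsCoprime.pow_iff two_pos two_pos).mp hcop.of_mul_left_right.of_mul_right_right).symm
  · -- `15 ∣ b`
    obtain ⟨b₂, rfl⟩ := ((Int.prime_iff_natAbs_prime.mpr (by norm_num) : Prime (5 : ℤ)).dvd_or_dvd
      h5).resolve_left (by norm_num)
    obtain ⟨α, β, rfl, rfl⟩ := split_nonneg (n := l) hcop.of_mul_right_right.of_mul_right_right
      ha0 (by omega) (by linarith)
    have el : l ^ 2 = α ^ 2 * β ^ 2 := by linarith
    refine smaller_one_fifteen (α := α) (β := β) ?_ hv (by linear_combination (4 : ℤ) * el) hk0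
      (by linear_combination hv2 - 4 * el)
    exact (IsCoprime.pow_iff two_pos two_pos).mp hcop.of_mul_right_right.of_mul_right_right

lemma eq_zero_of_odd : ∀ (n : ℕ) (D e : ℤ), e.natAbs = n → Odd D → Good D e → e = 0 := by
  intro n
  induction n using Nat.strong_induction_on with
  | h n ih =>
    intro D e hn hD ⟨⟨A, hA⟩, B, hB⟩
    by_contra he
    by_cases hg : Int.gcd D e = 1
    swap
    · obtain ⟨D', hD'⟩ := Int.gcd_dvd_left D e
      obtain ⟨e', he'⟩ := Int.gcd_dvd_right D e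
      set g := Int.gcd D e with hgdef
      have hg0 : (g : ℤ) ≠ 0 := fun h0 => he (by rw [he', h0, zero_mul])
      obtain ⟨A', rfl⟩ : (g : ℤ) ∣ A := (Int.pow_dvd_pow_iff two_ne_zero).mp
        ⟨D' ^ 2 + 16 * e' ^ 2, by rw [← hA, hD', he']; ring⟩
      obtain ⟨B', rfl⟩ : (g : ℤ) ∣ B := (Int.pow_dvd_pow_iff two_ne_zero).mp
        ⟨D' ^ 2 + 25 * e' ^ 2, by rw [← hB, hD', he']; ring⟩
      have hsq : (g : ℤ) ^ 2 ≠ 0 := pow_ne_zero _ hg0
      have he'0 : e' ≠ 0 := fun h0 => he (by rw [he', h0, mul_zero])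
      refine he'0 (ih e'.natAbs ?_ D' e' rfl (Int.odd_mul.mp (hD' ▸ hD)).2
        ⟨⟨A', mul_left_cancel₀ hsq (by rw [hD', he'] at hA; linear_combination hA)⟩,
          B', mul_left_cancel₀ hsq (by rw [hD', he'] at hB; linear_combination hB)⟩)
      rw [← hn, he', Int.natAbs_mul, Int.natAbs_natCast]
      refine lt_mul_of_one_lt_left (Int.natAbs_pos.mpr he'0) ?_
      have : g ≠ 0 := fun h0 => hg0 (by simp [h0])
      omega
    have hDe : IsCoprime D e := Int.isCoprime_iff_gcd_eq_one.mpr hg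
    have hD0 : D ≠ 0 := fun h0 => by simp [h0] at hD
    have hA0 : 0 < |A| := abs_pos.mpr fun h0 => by
      rw [h0] at hA; nlinarith [sq_pos_of_ne_zero hD0, sq_nonneg e]
    have hD4 : IsCoprime D 4 := by
      have h2 : IsCoprime D 2 := (Int.prime_two.coprime_iff_not_dvd.mpr
        fun h => Int.not_even_iff_odd.mpr hD (even_iff_two_dvd.mpr h)).symm
      simpa using h2.pow_right (n := 2)
    obtain ⟨m, n', hDm, hem, -, hmn, hpar, -⟩ := PythagoreanTriple.coprime_classification'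
      (x := D) (y := 4 * e) (z := |A|)
      (by rw [PythagoreanTriple, abs_mul_abs_self]; linear_combination hA)
      (Int.isCoprime_iff_gcd_eq_one.mp (hD4.mul_right hDe)) (Int.odd_iff.mp hD) hA0
    -- normalise so that `m` is even
    obtain ⟨k, v, hv, hkv, hek, hD2⟩ : ∃ k v : ℤ, Odd v ∧ IsCoprime k v ∧ e = k * v ∧
        D ^ 2 = (4 * k ^ 2 - v ^ 2) ^ 2 := by
      have hmn' := Int.isCoprime_iff_gcd_eq_one.mpr hmn
      rcases hpar with ⟨hm, hn2⟩ | ⟨hm, hn2⟩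
      · obtain ⟨k, rfl⟩ := Int.dvd_of_emod_eq_zero hm
        exact ⟨k, n', Int.odd_iff.mpr hn2, hmn'.of_mul_left_right, by linarith,
          by rw [hDm]; ring⟩
      · obtain ⟨k, rfl⟩ := Int.dvd_of_emod_eq_zero hn2
        exact ⟨k, m, Int.odd_iff.mpr hm, hmn'.symm.of_mul_left_right, by linarith,
          by rw [hDm]; ring⟩
    have hk0 : k ≠ 0 := fun h0 => he (by rw [hek, h0, zero_mul])
    have hv0 : v ≠ 0 := fun h0 => he (by rw [hek, h0, mul_zero])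
    have hprod : (k ^ 2 + v ^ 2) * (16 * k ^ 2 + v ^ 2) = B ^ 2 := by
      rw [← hB, hD2, hek]; ring
    have hcommon : ∀ p : ℤ, Prime p → p ∣ k ^ 2 + v ^ 2 → p ∣ 16 * k ^ 2 + v ^ 2 → p ∣ 5 := by
      intro p hp h1 h2
      have hpk : ¬p ∣ k := fun h =>
        hp.not_isUnit (hkv.isUnit_of_dvd' h (hp.dvd_of_dvd_pow (n := 2) (by
          simpa using dvd_sub h1 (dvd_pow h two_ne_zero))))
      have h15 : p ∣ 3 * (5 * k ^ 2) := by
        have := dvd_sub h2 h1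
        rwa [show 16 * k ^ 2 + v ^ 2 - (k ^ 2 + v ^ 2) = 3 * (5 * k ^ 2) by ring] at this
      rcases hp.dvd_or_dvd h15 with h | h
      · exfalso
        have h3 : (3 : ℤ) ∣ p := (hp.associated_of_dvd Int.prime_three h).symm.dvd
        exact hpk ((hp.associated_of_dvd Int.prime_three h).dvd.trans
          (three_dvd_of_sq_add_sq (h3.trans h1)).1)
      · exact (hp.dvd_or_dvd h).resolve_right fun h' => hpk (hp.dvd_of_dvd_pow h')
    by_cases h5 : (5 : ℤ) ∣ k ^ 2 + v ^ 2 ∧ (5 : ℤ) ∣ 16 * k ^ 2 + v ^ 2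
    · obtain ⟨⟨a, ha⟩, b, hb⟩ := h5
      have hp5 : Prime (5 : ℤ) := Int.prime_iff_natAbs_prime.mpr (by norm_num)
      obtain ⟨B', rfl⟩ : (5 : ℤ) ∣ B := hp5.dvd_of_dvd_pow (n := 2)
        (hprod ▸ dvd_mul_of_dvd_left ⟨a, ha⟩ _)
      have hab : IsCoprime a b := by
        refine isCoprime_of_prime_dvd (fun h => ?_) fun p hp hpa hpb => ?_
        · rw [h.1] at ha; nlinarith [sq_pos_of_ne_zero hk0, sq_nonneg v]
        have hp5' := hcommon p hp (ha ▸ hpa.mul_left 5) (hb ▸ hpb.mul_left 5)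
        have h5a : (5 : ℤ) ∣ a := (hp.associated_of_dvd hp5 hp5').symm.dvd.trans hpa
        have h5b : (5 : ℤ) ∣ b := (hp.associated_of_dvd hp5 hp5').symm.dvd.trans hpb
        have hk5 : (5 : ℤ) ∣ k := hp5.dvd_of_dvd_pow (n := 2) (by
          obtain ⟨a', rfl⟩ := h5a
          obtain ⟨b', rfl⟩ := h5b
          have e3 : 3 * k ^ 2 = 5 * (b' - a') := by linarith
          exact (hp5.dvd_or_dvd ⟨_, e3⟩).resolve_left (by norm_num))
        exact hp5.not_isUnit (hkv.isUnit_of_dvd' hk5 (hp5.dvd_of_dvd_pow (n := 2) (by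
          simpa using dvd_sub (Dvd.intro a ha.symm) (dvd_pow hk5 two_ne_zero))))
      obtain ⟨r, s, -, hs⟩ := split_nonneg hab (by nlinarith [sq_nonneg k, sq_nonneg v])
        (by nlinarith [sq_nonneg k, sq_nonneg v]) (n := B')
        (mul_left_cancel₀ (a := (25 : ℤ)) (by norm_num)
          (by rw [ha, hb] at hprod; linear_combination hprod))
      obtain ⟨v', rfl⟩ := hv
      have key : ∀ x y z : ZMod 8, 16 * x ^ 2 + (2 * y + 1) ^ 2 ≠ 5 * z ^ 2 := by decide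
      exact key k v' s (by exact_mod_cast congr_arg (fun n : ℤ => (n : ZMod 8)) (hs ▸ hb))
    have hcop : IsCoprime (k ^ 2 + v ^ 2) (16 * k ^ 2 + v ^ 2) := by
      refine isCoprime_of_prime_dvd
        (fun h => by nlinarith [h.1, sq_pos_of_ne_zero hk0, sq_nonneg v])
        fun p hp h1 h2 => ?_
      have h5' : (5 : ℤ) ∣ p := (hp.associated_of_dvd (Int.prime_iff_natAbs_prime.mpr (by norm_num))
        (hcommon p hp h1 h2)).symm.dvd
      exact h5 ⟨h5'.trans h1, h5'.trans h2⟩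
    obtain ⟨r, s, hr, hs⟩ := split_nonneg hcop (by positivity) (by positivity) hprod
    obtain ⟨D', e', hD', he', hlt, hgood⟩ := smaller_of_squares hv hkv hk0 hr hs
    refine he' (ih e'.natAbs ?_ D' e' rfl hD' hgood)
    rw [← hn, hek, Int.natAbs_mul]
    exact lt_of_lt_of_le hlt (Nat.le_mul_of_pos_right _ (Int.natAbs_pos.mpr hv0))

/-- `D² + 16e²` and `D² + 25e²` are both squares only for `De = 0`. -/
theorem mul_eq_zero_of_good {D e : ℤ} (h : Good D e) : D = 0 ∨ e = 0 := by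
  by_contra hh
  rw [not_or] at hh
  obtain ⟨hD, he⟩ := hh
  induction hn : D.natAbs using Nat.strong_induction_on generalizing D e with
  | h n ih =>
    rcases Int.even_or_odd D with hDe | hDo
    swap
    · exact he (eq_zero_of_odd _ D e rfl hDo h)
    obtain ⟨D₁, rfl⟩ := hDe.two_dvd
    obtain ⟨⟨A, hA⟩, B, hB⟩ := h
    have hA2 : (2 : ℤ) ∣ A :=
      Int.prime_two.dvd_of_dvd_pow (n := 2) ⟨2 * D₁ ^ 2 + 8 * e ^ 2, by rw [← hA]; ring⟩
    obtain ⟨A₁, rfl⟩ := hA2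
    rcases Int.even_or_odd e with hee | heo
    · obtain ⟨e₁, rfl⟩ := hee.two_dvd
      obtain ⟨B₁, rfl⟩ : (2 : ℤ) ∣ B :=
        Int.prime_two.dvd_of_dvd_pow (n := 2) ⟨2 * D₁ ^ 2 + 50 * e₁ ^ 2, by rw [← hB]; ring⟩
      refine ih D₁.natAbs (by
          rw [← hn, Int.natAbs_mul]
          have := Int.natAbs_pos.mpr (right_ne_zero_of_mul hD)
          simp; omega)
        (D := D₁) (e := e₁) ⟨⟨A₁, by linarith⟩, B₁, by linarith⟩ (right_ne_zero_of_mul hD)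
        (right_ne_zero_of_mul he) rfl
    have hA' : D₁ ^ 2 + 4 * e ^ 2 = A₁ ^ 2 := by linarith
    obtain ⟨D₂, rfl⟩ : (2 : ℤ) ∣ D₁ := by
      by_contra hcon
      obtain ⟨d, rfl⟩ : Odd D₁ := Int.not_even_iff_odd.mp fun he => hcon he.two_dvd
      obtain ⟨e', rfl⟩ := heo
      have key : ∀ x y z : ZMod 8, (2 * x + 1) ^ 2 + 4 * (2 * y + 1) ^ 2 ≠ z ^ 2 := by decide
      exact key d e' A₁ (by exact_mod_cast congr_arg (fun n : ℤ => (n : ZMod 8)) hA')
    obtain ⟨A₂, rfl⟩ : (2 : ℤ) ∣ A₁ :=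
      Int.prime_two.dvd_of_dvd_pow (n := 2) ⟨2 * D₂ ^ 2 + 2 * e ^ 2, by rw [← hA']; ring⟩
    have hD2 : D₂ = 0 := eq_zero_of_odd _ (5 * e) D₂ rfl (Int.odd_mul.mpr ⟨by decide, heo⟩)
      ⟨⟨B, by linarith⟩, 5 * A₂, by linarith⟩
    exact hD (by rw [hD2]; ring)

end FermatAgent.ECLocal.Concordant
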