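import Fermat.Agent.ECLocal.PointMaps

/-!
# Conjugate points
-/

set_option autoImplicit false

universe u

namespace FermatAgent.ECLocal

open WeierstrassCurve

variable {K : Type u} [Field K]

/-- `P'` has coordinates obtained from those of `P` by `σ`. -/
def IsConj {E : Affine K} (σ : K →+* K) : E.Point → E.Point → Prop
  | .zero, P' => P' = 0
  | .some x y _, P' => ∃ h', P' = .some (σ x) (σ y) h'

/-- The origin is its own conjugate. -/
lemma isConj_zero {E : Affine K} (σ : K →+* K) : IsConj σ (0 : E.Point) 0 := rfl

/-- Conjugacy commutes with negation. -/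
lemma IsConj.neg {E : Affine K} {σ : K →+* K} (h₁ : σ E.a₁ = E.a₁) (h₃ : σ E.a₃ = E.a₃)
    {P P' : E.Point} (h : IsConj σ P P') : IsConj σ (-P) (-P') := by
  rcases P with _ | ⟨x, y, hxy⟩
  · obtain rfl : P' = 0 := h
    rfl
  · obtain ⟨h', rfl⟩ := h
    rw [Affine.Point.neg_some, Affine.Point.neg_some]
    have e : σ (E.negY x y) = E.negY (σ x) (σ y) := by
      simp [Affine.negY, h₁, h₃]
    refine ⟨by rw [e]; exact (Affine.nonsingular_neg ..).mpr h', ?_⟩
    simp only [e]

variable [DecidableEq K]

/-- Conjugacy commutes with transport along equal curves. -/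
lemma IsConj.congr {E E' : Affine K} (he : E = E') {σ : K →+* K} {P P' : E.Point}
    (h : IsConj σ P P') : IsConj σ (pointCongr he P) (pointCongr he P') := by
  subst he; exact h

/-- Conjugacy descends along a rational change of variables. -/
lemma IsConj.vcHom_pullback (C : VariableChange K) (W : WeierstrassCurve K) {σ : K →+* K}
    (hu : σ (C.u : K) = C.u) (hr : σ C.r = C.r) (hs : σ C.s = C.s) (ht : σ C.t = C.t)
    {P P' : (C • W).toAffine.Point} (h : IsConj σ (vcHom C W P) (vcHom C W P')) :
    IsConj σ P P' := by
  rcases P with _ | ⟨x, y, hxy⟩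
  · exact vcHom_injective C W (show vcHom C W P' = vcHom C W 0 from h)
  · obtain ⟨h', he⟩ := h
    rcases P' with _ | ⟨x', y', hxy'⟩
    · exact absurd he.symm (Affine.Point.some_ne_zero h')
    · rw [vcHom_some] at he
      simp only [Affine.Point.some.injEq] at he
      obtain ⟨hx, hy⟩ := he
      rw [map_add, map_mul, map_pow, hu, hr] at hx
      have ex : x' = σ x := mul_left_cancel₀ (pow_ne_zero 2 C.u.ne_zero) (add_right_cancel hx)
      subst ex
      rw [map_add, map_add, map_mul, map_mul, map_mul, map_pow, map_pow, hu, hs, ht] at hy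
      have ey : y' = σ y := mul_left_cancel₀ (pow_ne_zero 3 C.u.ne_zero)
        (add_right_cancel (add_right_cancel hy))
      subst ey
      exact ⟨hxy', rfl⟩

end FermatAgent.ECLocal
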