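import Mathlib.AlgebraicGeometry.EllipticCurve.DivisionPolynomial.Basic

/-!
# Odd division polynomials at a zero of `Ψ₂²`
-/

set_option autoImplicit false

universe u

namespace FermatAgent.ECLocal

open Polynomial WeierstrassCurve

lemma preNormEDS'_ne_zero_of_odd {R : Type u} [CommRing R] [IsDomain R] {c d : R} (hc : c ≠ 0) :
    ∀ n : ℕ, Odd n → preNormEDS' (0 : R) c d n ≠ 0 := by
  intro n
  induction n using Nat.strong_induction_on with
  | _ n ih =>
    rintro ⟨j, rfl⟩
    match j with
    | 0 => simp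
    | 1 => simpa using hc
    | m + 2 =>
      rw [preNormEDS'_odd]
      by_cases hm : Even m
      · rw [if_pos hm, if_pos hm, mul_zero, zero_sub, mul_one, neg_ne_zero]
        exact mul_ne_zero (ih (m + 1) (by omega) hm.add_one)
          (pow_ne_zero 3 (ih (m + 3) (by omega) (hm.add_odd (by decide))))
      · rw [if_neg hm, if_neg hm, mul_zero, sub_zero, mul_one]
        have ho : Odd m := Nat.not_even_iff_odd.mp hm
        obtain ⟨i, hi⟩ := ho
        exact mul_ne_zero (ih (m + 4) (by omega) ⟨i + 2, by omega⟩)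
          (pow_ne_zero 3 (ih (m + 2) (by omega) ⟨i + 1, by omega⟩))

/-- An odd division polynomial does not vanish at a zero of `Ψ₂²` which is not a zero of `Ψ₃`. -/
lemma preΨ'_eval_ne_zero {F : Type u} [Field F] (V : WeierstrassCurve F) {x : F}
    (h2 : V.Ψ₂Sq.eval x = 0) (h3 : V.Ψ₃.eval x ≠ 0) {n : ℕ} (hn : Odd n) :
    (V.preΨ' n).eval x ≠ 0 := by
  have h := map_preNormEDS' (evalRingHom x) (b := V.Ψ₂Sq ^ 2) (c := V.Ψ₃) (d := V.preΨ₄) n
  simp only [coe_evalRingHom, eval_pow, h2, zero_pow two_ne_zero] at h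
  rw [WeierstrassCurve.preΨ', h]
  exact preNormEDS'_ne_zero_of_odd h3 n hn

end FermatAgent.ECLocal
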