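import Fermat.Agent.ECLocal.ValBasic
import Mathlib.Algebra.Polynomial.Splits
import Mathlib.Algebra.Polynomial.Eval.Degree

/-!
# Polynomials with all roots outside a valuation subring
-/

set_option autoImplicit false

universe u

namespace FermatAgent.ECLocal

open Polynomial

variable {K : Type u} [Field K] (A : ValuationSubring K)

/-- A polynomial with no roots in the ring is a constant times one reducing to `1`. -/
lemma exists_lift_prod_of_not_mem (R : Multiset K) (h : ∀ r ∈ R, r ∉ A) :
    ∃ g : A[X], g.map (IsLocalRing.residue A) = 1 ∧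
      (R.map fun r => X - C r).prod = C (R.map fun r => -r).prod * g.map A.subtype := by
  induction R using Multiset.induction_on with
  | empty => exact ⟨1, by simp, by simp⟩
  | cons r R ih =>
    obtain ⟨g, hg1, hg2⟩ := ih fun s hs => h s (Multiset.mem_cons_of_mem hs)
    have hr : r ∉ A := h r (Multiset.mem_cons_self r R)
    have hr0 : r ≠ 0 := ne_zero_of_not_mem A hr
    set s : A := ⟨r⁻¹, inv_mem_of_not_mem A hr⟩ with hs
    have hsr : IsLocalRing.residue A s = 0 := by
      rw [residue_eq_zero_iff]
      show A.valuation r⁻¹ < 1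
      rw [map_inv₀]; exact inv_lt_one_of_one_lt₀ ((one_lt_valuation_iff A).mpr hr)
    refine ⟨(1 - C s * X) * g, by simp [hg1, hsr], ?_⟩
    have e : X - C r = C (-r) * (1 - C s * X).map A.subtype := by
      simp only [Polynomial.map_sub, Polynomial.map_one, Polynomial.map_mul, map_C, map_X,
        ValuationSubring.subtype_apply, hs, C_neg]
      rw [mul_sub, mul_one, ← mul_assoc, neg_mul (C r) (C r⁻¹), ← C_mul, mul_inv_cancel₀ hr0, C_1]
      ring
    rw [Multiset.map_cons, Multiset.prod_cons, Multiset.map_cons, Multiset.prod_cons, hg2, e,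
      Polynomial.map_mul, C_mul]
    ring

/-- A polynomial over `A` all of whose roots lie outside `A` has constant reduction. -/
lemma residue_map_eq_C_of_roots_not_mem {f : A[X]}
    (hsplit : (f.map A.subtype).Splits) (h : ∀ r ∈ (f.map A.subtype).roots, r ∉ A) :
    f.map (IsLocalRing.residue A) = C (IsLocalRing.residue A (f.coeff 0)) := by
  obtain ⟨g, hg1, hg2⟩ := exists_lift_prod_of_not_mem A _ h
  have e := hsplit.eq_prod_roots
  rw [hg2, ← mul_assoc, ← C_mul] at e
  set l := (f.map A.subtype).leadingCoeff * ((f.map A.subtype).roots.map fun r => -r).prod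
  have hg0 : IsLocalRing.residue A (g.coeff 0) = 1 := by rw [← coeff_map, hg1, coeff_one_zero]
  have hu : IsUnit (g.coeff 0) :=
    IsLocalRing.residue_ne_zero_iff_isUnit _ |>.mp (by rw [hg0]; exact one_ne_zero)
  obtain ⟨d, hd⟩ := hu.exists_right_inv
  have hl : l = ((f.coeff 0 * d : A) : K) := by
    have h0 := congr_arg (fun q : K[X] => q.coeff 0) e
    simp only [coeff_map, coeff_C_mul, ValuationSubring.subtype_apply] at h0
    have hd' : ((g.coeff 0 : A) : K) * (d : K) = 1 := by exact_mod_cast congr_arg Subtype.val hd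
    push_cast
    rw [h0, mul_assoc, hd', mul_one]
  have hf : f = C (f.coeff 0 * d) * g := by
    apply Polynomial.map_injective A.subtype A.subtype_injective
    rw [e, Polynomial.map_mul, map_C, hl]
    rfl
  have hd1 : IsLocalRing.residue A d = 1 := by
    have := congr_arg (IsLocalRing.residue A) hd
    rwa [map_mul, map_one, hg0, one_mul] at this
  conv_lhs => rw [hf]
  rw [Polynomial.map_mul, map_C, hg1, mul_one, map_mul, hd1, mul_one]

/-- Valuation of a root of a polynomial of Eisenstein shape, constant term a unit. -/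
lemma root_valuation_pow_mul {D : ℕ} (hD : 0 < D) {c : ℕ → K} {r : K}
    (hr : 1 < A.valuation r) (hroot : ∑ i ∈ Finset.range (D + 1), c i * r ^ i = 0)
    (hmid : ∀ i, 0 < i → i < D → A.valuation (c i) ≤ A.valuation (c D))
    (hc0 : A.valuation (c 0) = 1) (hlead : c D ≠ 0) :
    A.valuation r ^ D * A.valuation (c D) = 1 := by
  have hvD : A.valuation (c D) ≠ 0 := (Valuation.ne_zero_iff _).mpr hlead
  have hmain : A.valuation (∑ i ∈ Finset.Ioo 0 D, c i * r ^ i) < A.valuation (c D * r ^ D) := by
    refine A.valuation.map_sum_lt ?_ fun i hi => ?_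
    · rw [map_mul, map_pow]
      exact mul_ne_zero hvD (pow_ne_zero _ (ne_of_gt (lt_trans zero_lt_one hr)))
    rw [Finset.mem_Ioo] at hi
    rw [map_mul, map_mul, map_pow, map_pow]
    exact lt_of_le_of_lt (mul_le_mul_left (hmid i hi.1 hi.2) _)
      (mul_lt_mul_of_pos_left (pow_lt_pow_right₀ hr hi.2) (zero_lt_iff.mpr hvD))
  have hsplit : ∑ i ∈ Finset.range (D + 1), c i * r ^ i =
      c 0 + (∑ i ∈ Finset.Ioo 0 D, c i * r ^ i) + c D * r ^ D := by
    rw [Finset.sum_range_succ]
    congr 1
    have : Finset.range D = insert 0 (Finset.Ioo 0 D) := by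
      ext i; simp only [Finset.mem_range, Finset.mem_insert, Finset.mem_Ioo]; omega
    rw [this, Finset.sum_insert (by simp), pow_zero, mul_one]
  rw [hsplit, add_assoc, add_eq_zero_iff_eq_neg] at hroot
  rw [hroot, Valuation.map_neg, A.valuation.map_add_eq_of_lt_right hmain, map_mul, map_pow] at hc0
  rw [mul_comm, hc0]

end FermatAgent.ECLocal
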