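import Mathlib.LinearAlgebra.FiniteDimensional.Lemmas
import Mathlib.LinearAlgebra.Dimension.Finite
import Mathlib.LinearAlgebra.Dimension.FreeAndStrongRankCondition

/-!
# A stable line in a plane
-/

set_option autoImplicit false

namespace FermatAgent.ECLocal

variable {F V : Type*} [Field F] [AddCommGroup V] [Module F V]

/-- A proper nonzero subspace of a plane is a line. -/
lemma finrank_line (hV : Module.finrank F V = 2) {N : Submodule F V} (h0 : N ≠ ⊥) (h1 : N ≠ ⊤) :
    Module.finrank F N = 1 := by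
  have : FiniteDimensional F V := Module.finite_of_finrank_eq_succ hV
  have hlt : Module.finrank F N < 2 := hV ▸ Submodule.finrank_lt h1
  have hpos : Module.finrank F N ≠ 0 := fun h => h0 (Submodule.finrank_eq_zero.mp h)
  omega

lemma line_le_of_mem {N S : Submodule F V} (hN : Module.finrank F N = 1) {x : V} (hx : x ∈ N)
    (hxS : x ∈ S) (hx0 : x ≠ 0) : N ≤ S := by
  intro y hy
  obtain ⟨c, hc⟩ := (finrank_eq_one_iff_of_nonzero' (⟨x, hx⟩ : N)
    (fun h => hx0 (congr_arg Subtype.val h))).mp hN ⟨y, hy⟩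
  have : y = c • x := (congr_arg Subtype.val hc).symm
  rw [this]; exact S.smul_mem c hxS

/-- If `σ - 1` maps the plane into a proper subspace then it kills the line or maps into it. -/
lemma fix_or_quotient_fix (hV : Module.finrank F V = 2) {N : Submodule F V} (h0 : N ≠ ⊥)
    (h1 : N ≠ ⊤) {S : Submodule F V} (hS : S ≠ ⊤) {T : Set (V →ₗ[F] V)}
    (hTN : ∀ t ∈ T, ∀ x ∈ N, t x ∈ N) (hTS : ∀ t ∈ T, ∀ x, t x ∈ S) :
    (∀ t ∈ T, ∀ x ∈ N, t x = 0) ∨ (∀ t ∈ T, ∀ x, t x ∈ N) := by
  have : FiniteDimensional F V := Module.finite_of_finrank_eq_succ hV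
  have hN := finrank_line hV h0 h1
  by_cases hle : N ≤ S
  · refine Or.inr fun t ht x => ?_
    have hlt : Module.finrank F S < 2 := hV ▸ Submodule.finrank_lt hS
    have hge := Submodule.finrank_mono hle
    rw [Submodule.eq_of_le_of_finrank_eq hle (by omega)]
    exact hTS t ht x
  · exact Or.inl fun t ht x hx => by_contra fun hne =>
      hle (line_le_of_mem hN (hTN t ht x hx) (hTS t ht x) hne)

/-- An endomorphism of square zero stabilising a line kills it and maps into it. -/
lemma sq_zero_stable_line (hV : Module.finrank F V = 2) {N : Submodule F V} (h0 : N ≠ ⊥)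
    (h1 : N ≠ ⊤) {t : V →ₗ[F] V} (ht : ∀ x, t (t x) = 0) (hN : ∀ x ∈ N, t x ∈ N) :
    (∀ x ∈ N, t x = 0) ∧ ∀ x, t x ∈ N := by
  have : FiniteDimensional F V := Module.finite_of_finrank_eq_succ hV
  have hN1 := finrank_line hV h0 h1
  have hker : ∀ x ∈ N, t x = 0 := by
    intro x hx
    by_contra hne
    have hle := line_le_of_mem (S := LinearMap.ker t) hN1 (hN x hx) (ht x) hne
    exact hne (hle hx)
  refine ⟨hker, fun x => ?_⟩
  by_cases ht0 : t = 0
  · rw [ht0, LinearMap.zero_apply]; exact N.zero_mem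
  have hrk := LinearMap.finrank_range_add_finrank_ker t
  have hr0 : Module.finrank F (LinearMap.range t) ≠ 0 := fun h =>
    ht0 (LinearMap.range_eq_bot.mp (Submodule.finrank_eq_zero.mp h))
  have hrle : LinearMap.range t ≤ LinearMap.ker t := by
    rintro _ ⟨y, rfl⟩; exact ht y
  have hmono := Submodule.finrank_mono hrle
  have e1 : N = LinearMap.ker t :=
    Submodule.eq_of_le_of_finrank_eq (fun y hy => hker y hy) (by omega)
  rw [e1]
  exact hrle ⟨x, rfl⟩

end FermatAgent.ECLocal
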