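import Mathlib.RingTheory.Valuation.Basic
import Mathlib.Algebra.Field.Basic
import Mathlib.Tactic.LinearCombination
import Mathlib.Tactic.Ring

/-!
# Valuations of three collinear points on a nodal cubic `(U)(V) = x³ + c`

Here a point has coordinates `x`, `U = εx + μ`, `V = ex + μ` on a fixed line.
-/

set_option autoImplicit false

universe u w

namespace FermatAgent.ECLocal

variable {K : Type u} [Field K] {Γ : Type w} [LinearOrderedCommGroupWithZero Γ]
  (v : Valuation K Γ)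

/-- The component value of a point in node coordinates. -/
def nodeValue (c U V : K) : Γ := if v V ≤ v U then v U else v c / v V

variable {v}

lemma nodePoint_val_x_le {d x U V : K} (hd : v d = 1) (hx : d * x = U - V) :
    v x ≤ max (v U) (v V) := by
  have h := v.map_sub U V
  rwa [← hx, map_mul, hd, one_mul] at h

/-- The values at a point with tangent coordinates of unequal size. -/
lemma nodePoint_of_lt {c d x U V : K} (hd : v d = 1) (hx : d * x = U - V)
    (he : U * V = x ^ 3 + c) (hU : v U < 1) (hlt : v V < v U) :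
    v x = v U ∧ v c < v U ^ 2 := by
  have hxU : v x = v U := by
    have h : v (U - V) = v U := by
      rw [sub_eq_add_neg]
      exact v.map_add_eq_of_lt_left (by rw [v.map_neg]; exact hlt)
    rw [← hx, map_mul, hd, one_mul] at h
    exact h
  refine ⟨hxU, ?_⟩
  have hpos : 0 < v U := lt_of_le_of_lt zero_le hlt
  by_contra hle
  rw [not_lt] at hle
  have h3 : v (x ^ 3) < v c := by
    rw [map_pow, hxU]
    exact lt_of_lt_of_le (pow_lt_pow_right_of_lt_one₀ hpos hU (by norm_num)) hle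
  have h4 : v (U * V) = v c := by rw [he]; exact v.map_add_eq_of_lt_right h3
  rw [map_mul] at h4
  have : v U * v V < v U ^ 2 := by rw [sq]; exact mul_lt_mul_of_pos_left hlt hpos
  exact absurd (lt_of_lt_of_le this hle) (by rw [h4]; exact lt_irrefl _)

/-- The values at a point with tangent coordinates of equal size. -/
lemma nodePoint_of_eq {c d x U V : K} (hd : v d = 1) (hx : d * x = U - V)
    (he : U * V = x ^ 3 + c) (hU : v U < 1) (hc : v c ≠ 0) (heq : v V = v U) :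
    v x ≤ v U ∧ v U ^ 2 = v c := by
  have hxU : v x ≤ v U := (nodePoint_val_x_le hd hx).trans (by rw [heq, max_self])
  refine ⟨hxU, ?_⟩
  rcases eq_or_lt_of_le (zero_le (a := v U)) with h0 | hpos
  · exfalso
    have hU0 : U = 0 := v.zero_iff.mp h0.symm
    have hx0 : x = 0 := v.zero_iff.mp (le_antisymm (h0 ▸ hxU) zero_le)
    apply hc
    rw [show c = 0 by linear_combination -he + V * hU0 - x ^ 2 * hx0, map_zero]
  · have h3 : v (x ^ 3) < v (U * V) := by
      rw [map_pow, map_mul, heq, ← sq]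
      exact lt_of_le_of_lt (pow_le_pow_left₀ zero_le hxU 3)
        (pow_lt_pow_right_of_lt_one₀ hpos hU (by norm_num))
    have h5 : v (U * V - x ^ 3) = v (U * V) := by
      rw [sub_eq_add_neg]
      exact v.map_add_eq_of_lt_left (by rw [v.map_neg]; exact h3)
    rw [show U * V - x ^ 3 = c by linear_combination he, map_mul, heq, ← sq] at h5
    exact h5.symm

/-- The two values at a point multiply to that of `c`. -/
lemma nodeValue_swap {c d x U V : K} (hd : v d = 1) (hx : d * x = U - V)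
    (he : U * V = x ^ 3 + c) (hU : v U < 1) (hc : v c ≠ 0) :
    nodeValue v c V U * nodeValue v c U V = v c := by
  rcases lt_trichotomy (v V) (v U) with h | h | h
  · have hpos : 0 < v U := lt_of_le_of_lt zero_le h
    rw [nodeValue, nodeValue, if_neg (not_le.mpr h), if_pos h.le, div_mul_cancel₀ _ hpos.ne']
  · rw [nodeValue, nodeValue, if_pos h.ge, if_pos h.le, h, ← sq]
    exact (nodePoint_of_eq hd hx he hU hc h).2
  · have hpos : 0 < v V := lt_of_le_of_lt zero_le h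
    rw [nodeValue, nodeValue, if_pos h.le, if_neg (not_le.mpr h),
      mul_div_cancel₀ _ hpos.ne']

/-! ### A line with `v ε = v e ≥ 1`: exactly two points off the identity component -/

/-- The product rule for collinear points, two of them near the node. -/
lemma nodeValue_two {c μ ε e x₁ x₂ x₃ : K} (hc : v c ≠ 0) (hd : v (ε - e) = 1)
    (hεe : v ε = v e) (hε : 1 ≤ v ε) (hx₁ : v x₁ < 1) (hU₁ : v (ε * x₁ + μ) < 1)
    (hV₁ : v (e * x₁ + μ) < 1) (hx₂ : v x₂ < 1) (hU₂ : v (ε * x₂ + μ) < 1)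
    (hV₂ : v (e * x₂ + μ) < 1) (h₁ : (ε * x₁ + μ) * (e * x₁ + μ) = x₁ ^ 3 + c)
    (h₂ : (ε * x₂ + μ) * (e * x₂ + μ) = x₂ ^ 3 + c) (hx₃ : v x₃ = v ε ^ 2)
    (hPU : (ε * x₁ + μ) * (ε * x₂ + μ) * (ε * x₃ + μ) = μ ^ 3 - ε ^ 3 * c)
    (hPV : (e * x₁ + μ) * (e * x₂ + μ) * (e * x₃ + μ) = μ ^ 3 - e ^ 3 * c) :
    nodeValue v c (ε * x₁ + μ) (e * x₁ + μ) * nodeValue v c (ε * x₂ + μ) (e * x₂ + μ) = v c := by
  have hεpos : 0 < v ε := lt_of_lt_of_le one_pos hε
  have cls : ∀ x : K, v x < 1 → v (ε * x + μ) < 1 → v (e * x + μ) < 1 →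
      (ε * x + μ) * (e * x + μ) = x ^ 3 + c →
      (v (e * x + μ) < v (ε * x + μ) ∧ v μ = v ε * v (ε * x + μ) ∧ v c < v (ε * x + μ) ^ 2) ∨
      (v (e * x + μ) = v (ε * x + μ) ∧ v (ε * x + μ) ^ 2 = v c ∧
        v μ ≤ v ε * v (ε * x + μ)) ∨
      (v (ε * x + μ) < v (e * x + μ) ∧ v μ = v ε * v (e * x + μ) ∧ v c < v (e * x + μ) ^ 2) := by
    intro x _ hU hV h
    rcases lt_trichotomy (v (e * x + μ)) (v (ε * x + μ)) with hlt | heq | hgt
    · obtain ⟨hxU, hc2⟩ := nodePoint_of_lt hd (x := x) (by ring) h hU hlt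
      refine Or.inl ⟨hlt, ?_, hc2⟩
      have hex : v (e * x + μ) < v (e * x) := by
        rw [map_mul v e x, hxU, ← hεe]
        exact lt_of_lt_of_le hlt (le_mul_of_one_le_left' hε)
      have := v.map_sub_eq_of_lt_left hex
      rw [show e * x - (e * x + μ) = -μ by ring, v.map_neg, map_mul v e x, hxU, ← hεe] at this
      exact this
    · obtain ⟨hxU, hc2⟩ := nodePoint_of_eq hd (x := x) (by ring) h hU hc heq
      refine Or.inr (Or.inl ⟨heq, hc2, ?_⟩)
      have := v.map_sub (ε * x + μ) (ε * x)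
      rw [show ε * x + μ - ε * x = μ by ring] at this
      refine this.trans (max_le (le_mul_of_one_le_left' hε) ?_)
      rw [map_mul]; exact mul_le_mul_right hxU _
    · obtain ⟨hxV, hc2⟩ := nodePoint_of_lt (d := -(ε - e)) (x := x) (by rw [v.map_neg, hd])
        (by ring) (U := e * x + μ) (V := ε * x + μ) (by rw [mul_comm]; exact h) hV hgt
      refine Or.inr (Or.inr ⟨hgt, ?_, hc2⟩)
      have hex : v (ε * x + μ) < v (ε * x) := by
        rw [map_mul v ε x, hxV]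
        exact lt_of_lt_of_le hgt (le_mul_of_one_le_left' hε)
      have := v.map_sub_eq_of_lt_left hex
      rw [show ε * x - (ε * x + μ) = -μ by ring, v.map_neg, map_mul v ε x, hxV] at this
      exact this
  -- the impossible configuration: two points on the same side
  have same : ∀ a : Γ, a < 1 → v c < a ^ 2 → v μ = v ε * a → ∀ s : K, v s = v ε →
      (s = ε ∨ s = e) → v (μ ^ 3 - s ^ 3 * c) = a * a * v (s * x₃ + μ) → False := by
    intro a ha hca hμ s hs _ hP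
    have hb : v μ < v (s * x₃) := by
      rw [map_mul, hx₃, hs, hμ]
      exact mul_lt_mul_of_pos_left (lt_of_lt_of_le ha (one_le_pow₀ hε)) hεpos
    rw [v.map_add_eq_of_lt_left hb, map_mul, hx₃, hs] at hP
    have hapos : 0 < a := by
      rcases eq_or_lt_of_le (zero_le (a := a)) with h | h
      · rw [← h, zero_pow two_ne_zero] at hca; exact absurd hca (not_lt.mpr zero_le)
      · exact h
    have h3 : v (μ ^ 3 - s ^ 3 * c) < a * a * (v ε * v ε ^ 2) := by
      have hr : a * a * (v ε * v ε ^ 2) = a ^ 2 * v ε ^ 3 := by rw [sq a, ← pow_succ']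
      rw [hr]
      refine v.map_sub_lt ?_ ?_
      · rw [map_pow, hμ, mul_pow, mul_comm (a ^ 2)]
        exact mul_lt_mul_of_pos_left (pow_lt_pow_right_of_lt_one₀ hapos ha (by norm_num))
          (pow_pos hεpos 3)
      · rw [map_mul, map_pow, hs, mul_comm (a ^ 2)]
        exact mul_lt_mul_of_pos_left hca (pow_pos hεpos 3)
    exact absurd hP h3.ne
  rcases cls x₁ hx₁ hU₁ hV₁ h₁ with ⟨t₁, m₁, c₁⟩ | ⟨t₁, c₁, m₁⟩ | ⟨t₁, m₁, c₁⟩ <;>
    rcases cls x₂ hx₂ hU₂ hV₂ h₂ with ⟨t₂, m₂, c₂⟩ | ⟨t₂, c₂, m₂⟩ | ⟨t₂, m₂, c₂⟩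
  · -- L L
    have e12 := mul_left_cancel₀ hεpos.ne' (m₁.symm.trans m₂)
    refine (same _ hU₁ c₁ m₁ ε rfl (Or.inl rfl) ?_).elim
    rw [← hPU, map_mul, map_mul, e12]
  · exact absurd (lt_of_lt_of_le c₁ (pow_le_pow_left₀ zero_le
      (le_of_mul_le_mul_left (m₁ ▸ m₂) hεpos) 2)) (by rw [c₂]; exact lt_irrefl _)
  · have e12 := mul_left_cancel₀ hεpos.ne' (m₁.symm.trans m₂)
    have hpos : 0 < v (e * x₂ + μ) := lt_of_le_of_lt zero_le t₂
    rw [nodeValue, nodeValue, if_pos t₁.le, if_neg (not_le.mpr t₂), e12,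
      mul_div_cancel₀ _ hpos.ne']
  · exact absurd (lt_of_lt_of_le c₂ (pow_le_pow_left₀ zero_le
      (le_of_mul_le_mul_left (m₂ ▸ m₁) hεpos) 2)) (by rw [c₁]; exact lt_irrefl _)
  · rw [nodeValue, nodeValue, if_pos t₁.le, if_pos t₂.le]
    have e12 : v (ε * x₁ + μ) = v (ε * x₂ + μ) :=
      (pow_left_inj₀ zero_le zero_le two_ne_zero).mp (c₁.trans c₂.symm)
    rw [e12, ← sq, c₂]
  · exact absurd (lt_of_lt_of_le c₂ (pow_le_pow_left₀ zero_le
      (le_of_mul_le_mul_left (m₂ ▸ m₁) hεpos) 2)) (by rw [c₁]; exact lt_irrefl _)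
  · have e12 := mul_left_cancel₀ hεpos.ne' (m₁.symm.trans m₂)
    have hpos : 0 < v (e * x₁ + μ) := lt_of_le_of_lt zero_le t₁
    rw [nodeValue, nodeValue, if_neg (not_le.mpr t₁), if_pos t₂.le, ← e12,
      div_mul_cancel₀ _ hpos.ne']
  · exact absurd (lt_of_lt_of_le c₁ (pow_le_pow_left₀ zero_le
      (le_of_mul_le_mul_left (m₁ ▸ m₂) hεpos) 2)) (by rw [c₂]; exact lt_irrefl _)
  · -- R R
    have e12 := mul_left_cancel₀ hεpos.ne' (m₁.symm.trans m₂)
    refine (same _ hV₁ c₁ m₁ e hεe.symm (Or.inr rfl) ?_).elim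
    rw [← hPV, map_mul, map_mul, e12]

/-! ### A line with `v ε < 1 = v e`: three points off the identity component -/

variable (v) in
/-- The values at a point with `v V ≤ v U`. -/
def LeftData (c μ e x : K) : Prop :=
  (v c < v μ ^ 2 ∧ v x = v μ ∧ (v μ ^ 3 < v c → v μ * v (e * x + μ) = v c)) ∨
    (v μ ^ 2 = v c ∧ v x ≤ v μ ∧ v (e * x + μ) = v μ)

/-- The two possible types of a point. -/
lemma nodePoint_cases {c μ ε e : K} (hc : v c ≠ 0) (hd : v (ε - e) = 1) (hε : v ε < 1)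
    (he : v e = 1) (hμ : v μ < 1) {x : K} (hx : v x < 1)
    (h : (ε * x + μ) * (e * x + μ) = x ^ 3 + c) :
    (nodeValue v c (ε * x + μ) (e * x + μ) = v μ ∧ LeftData v c μ e x ∧ v (ε * x + μ) = v μ) ∨
      (nodeValue v c (ε * x + μ) (e * x + μ) = v c / v (e * x + μ) ∧ v μ < v (e * x + μ) ∧
        (v c ≤ v μ ^ 3 → v (ε * x + μ) = v (e * x + μ) ^ 2)) := by
  have hex1 : v (e * x) < 1 := by rw [map_mul, he, one_mul]; exact hx
  have hεx1 : v (ε * x) < 1 := by
    rw [map_mul]; exact mul_lt_one_of_nonneg_of_lt_one_left zero_le hε hx.le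
  have hV : v (e * x + μ) < 1 := v.map_add_lt hex1 hμ
  have hU : v (ε * x + μ) < 1 := v.map_add_lt hεx1 hμ
  have hμU : 0 < v (ε * x + μ) → v x ≤ v (ε * x + μ) → v μ = v (ε * x + μ) := by
    intro hpos hxU
    have hb : v (ε * x) < v (ε * x + μ) := by
      rw [map_mul v ε x]
      exact lt_of_le_of_lt (mul_le_mul_right hxU _) (mul_lt_of_lt_one_left hpos hε)
    have := v.map_sub_eq_of_lt_left hb
    rwa [show ε * x + μ - ε * x = μ by ring] at this
  rcases lt_trichotomy (v (e * x + μ)) (v (ε * x + μ)) with hlt | heq | hgt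
  · obtain ⟨hxU, hc2⟩ := nodePoint_of_lt hd (x := x) (by ring) h hU hlt
    have hmU := hμU (lt_of_le_of_lt zero_le hlt) hxU.le
    refine Or.inl ⟨by rw [nodeValue, if_pos hlt.le, hmU],
      Or.inl ⟨hmU ▸ hc2, hmU ▸ hxU, fun h3 => ?_⟩, hmU.symm⟩
    rw [hmU] at h3 ⊢
    rw [← map_mul, h]
    exact v.map_add_eq_of_lt_right (by rw [map_pow, hxU]; exact h3)
  · obtain ⟨hxU, hc2⟩ := nodePoint_of_eq hd (x := x) (by ring) h hU hc heq
    have hpos : 0 < v (ε * x + μ) := by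
      refine zero_lt_iff.mpr fun h0 => hc ?_
      rw [← hc2, h0, zero_pow two_ne_zero]
    have hmU := hμU hpos hxU
    exact Or.inl ⟨by rw [nodeValue, if_pos heq.le, hmU],
      Or.inr ⟨hmU ▸ hc2, hmU ▸ hxU, heq.trans hmU.symm⟩, hmU.symm⟩
  · obtain ⟨hxV, hc2⟩ := nodePoint_of_lt (d := -(ε - e)) (x := x) (by rw [v.map_neg, hd])
      (by ring) (U := e * x + μ) (V := ε * x + μ) (by rw [mul_comm]; exact h) hV hgt
    have hpos : 0 < v (e * x + μ) := lt_of_le_of_lt zero_le hgt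
    have hmV : v μ < v (e * x + μ) := by
      have := v.map_sub (ε * x + μ) (ε * x)
      rw [show ε * x + μ - ε * x = μ by ring] at this
      refine lt_of_le_of_lt this (max_lt hgt ?_)
      rw [map_mul v ε x, hxV]; exact mul_lt_of_lt_one_left hpos hε
    refine Or.inr ⟨by rw [nodeValue, if_neg (not_le.mpr hgt)], hmV, fun h3 => ?_⟩
    have hb : v c < v (x ^ 3) := by
      rw [map_pow, hxV]
      exact lt_of_le_of_lt h3 (pow_lt_pow_left₀ hmV zero_le (by norm_num))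
    have hv := congr_arg v h
    rw [map_mul, v.map_add_eq_of_lt_left hb, map_pow, hxV, pow_succ] at hv
    exact mul_right_cancel₀ hpos.ne' hv

/-- Three points of right type. -/
lemma nodeValue_three_right {c μ e : K} (hc : v c ≠ 0) (he : v e = 1) {b₁ b₂ b₃ : Γ}
    (g₁ : v μ < b₁) (g₂ : v μ < b₂) (g₃ : v μ < b₃)
    (hb : b₁ * b₂ * b₃ = v (μ ^ 3 - e ^ 3 * c)) :
    v c / b₁ * (v c / b₂) * (v c / b₃) = v c ^ 2 := by
  have hec : v (e ^ 3 * c) = v c := by rw [map_mul, map_pow, he, one_pow, one_mul]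
  have hlt : v μ ^ 3 < b₁ * b₂ * b₃ := by
    rw [show v μ ^ 3 = v μ * v μ * v μ by rw [pow_succ, sq]]
    exact mul_lt_mul'' (mul_lt_mul'' g₁ g₂ zero_le zero_le) g₃ zero_le zero_le
  have hval : b₁ * b₂ * b₃ = v c := by
    rw [hb] at hlt ⊢
    have hle := v.map_sub (μ ^ 3) (e ^ 3 * c)
    rw [map_pow, hec] at hle
    have hmc : v μ ^ 3 < v c :=
      (lt_max_iff.mp (lt_of_lt_of_le hlt hle)).resolve_left (lt_irrefl _)
    rw [sub_eq_add_neg, v.map_add_eq_of_lt_right (by rw [v.map_neg, hec, map_pow]; exact hmc),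
      v.map_neg, hec]
  rw [div_mul_div_comm, div_mul_div_comm, hval, mul_assoc, mul_div_assoc]
  rw [mul_div_cancel_right₀ _ hc, sq]

/-- Two points of right type. -/
lemma nodeValue_two_right {c μ ε e xa xb xc : K} (hc : v c ≠ 0) (hε : v ε < 1) (he : v e = 1)
    (sa : v c ≤ v μ ^ 3 → v (ε * xa + μ) = v (e * xa + μ) ^ 2)
    (sb : v c ≤ v μ ^ 3 → v (ε * xb + μ) = v (e * xb + μ) ^ 2)
    (hl : LeftData v c μ e xc) (hUc : v (ε * xc + μ) = v μ)
    (hU : v (ε * xa + μ) * v (ε * xb + μ) * v (ε * xc + μ) = v (μ ^ 3 - ε ^ 3 * c))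
    (hV : v (e * xa + μ) * v (e * xb + μ) * v (e * xc + μ) = v (μ ^ 3 - e ^ 3 * c)) :
    v c / v (e * xa + μ) * (v c / v (e * xb + μ)) * v μ = v c ^ 2 := by
  have hεc : v (ε ^ 3 * c) < v c := by
    rw [map_mul, map_pow]
    exact mul_lt_of_lt_one_left (zero_lt_iff.mpr hc) (pow_lt_one₀ zero_le hε (by norm_num))
  have hec : v (e ^ 3 * c) = v c := by rw [map_mul, map_pow, he, one_pow, one_mul]
  have hm0 : v μ ≠ 0 := by
    rintro h0
    rcases hl with ⟨h, -, -⟩ | ⟨h, -, -⟩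
    · rw [h0, zero_pow two_ne_zero] at h; exact absurd h (not_lt.mpr zero_le)
    · rw [h0, zero_pow two_ne_zero] at h; exact hc h.symm
  have hbb : v (e * xa + μ) * v (e * xb + μ) = v μ := by
    by_cases hcm : v c ≤ v μ ^ 3
    · have hval : v (μ ^ 3 - ε ^ 3 * c) = v μ ^ 3 := by
        rw [sub_eq_add_neg, v.map_add_eq_of_lt_left
          (by rw [v.map_neg, map_pow]; exact lt_of_lt_of_le hεc hcm), map_pow]
      rw [hUc, hval, sa hcm, sb hcm, ← mul_pow, pow_succ (v μ) 2] at hU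
      exact (pow_left_inj₀ zero_le zero_le two_ne_zero).mp (mul_right_cancel₀ hm0 hU)
    · rw [not_le] at hcm
      have hval : v (μ ^ 3 - e ^ 3 * c) = v c := by
        rw [sub_eq_add_neg, v.map_add_eq_of_lt_right
          (by rw [v.map_neg, hec, map_pow]; exact hcm), v.map_neg, hec]
      rw [hval] at hV
      rcases hl with ⟨-, -, h⟩ | ⟨h, -, hVc⟩
      · have hVc := h hcm
        have hn : v (e * xc + μ) ≠ 0 := fun h0 => hc (by rw [← hVc, h0, mul_zero])
        exact mul_right_cancel₀ hn (hV.trans hVc.symm)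
      · rw [hVc, ← h, sq] at hV
        exact mul_right_cancel₀ hm0 hV
  rw [div_mul_div_comm, hbb, div_mul_cancel₀ _ hm0, sq]

/-- There are at least two points of right type. -/
lemma not_two_left {c μ e xa xb xc : K} (hc : v c ≠ 0) (he : v e = 1) (hμ : v μ < 1)
    (hb : LeftData v c μ e xb) (hl : LeftData v c μ e xc) (ha : v xa < 1)
    (hX : v xa * v xb * v xc = v (μ ^ 2 - c))
    (hV : v (e * xa + μ) * v (e * xb + μ) * v (e * xc + μ) = v (μ ^ 3 - e ^ 3 * c)) : False := by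
  have hec : v (e ^ 3 * c) = v c := by rw [map_mul, map_pow, he, one_pow, one_mul]
  have hVa : v (e * xa + μ) < 1 := v.map_add_lt (by rw [map_mul, he, one_mul]; exact ha) hμ
  rcases hb with ⟨hcm, hxb, -⟩ | ⟨hcm, -, hVb⟩
  · rcases hl with ⟨-, hxc, -⟩ | ⟨hcm', -, -⟩
    · have hval : v (μ ^ 2 - c) = v μ ^ 2 := by
        rw [sub_eq_add_neg, v.map_add_eq_of_lt_left
          (by rw [v.map_neg, map_pow]; exact hcm), map_pow]
      rw [hval, hxb, hxc, mul_assoc, ← sq] at hX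
      have hm2 : 0 < v μ ^ 2 := lt_of_le_of_lt zero_le hcm
      exact absurd hX (ne_of_lt (mul_lt_of_lt_one_left hm2 ha))
    · exact absurd hcm' hcm.ne'
  · rcases hl with ⟨hcm', -, -⟩ | ⟨-, -, hVc⟩
    · exact absurd hcm hcm'.ne'
    · have hpos : 0 < v μ :=
        zero_lt_iff.mpr fun h0 => hc (by rw [← hcm, h0, zero_pow two_ne_zero])
      have hmc : v μ ^ 3 < v c := by
        rw [← hcm]; exact pow_lt_pow_right_of_lt_one₀ hpos hμ (by norm_num)
      have hval : v (μ ^ 3 - e ^ 3 * c) = v μ ^ 2 := by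
        rw [sub_eq_add_neg, v.map_add_eq_of_lt_right
          (by rw [v.map_neg, hec, map_pow]; exact hmc), v.map_neg, hec, hcm]
      rw [hval, hVb, hVc, mul_assoc, ← sq] at hV
      exact absurd hV (ne_of_lt (mul_lt_of_lt_one_left (pow_pos hpos 2) hVa))

/-- The product rule for three collinear points near the node. -/
lemma nodeValue_three {c μ ε e x₁ x₂ x₃ : K} (hc : v c ≠ 0)
    (hd : v (ε - e) = 1) (hε : v ε < 1) (he : v e = 1)
    (hx₁ : v x₁ < 1) (hx₂ : v x₂ < 1) (hx₃ : v x₃ < 1) (hμ : v μ < 1)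
    (h₁ : (ε * x₁ + μ) * (e * x₁ + μ) = x₁ ^ 3 + c)
    (h₂ : (ε * x₂ + μ) * (e * x₂ + μ) = x₂ ^ 3 + c)
    (h₃ : (ε * x₃ + μ) * (e * x₃ + μ) = x₃ ^ 3 + c)
    (hPx : x₁ * x₂ * x₃ = μ ^ 2 - c)
    (hPU : (ε * x₁ + μ) * (ε * x₂ + μ) * (ε * x₃ + μ) = μ ^ 3 - ε ^ 3 * c)
    (hPV : (e * x₁ + μ) * (e * x₂ + μ) * (e * x₃ + μ) = μ ^ 3 - e ^ 3 * c) :
    nodeValue v c (ε * x₁ + μ) (e * x₁ + μ) * nodeValue v c (ε * x₂ + μ) (e * x₂ + μ) *
      nodeValue v c (ε * x₃ + μ) (e * x₃ + μ) = v c ^ 2 := by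
  have hX := congr_arg v hPx
  have hU := congr_arg v hPU
  have hV := congr_arg v hPV
  simp only [map_mul] at hX hU hV
  have NN := fun {xa xb xc : K} (hb : LeftData v c μ e xb) (hl : LeftData v c μ e xc) =>
    not_two_left (xa := xa) hc he hμ hb hl
  rcases nodePoint_cases hc hd hε he hμ hx₁ h₁ with ⟨t₁, n₁, u₁⟩ | ⟨t₁, g₁, s₁⟩ <;>
    rcases nodePoint_cases hc hd hε he hμ hx₂ h₂ with ⟨t₂, n₂, u₂⟩ | ⟨t₂, g₂, s₂⟩ <;>
      rcases nodePoint_cases hc hd hε he hμ hx₃ h₃ with ⟨t₃, n₃, u₃⟩ | ⟨t₃, g₃, s₃⟩ <;>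
        rw [t₁, t₂, t₃]
  · exact (NN n₂ n₃ hx₁ hX hV).elim
  · exact (NN n₁ n₂ hx₃ (by rw [← hX]; ac_rfl) (by rw [← hV]; ac_rfl)).elim
  · exact (NN n₁ n₃ hx₂ (by rw [← hX]; ac_rfl) (by rw [← hV]; ac_rfl)).elim
  · rw [← nodeValue_two_right hc hε he s₂ s₃ n₁ u₁
      (by rw [← hU]; ac_rfl) (by rw [← hV]; ac_rfl)]
    ac_rfl
  · exact (NN n₂ n₃ hx₁ hX hV).elim
  · rw [← nodeValue_two_right hc hε he s₁ s₃ n₂ u₂
      (by rw [← hU]; ac_rfl) (by rw [← hV]; ac_rfl)]
    ac_rfl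
  · exact nodeValue_two_right hc hε he s₁ s₂ n₃ u₃ hU hV
  · exact nodeValue_three_right hc he g₁ g₂ g₃ hV

end FermatAgent.ECLocal
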