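import Fermat.Agent.ECLocal.ReductionHom
import Fermat.Agent.ECLocal.NodeLine
import Mathlib.GroupTheory.QuotientGroup.Basic

/-!
# The component homomorphism at a place of multiplicative reduction

On `(y - αx)(y - βx) = x³ + c` the value of a point off the identity component is the valuation
of one of the two linear forms; modulo powers of the valuation of `c` this is a homomorphism
with kernel the points with nonsingular reduction.
-/

set_option autoImplicit false

universe u

namespace FermatAgent.ECLocal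

open WeierstrassCurve

/-- The line through two points of `(y - αx)(y - βx) = x³ + a₆`, and the symmetric functions of
the abscissas of the three points on it. -/
theorem node_chord {F : Type u} [Field F] [DecidableEq F] {V : WeierstrassCurve F} {α β : F}
    (ha₁ : V.a₁ = -(α + β)) (ha₂ : V.a₂ = -(α * β)) (ha₃ : V.a₃ = 0) (ha₄ : V.a₄ = 0)
    {x₁ y₁ x₂ y₂ : F} (h₁ : V.toAffine.Equation x₁ y₁) (h₂ : V.toAffine.Equation x₂ y₂)
    (hxy : ¬(x₁ = x₂ ∧ y₁ = V.toAffine.negY x₂ y₂)) :
    let L := V.toAffine.slope x₁ x₂ y₁ y₂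
    let x₃ := V.toAffine.addX x₁ x₂ L
    let μ := y₁ - L * x₁
    y₂ = L * x₂ + μ ∧ V.toAffine.negAddY x₁ x₂ y₁ L = L * x₃ + μ ∧
      x₁ + x₂ + x₃ = (L - α) * (L - β) ∧
      x₁ * x₂ + x₁ * x₃ + x₂ * x₃ = -μ * ((L - α) + (L - β)) ∧
      x₁ * x₂ * x₃ = μ ^ 2 - V.a₆ ∧
      ((L - α) * x₁ + μ) * ((L - α) * x₂ + μ) * ((L - α) * x₃ + μ) =
        μ ^ 3 - (L - α) ^ 3 * V.a₆ ∧
      ((L - β) * x₁ + μ) * ((L - β) * x₂ + μ) * ((L - β) * x₃ + μ) =
        μ ^ 3 - (L - β) ^ 3 * V.a₆ := by
  intro L x₃ μ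
  have hy₂ : y₂ = L * x₂ + μ := by
    by_cases hx : x₁ = x₂
    · have := Affine.Y_eq_of_Y_ne h₁ h₂ hx fun hh => hxy ⟨hx, hh⟩
      rw [← this, ← hx]; ring
    · have hs : L * (x₁ - x₂) = y₁ - y₂ := by
        simp only [L, Affine.slope_of_X_ne hx, div_mul_cancel₀ _ (sub_ne_zero.mpr hx)]
      linear_combination hs
  have s1 : x₁ + x₂ + x₃ = (L - α) * (L - β) := by
    simp only [x₃, Affine.addX, ha₁, ha₂]; ring
  have hadd := Affine.addPolynomial_slope h₁ h₂ hxy
  rw [Affine.addPolynomial_eq] at hadd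
  have h0 := congr_arg (Polynomial.eval (0 : F)) hadd
  have h1 := congr_arg (Polynomial.eval (1 : F)) hadd
  simp only [Cubic.toPoly, Polynomial.eval_neg, Polynomial.eval_add, Polynomial.eval_mul,
    Polynomial.eval_sub, Polynomial.eval_pow, Polynomial.eval_C, Polynomial.eval_X,
    ha₁, ha₂, ha₃, ha₄] at h0 h1
  have s3 : x₁ * x₂ * x₃ = μ ^ 2 - V.a₆ := by linear_combination -h0
  have s2 : x₁ * x₂ + x₁ * x₃ + x₂ * x₃ = -μ * ((L - α) + (L - β)) := by
    linear_combination h1 - h0 + s1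
  refine ⟨hy₂, ?_, s1, s2, s3, ?_, ?_⟩
  · simp only [x₃, μ, Affine.negAddY]; ring
  · linear_combination (L - α) ^ 3 * s3 + (L - α) ^ 2 * μ * s2 + (L - α) * μ ^ 2 * s1
  · linear_combination (L - β) ^ 3 * s3 + (L - β) ^ 2 * μ * s2 + (L - β) * μ ^ 2 * s1

variable {K : Type u} [Field K] {A : ValuationSubring K}

/-- A model with the node at the origin and no linear terms: `(y - αx)(y - βx) = x³ + a₆`. -/
structure NodeModel (W : WeierstrassCurve A) where
  /-- first tangent slope -/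
  α : A
  /-- second tangent slope -/
  β : A
  a₁_eq : W.a₁ = -(α + β)
  a₂_eq : W.a₂ = -(α * β)
  a₃_eq : W.a₃ = 0
  a₄_eq : W.a₄ = 0
  residue_ne : IsLocalRing.residue A α ≠ IsLocalRing.residue A β
  residue_a₆ : IsLocalRing.residue A W.a₆ = 0
  a₆_ne_zero : W.a₆ ≠ 0

namespace NodeModel

variable {W : WeierstrassCurve A} (M : NodeModel W)

/-- `a₆` of a node model is nonzero. -/
lemma c_ne_zero (M : NodeModel W) : A.valuation (W.a₆ : K) ≠ 0 :=
  (Valuation.ne_zero_iff _).mpr fun h => M.a₆_ne_zero (Subtype.ext h)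

/-- `a₆` of a node model is small. -/
lemma c_lt_one (M : NodeModel W) : A.valuation (W.a₆ : K) < 1 :=
  (residue_eq_zero_iff A _).mp M.residue_a₆

/-- The coefficients of a node model. -/
lemma gen_coeff_eq : (gen W).a₁ = -((M.α : K) + M.β) ∧ (gen W).a₂ = -((M.α : K) * M.β) ∧
    (gen W).a₃ = 0 ∧ (gen W).a₄ = 0 := by
  simp [M.a₁_eq, M.a₂_eq, M.a₃_eq, M.a₄_eq]

/-- The slopes differ by a unit. -/
lemma val_sub : A.valuation ((M.α : K) - (M.β : K)) = 1 := by
  have h : IsLocalRing.residue A (M.α - M.β) ≠ 0 := by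
    rw [map_sub]; exact sub_ne_zero.mpr M.residue_ne
  have := (residue_ne_zero_iff A _).mp h
  push_cast at this
  exact this

/-- The equation of a node model. -/
lemma equation_iff {x y : K} : (gen W).toAffine.Equation x y ↔
    (y - M.α * x) * (y - M.β * x) = x ^ 3 + (W.a₆ : K) := by
  rw [Affine.equation_iff]
  simp only [WeierstrassCurve.map_a₁, WeierstrassCurve.map_a₂, WeierstrassCurve.map_a₃,
    WeierstrassCurve.map_a₄, WeierstrassCurve.map_a₆, ValuationSubring.subtype_apply,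
    M.a₁_eq, M.a₂_eq, M.a₃_eq, M.a₄_eq]
  push_cast
  constructor <;> intro h <;> linear_combination h

lemma val_y_lt_one (M : NodeModel W) {x y : K} (h : (gen W).toAffine.Equation x y)
    (hx : A.valuation x < 1) :
    A.valuation y < 1 := by
  have he := M.equation_iff.mp h
  have hxA := mem_of_valuation_lt_one A hx
  have hα : A.valuation ((M.α : K) * x) < 1 := by
    rw [map_mul]; exact mul_lt_one_of_nonneg_of_lt_one_right (A.valuation_le_one _) zero_le hx
  have hβ : A.valuation ((M.β : K) * x) < 1 := by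
    rw [map_mul]; exact mul_lt_one_of_nonneg_of_lt_one_right (A.valuation_le_one _) zero_le hx
  have hy : A.valuation y ≤ 1 := (A.valuation_le_one_iff _).mpr (y_mem_of_x_mem h hxA)
  refine lt_of_le_of_ne hy fun h1 => ?_
  have e1 : A.valuation (y - M.α * x) = 1 := by
    rw [A.valuation.map_sub_eq_of_lt_left (by rw [h1]; exact hα), h1]
  have e2 : A.valuation (y - M.β * x) = 1 := by
    rw [A.valuation.map_sub_eq_of_lt_left (by rw [h1]; exact hβ), h1]
  have := congr_arg A.valuation he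
  rw [map_mul, e1, e2, mul_one] at this
  have h3 : A.valuation (x ^ 3 + (W.a₆ : K)) < 1 :=
    A.valuation.map_add_lt (by rw [map_pow]; exact pow_lt_one₀ zero_le hx (by norm_num)) M.c_lt_one
  exact absurd this.symm h3.ne

/-- Nonsingular reduction means that `x` is a unit or a pole. -/
lemma isE0_some_iff (M : NodeModel W) {x y : K} (h : (gen W).toAffine.Nonsingular x y) :
    IsE0 (W := W) (.some x y h) ↔ ¬A.valuation x < 1 := by
  by_cases hxA : x ∈ A
  swap
  · exact ⟨fun _ hlt => hxA (mem_of_valuation_lt_one A hlt),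
      fun _ => ((isE1_some_iff h).mpr hxA).isE0⟩
  rw [isE0_some_iff_of_mem h hxA]
  set a := IsLocalRing.residue A ⟨x, hxA⟩ with ha
  set b := IsLocalRing.residue A ⟨y, y_mem_of_x_mem h.1 hxA⟩ with hb
  constructor
  · intro hns hlt
    have ha0 : a = 0 := (residue_eq_zero_iff A _).mpr hlt
    have hb0 : b = 0 := (residue_eq_zero_iff A _).mpr (M.val_y_lt_one h.1 hlt)
    rw [ha0, hb0, Affine.nonsingular_zero] at hns
    simp [M.a₃_eq, M.a₄_eq] at hns
  · intro hlt
    have ha0 : a ≠ 0 := fun h0 => hlt ((residue_eq_zero_iff A _).mp h0)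
    have heq : (spc W).toAffine.Equation a b :=
      ((Affine.map_equation W.toAffine A.subtype_injective ⟨x, hxA⟩
        ⟨y, y_mem_of_x_mem h.1 hxA⟩).mp h.1).map (IsLocalRing.residue A)
    refine ⟨heq, ?_⟩
    rw [Affine.equation_iff] at heq
    simp only [WeierstrassCurve.map_a₁, WeierstrassCurve.map_a₂, WeierstrassCurve.map_a₃,
      WeierstrassCurve.map_a₄, WeierstrassCurve.map_a₆, M.a₃_eq, M.a₄_eq, M.residue_a₆,
      map_zero, zero_mul, add_zero] at heq
    rw [Affine.evalEval_polynomialX, Affine.evalEval_polynomialY]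
    simp only [WeierstrassCurve.map_a₁, WeierstrassCurve.map_a₂, WeierstrassCurve.map_a₃,
      WeierstrassCurve.map_a₄, M.a₃_eq, M.a₄_eq, map_zero, add_zero]
    by_contra hc
    rw [not_or, not_not, not_not] at hc
    obtain ⟨hx', hy'⟩ := hc
    refine pow_ne_zero 3 ha0 ?_
    linear_combination (2 : IsLocalRing.ResidueField A) * heq - b * hy' - a * hx'

/-- The two values at a point multiply to that of `a₆`. -/
lemma sum_mul_val {U V x : K} (he : U * V = x ^ 3 + (W.a₆ : K))
    (hx : ((M.β : K) - (M.α : K)) * x = U - V) (hU : A.valuation U < 1) :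
    nodeValue A.valuation (W.a₆ : K) V U * nodeValue A.valuation (W.a₆ : K) U V
      = A.valuation (W.a₆ : K) :=
  nodeValue_swap (by rw [A.valuation.map_sub_swap]; exact M.val_sub) hx he hU M.c_ne_zero

/-- The value of a point. -/
noncomputable def value : (gen W).toAffine.Point → A.ValueGroup
  | .zero => 1
  | .some x y _ =>
    if A.valuation x < 1 then
      nodeValue A.valuation (W.a₆ : K) (y - (M.α : K) * x) (y - (M.β : K) * x)
    else 1

/-- The value at the origin is one. -/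
lemma value_zero : M.value 0 = 1 := rfl

/-- The value at a point near the node. -/
lemma value_some_off {x y : K} (h : (gen W).toAffine.Nonsingular x y) (hx : A.valuation x < 1) :
    M.value (.some x y h) =
      nodeValue A.valuation (W.a₆ : K) (y - (M.α : K) * x) (y - (M.β : K) * x) :=
  if_pos hx

lemma value_of_isE0 {P : (gen W).toAffine.Point} (h : IsE0 P) : M.value P = 1 := by
  rcases P with _ | ⟨x, y, hxy⟩
  · rfl
  · exact if_neg ((M.isE0_some_iff hxy).mp h)

/-- A point of singular reduction is affine and near the node. -/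
lemma exists_of_not_isE0 (M : NodeModel W) {P : (gen W).toAffine.Point} (h : ¬IsE0 P) :
    ∃ (x y : K) (hxy : (gen W).toAffine.Nonsingular x y),
      P = .some x y hxy ∧ A.valuation x < 1 := by
  rcases P with _ | ⟨x, y, hxy⟩
  · exact absurd isE0_zero h
  · exact ⟨x, y, hxy, rfl, not_not.mp fun hn => h ((M.isE0_some_iff hxy).mpr hn)⟩

/-- Near the node both tangent coordinates are small. -/
lemma val_UV_lt_one (M : NodeModel W) {x y : K} (h : (gen W).toAffine.Equation x y)
    (hx : A.valuation x < 1) :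
    A.valuation (y - (M.α : K) * x) < 1 ∧ A.valuation (y - (M.β : K) * x) < 1 :=
  ⟨A.valuation.map_sub_lt (M.val_y_lt_one h hx)
    (by rw [map_mul]; exact mul_lt_one_of_nonneg_of_lt_one_right (A.valuation_le_one _) zero_le hx),
   A.valuation.map_sub_lt (M.val_y_lt_one h hx)
    (by rw [map_mul]; exact mul_lt_one_of_nonneg_of_lt_one_right (A.valuation_le_one _) zero_le hx)⟩

lemma value_neg_mul {P : (gen W).toAffine.Point} (h : ¬IsE0 P) :
    M.value (-P) * M.value P = A.valuation (W.a₆ : K) := by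
  obtain ⟨x, y, hxy, rfl, hx⟩ := M.exists_of_not_isE0 h
  rw [Affine.Point.neg_some, M.value_some_off _ hx, M.value_some_off _ hx]
  have e1 : (gen W).toAffine.negY x y - (M.α : K) * x = -(y - (M.β : K) * x) := by
    simp only [Affine.negY, WeierstrassCurve.map_a₁, WeierstrassCurve.map_a₃,
      ValuationSubring.subtype_apply, M.a₁_eq, M.a₃_eq]
    push_cast; ring
  have e2 : (gen W).toAffine.negY x y - (M.β : K) * x = -(y - (M.α : K) * x) := by
    simp only [Affine.negY, WeierstrassCurve.map_a₁, WeierstrassCurve.map_a₃,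
      ValuationSubring.subtype_apply, M.a₁_eq, M.a₃_eq]
    push_cast; ring
  have e3 : nodeValue A.valuation (W.a₆ : K) (-(y - (M.β : K) * x)) (-(y - (M.α : K) * x))
      = nodeValue A.valuation (W.a₆ : K) (y - (M.β : K) * x) (y - (M.α : K) * x) := by
    simp only [nodeValue, Valuation.map_neg]
  rw [e1, e2, e3]
  exact M.sum_mul_val (M.equation_iff.mp hxy.1) (by ring) (M.val_UV_lt_one hxy.1 hx).1

/-- Values at points of singular reduction lie strictly between that of `a₆` and one. -/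
lemma value_between {P : (gen W).toAffine.Point} (h : ¬IsE0 P) :
    A.valuation (W.a₆ : K) < M.value P ∧ M.value P < 1 := by
  obtain ⟨x, y, hxy, rfl, hx⟩ := M.exists_of_not_isE0 h
  rw [M.value_some_off _ hx]
  obtain ⟨hU, hV⟩ := M.val_UV_lt_one hxy.1 hx
  have hd : A.valuation ((M.β : K) - (M.α : K)) = 1 := by
    rw [A.valuation.map_sub_swap]; exact M.val_sub
  set U := y - (M.α : K) * x
  set V := y - (M.β : K) * x
  have hd' : ((M.β : K) - (M.α : K)) * x = U - V := by simp only [U, V]; ring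
  have he : U * V = x ^ 3 + (W.a₆ : K) := M.equation_iff.mp hxy.1
  rcases lt_trichotomy (A.valuation V) (A.valuation U) with hh | hh | hh
  · rw [nodeValue, if_pos hh.le]
    refine ⟨lt_of_lt_of_le (nodePoint_of_lt hd hd' he hU hh).2 ?_, hU⟩
    rw [sq]; exact mul_le_of_le_one_left' hU.le
  · rw [nodeValue, if_pos hh.le]
    have h2 := (nodePoint_of_eq hd hd' he hU M.c_ne_zero hh).2
    refine ⟨?_, hU⟩
    rw [← h2, sq]
    refine mul_lt_of_lt_one_left (zero_lt_iff.mpr fun h0 => M.c_ne_zero ?_) hU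
    rw [← h2, h0, zero_pow two_ne_zero]
  · have h2 := (nodePoint_of_lt (d := -((M.β : K) - (M.α : K))) (x := x)
      (by rw [Valuation.map_neg, hd]) (by linear_combination -hd') (by rw [mul_comm]; exact he)
      hV hh).2
    have hpos : 0 < A.valuation V := lt_of_le_of_lt zero_le hh
    rw [nodeValue, if_neg (not_le.mpr hh)]
    refine ⟨(lt_div_iff₀ hpos).mpr ?_, (div_lt_one₀ hpos).mpr (lt_of_lt_of_le h2 ?_)⟩
    · rw [mul_comm]; exact mul_lt_of_lt_one_left (zero_lt_iff.mpr M.c_ne_zero) hV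
    · rw [sq]; exact mul_le_of_le_one_left' hV.le

/-- The value is nonzero. -/
lemma value_ne_zero (P : (gen W).toAffine.Point) : M.value P ≠ 0 := by
  by_cases h : IsE0 P
  · rw [M.value_of_isE0 h]; exact one_ne_zero
  · exact (lt_of_le_of_lt zero_le (M.value_between h).1).ne'

/-- The component group. -/
abbrev ComponentGroup (W : WeierstrassCurve A) : Type u :=
  Additive (A.ValueGroupˣ ⧸ Subgroup.zpowers
    (if h : A.valuation (W.a₆ : K) = 0 then 1 else Units.mk0 _ h))

/-- The class of a nonzero value. -/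
noncomputable def cl (W : WeierstrassCurve A) (a : A.ValueGroup) : ComponentGroup W :=
  Additive.ofMul (QuotientGroup.mk (if h : a = 0 then 1 else Units.mk0 a h))

/-- The class of a value is additive. -/
lemma cl_mul {a b : A.ValueGroup} (ha : a ≠ 0) (hb : b ≠ 0) :
    cl W (a * b) = cl W a + cl W b := by
  rw [cl, cl, cl, dif_neg ha, dif_neg hb, dif_neg (mul_ne_zero ha hb), ← ofMul_mul,
    ← QuotientGroup.mk_mul, Units.mk0_mul]

/-- The class of one is zero. -/
lemma cl_one : cl W 1 = 0 := by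
  rw [cl, dif_neg one_ne_zero, Units.mk0_one, QuotientGroup.mk_one, ofMul_one]

/-- The class vanishes exactly on the powers of the value of `a₆`. -/
lemma cl_eq_zero_iff (M : NodeModel W) {a : A.ValueGroup} (ha : a ≠ 0) :
    cl W a = 0 ↔ ∃ k : ℤ, A.valuation (W.a₆ : K) ^ k = a := by
  rw [cl, dif_neg ha, ofMul_eq_zero, QuotientGroup.eq_one_iff, dif_neg M.c_ne_zero,
    Subgroup.mem_zpowers_iff]
  refine exists_congr fun k => ?_
  rw [Units.ext_iff, Units.val_zpow_eq_zpow_val, Units.val_mk0, Units.val_mk0]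

/-- Powers of the value of `a₆` have class zero. -/
lemma cl_c_zpow (M : NodeModel W) (k : ℤ) : cl W (A.valuation (W.a₆ : K) ^ k) = 0 :=
  (cl_eq_zero_iff M (zpow_ne_zero k M.c_ne_zero)).mpr ⟨k, rfl⟩

/-- The value of `a₆` has class zero. -/
lemma cl_c (M : NodeModel W) : cl W (A.valuation (W.a₆ : K)) = 0 := by
  simpa using cl_c_zpow M 1

/-- A line through three points off the identity component, one of whose slopes is small. -/
private lemma nodeValue_mul_line_off {c μ ε e x₁ x₂ x₃ : K} {r : A.ValueGroup}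
    (hc : A.valuation c ≠ 0) (hd : A.valuation (ε - e) = 1)
    (hprod : A.valuation ε < 1 ∨ A.valuation e < 1) (hx₁ : A.valuation x₁ < 1)
    (hx₂ : A.valuation x₂ < 1) (hx₃ : A.valuation x₃ < 1) (hμ : A.valuation μ < 1)
    (q₁ : (ε * x₁ + μ) * (e * x₁ + μ) = x₁ ^ 3 + c)
    (q₂ : (ε * x₂ + μ) * (e * x₂ + μ) = x₂ ^ 3 + c)
    (q₃ : (ε * x₃ + μ) * (e * x₃ + μ) = x₃ ^ 3 + c) (s3 : x₁ * x₂ * x₃ = μ ^ 2 - c)
    (hPU : (ε * x₁ + μ) * (ε * x₂ + μ) * (ε * x₃ + μ) = μ ^ 3 - ε ^ 3 * c)
    (hPV : (e * x₁ + μ) * (e * x₂ + μ) * (e * x₃ + μ) = μ ^ 3 - e ^ 3 * c)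
    (hsum : r * nodeValue A.valuation c (ε * x₃ + μ) (e * x₃ + μ) = A.valuation c) :
    ∃ k : ℤ, nodeValue A.valuation c (ε * x₁ + μ) (e * x₁ + μ) *
      nodeValue A.valuation c (ε * x₂ + μ) (e * x₂ + μ) = r * A.valuation c ^ k := by
  set n1 := nodeValue A.valuation c (ε * x₁ + μ) (e * x₁ + μ)
  set n2 := nodeValue A.valuation c (ε * x₂ + μ) (e * x₂ + μ)
  set n3 := nodeValue A.valuation c (ε * x₃ + μ) (e * x₃ + μ)
  have hn30 : n3 ≠ 0 := fun h => hc (by rw [← hsum, h, mul_zero])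
  rcases hprod with hε | he
  · have he1 : A.valuation e = 1 := by
      have := A.valuation.map_sub_eq_of_lt_left (x := ε - e) (y := ε) (by rw [hd]; exact hε)
      rwa [hd, show ε - e - ε = -e by ring, Valuation.map_neg] at this
    refine ⟨1, mul_right_cancel₀ hn30 ?_⟩
    rw [zpow_one, mul_right_comm r, hsum, ← sq]
    exact nodeValue_three hc hd hε he1 hx₁ hx₂ hx₃ hμ q₁ q₂ q₃ s3 hPU hPV
  · have he1 : A.valuation ε = 1 := by
      have := A.valuation.map_add_eq_of_lt_left (x := ε - e) (y := e) (by rw [hd]; exact he)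
      rwa [hd, sub_add_cancel] at this
    have hd' : A.valuation (e - ε) = 1 := by rw [A.valuation.map_sub_swap]; exact hd
    have hh := nodeValue_three hc hd' he he1 hx₁ hx₂ hx₃ hμ (by rw [mul_comm]; exact q₁)
      (by rw [mul_comm]; exact q₂) (by rw [mul_comm]; exact q₃) s3 hPV hPU
    have sw : ∀ x : K, A.valuation x < 1 → (ε * x + μ) * (e * x + μ) = x ^ 3 + c →
        nodeValue A.valuation c (e * x + μ) (ε * x + μ) *
          nodeValue A.valuation c (ε * x + μ) (e * x + μ) = A.valuation c := by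
      intro x hx hq
      refine nodeValue_swap hd (x := x) (by ring) hq ?_ hc
      refine A.valuation.map_add_lt ?_ hμ
      rw [map_mul, he1, one_mul]; exact hx
    refine ⟨0, mul_right_cancel₀ hn30 (mul_left_cancel₀
      (pow_ne_zero 2 hc : A.valuation c ^ 2 ≠ 0) ?_)⟩
    rw [zpow_zero, mul_one, hsum]
    calc A.valuation c ^ 2 * (n1 * n2 * n3)
        = (nodeValue A.valuation c (e * x₁ + μ) (ε * x₁ + μ) * n1) *
          (nodeValue A.valuation c (e * x₂ + μ) (ε * x₂ + μ) * n2) *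
          (nodeValue A.valuation c (e * x₃ + μ) (ε * x₃ + μ) * n3) := by
            rw [← hh]; ac_rfl
      _ = A.valuation c ^ 2 * A.valuation c := by
            rw [sw _ hx₁ q₁, sw _ hx₂ q₂, sw _ hx₃ q₃, sq]

/-- A line through two points off the identity component and one on it. -/
private lemma nodeValue_mul_line_on {c μ ε e x₁ x₂ x₃ : K} (hc : A.valuation c ≠ 0)
    (hd : A.valuation (ε - e) = 1) (hx₁ : A.valuation x₁ < 1)
    (u₁ : A.valuation (ε * x₁ + μ) < 1) (w₁ : A.valuation (e * x₁ + μ) < 1)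
    (hx₂ : A.valuation x₂ < 1) (u₂ : A.valuation (ε * x₂ + μ) < 1)
    (w₂ : A.valuation (e * x₂ + μ) < 1) (hx₃' : 1 ≤ A.valuation x₃)
    (q₁ : (ε * x₁ + μ) * (e * x₁ + μ) = x₁ ^ 3 + c)
    (q₂ : (ε * x₂ + μ) * (e * x₂ + μ) = x₂ ^ 3 + c) (s1 : x₁ + x₂ + x₃ = ε * e)
    (hPU : (ε * x₁ + μ) * (ε * x₂ + μ) * (ε * x₃ + μ) = μ ^ 3 - ε ^ 3 * c)
    (hPV : (e * x₁ + μ) * (e * x₂ + μ) * (e * x₃ + μ) = μ ^ 3 - e ^ 3 * c) :
    nodeValue A.valuation c (ε * x₁ + μ) (e * x₁ + μ) *
      nodeValue A.valuation c (ε * x₂ + μ) (e * x₂ + μ) = A.valuation c := by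
  have hs : A.valuation (ε * e) = A.valuation x₃ := by
    rw [← s1, A.valuation.map_add_eq_of_lt_right
      (lt_of_lt_of_le (A.valuation.map_add_lt hx₁ hx₂) hx₃')]
  rw [map_mul] at hs
  have heq : A.valuation ε = A.valuation e := by
    by_contra hne
    have h' : A.valuation (ε + -e) = max (A.valuation ε) (A.valuation (-e)) :=
      A.valuation.map_add_of_distinct_val (by rwa [Valuation.map_neg])
    rw [Valuation.map_neg, ← sub_eq_add_neg, hd] at h'
    have hε1 : A.valuation ε ≤ 1 := h' ▸ le_max_left _ _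
    have he1 : A.valuation e ≤ 1 := h' ▸ le_max_right _ _
    have hone : A.valuation ε * A.valuation e = 1 :=
      le_antisymm (mul_le_one' hε1 he1) (hs.symm ▸ hx₃')
    rcases lt_or_eq_of_le hε1 with hlt | heq1
    · exact absurd hone (mul_lt_one_of_nonneg_of_lt_one_left zero_le hlt he1).ne
    · exact hne (by rw [heq1, one_mul] at hone; rw [heq1, hone])
  have hε1 : 1 ≤ A.valuation ε := by
    by_contra hlt
    rw [not_le] at hlt
    rw [← heq] at hs
    exact absurd (hs ▸ hx₃')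
      (not_le.mpr (mul_lt_one_of_nonneg_of_lt_one_left zero_le hlt hlt.le))
  exact nodeValue_two hc hd heq hε1 hx₁ u₁ w₁ hx₂ u₂ w₂ q₁ q₂
    (by rw [sq, ← hs, heq]) hPU hPV

variable [DecidableEq K]

/-- Three collinear points: two of them off the identity component. -/
lemma value_mul_of_off {x₁ y₁ x₂ y₂ : K} (h₁ : (gen W).toAffine.Nonsingular x₁ y₁)
    (h₂ : (gen W).toAffine.Nonsingular x₂ y₂)
    (hxy : ¬(x₁ = x₂ ∧ y₁ = (gen W).toAffine.negY x₂ y₂))
    (hx₁ : A.valuation x₁ < 1) (hx₂ : A.valuation x₂ < 1) :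
    ∃ k : ℤ, M.value (.some x₁ y₁ h₁) * M.value (.some x₂ y₂ h₂) =
      M.value (.some x₁ y₁ h₁ + .some x₂ y₂ h₂) * A.valuation (W.a₆ : K) ^ k := by
  rw [Affine.Point.add_some hxy]
  set L := (gen W).toAffine.slope x₁ x₂ y₁ y₂ with hL
  set μ := y₁ - L * x₁ with hμdef
  set ε := L - (M.α : K) with hεdef
  set e := L - (M.β : K) with hedef
  set c := (W.a₆ : K) with hcdef
  set x₃ := (gen W).toAffine.addX x₁ x₂ L with hx₃def
  set y₃ := (gen W).toAffine.negAddY x₁ x₂ y₁ L with hy₃def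
  have hy₁ : y₁ = L * x₁ + μ := by rw [hμdef]; ring
  obtain ⟨hy₂, hy₃, s1, -, s3, hPU, hPV⟩ :=
    node_chord M.gen_coeff_eq.1 M.gen_coeff_eq.2.1 M.gen_coeff_eq.2.2.1 M.gen_coeff_eq.2.2.2
      h₁.1 h₂.1 hxy
  have hns₃ : (gen W).toAffine.Nonsingular x₃ y₃ := Affine.nonsingular_negAdd h₁ h₂ hxy
  have hUeq : ∀ x y : K, y = L * x + μ → y - M.α * x = ε * x + μ := by
    intro x y h; rw [hεdef, h]; ring
  have hVeq : ∀ x y : K, y = L * x + μ → y - M.β * x = e * x + μ := by
    intro x y h; rw [hedef, h]; ring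
  have q : ∀ x y : K, (gen W).toAffine.Equation x y → y = L * x + μ →
      (ε * x + μ) * (e * x + μ) = x ^ 3 + c := by
    intro x y h hy; rw [← hUeq x y hy, ← hVeq x y hy]; exact M.equation_iff.mp h
  have q₁ := q _ _ h₁.1 hy₁
  have q₂ := q _ _ h₂.1 hy₂
  have q₃ := q _ _ hns₃.1 hy₃
  have hd : A.valuation (ε - e) = 1 := by
    rw [hεdef, hedef, sub_sub_sub_cancel_left, A.valuation.map_sub_swap]; exact M.val_sub
  obtain ⟨u₁, w₁⟩ := M.val_UV_lt_one h₁.1 hx₁
  obtain ⟨u₂, w₂⟩ := M.val_UV_lt_one h₂.1 hx₂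
  rw [hUeq _ _ hy₁] at u₁; rw [hVeq _ _ hy₁] at w₁
  rw [hUeq _ _ hy₂] at u₂; rw [hVeq _ _ hy₂] at w₂
  rw [M.value_some_off h₁ hx₁, M.value_some_off h₂ hx₂, hUeq _ _ hy₁, hVeq _ _ hy₁,
    hUeq _ _ hy₂, hVeq _ _ hy₂]
  by_cases hx₃ : A.valuation x₃ < 1
  · -- all three off
    have hεe : A.valuation (ε * e) < 1 :=
      s1 ▸ A.valuation.map_add_lt (A.valuation.map_add_lt hx₁ hx₂) hx₃
    have hL1 : A.valuation L ≤ 1 := by
      by_contra hgt
      rw [not_le] at hgt
      have hε' : A.valuation ε = A.valuation L :=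
        A.valuation.map_sub_eq_of_lt_left (lt_of_le_of_lt (A.valuation_le_one _) hgt)
      have he' : A.valuation e = A.valuation L :=
        A.valuation.map_sub_eq_of_lt_left (lt_of_le_of_lt (A.valuation_le_one _) hgt)
      rw [map_mul, hε', he'] at hεe
      exact absurd hεe (not_lt.mpr (one_lt_mul_of_lt_of_le hgt hgt.le).le)
    have hμ : A.valuation μ < 1 := by
      rw [hμdef]
      refine A.valuation.map_sub_lt (M.val_y_lt_one h₁.1 hx₁) ?_
      rw [map_mul]; exact mul_lt_one_of_nonneg_of_lt_one_right hL1 zero_le hx₁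
    have hprod : A.valuation ε < 1 ∨ A.valuation e < 1 := by
      by_contra hh
      rw [not_or, not_lt, not_lt] at hh
      rw [map_mul] at hεe
      exact absurd hεe (not_lt.mpr (one_le_mul hh.1 hh.2))
    have hsum : M.value (.some x₃ ((gen W).toAffine.negY x₃ y₃)
        ((Affine.nonsingular_neg ..).mpr hns₃)) *
        nodeValue A.valuation c (ε * x₃ + μ) (e * x₃ + μ) = A.valuation c := by
      have hns : ¬IsE0 (W := W) (.some x₃ y₃ hns₃) := fun hh => (M.isE0_some_iff _).mp hh hx₃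
      have := M.value_neg_mul hns
      rwa [Affine.Point.neg_some, M.value_some_off hns₃ hx₃, hUeq _ _ hy₃, hVeq _ _ hy₃] at this
    exact nodeValue_mul_line_off M.c_ne_zero hd hprod hx₁ hx₂ hx₃ hμ q₁ q₂ q₃ s3 hPU hPV hsum
  · -- the sum is on the identity component
    rw [M.value_of_isE0 ((M.isE0_some_iff _).mpr hx₃)]
    exact ⟨1, by
      rw [one_mul, zpow_one]
      exact nodeValue_mul_line_on M.c_ne_zero hd hx₁ u₁ w₁ hx₂ u₂ w₂ (not_lt.mp hx₃) q₁ q₂ s1
        hPU hPV⟩

lemma cl_value_add_of_off {P Q : (gen W).toAffine.Point} (hP : ¬IsE0 P) (hQ : ¬IsE0 Q) :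
    cl W (M.value (P + Q)) = cl W (M.value P) + cl W (M.value Q) := by
  rw [← cl_mul (M.value_ne_zero P) (M.value_ne_zero Q)]
  by_cases hneg : P = -Q
  · rw [hneg, neg_add_cancel, M.value_zero, cl_one, M.value_neg_mul hQ]
    exact (cl_c M).symm
  obtain ⟨x₁, y₁, h₁, rfl, hx₁⟩ := M.exists_of_not_isE0 hP
  obtain ⟨x₂, y₂, h₂, rfl, hx₂⟩ := M.exists_of_not_isE0 hQ
  have hxy : ¬(x₁ = x₂ ∧ y₁ = (gen W).toAffine.negY x₂ y₂) := by
    rintro ⟨ha, hb⟩
    apply hneg
    rw [Affine.Point.neg_some]; simp only [Affine.Point.some.injEq]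
    exact ⟨ha, hb⟩
  obtain ⟨k, hk⟩ := M.value_mul_of_off h₁ h₂ hxy hx₁ hx₂
  rw [hk, cl_mul (M.value_ne_zero _) (zpow_ne_zero k M.c_ne_zero), cl_c_zpow M k, add_zero]

lemma cl_value_add_of_isE0 {P Q : (gen W).toAffine.Point} (hP : IsE0 P) :
    cl W (M.value (P + Q)) = cl W (M.value Q) := by
  classical
  by_cases hQ : IsE0 Q
  · rw [M.value_of_isE0 (IsE0.add hP hQ).1, M.value_of_isE0 hQ]
  have hT : ¬IsE0 (P + Q) := fun hT => hQ (by
    have := (IsE0.add hT hP.neg.1).1
    rwa [add_comm P Q, add_neg_cancel_right] at this)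
  have hnQ : ¬IsE0 (-Q) := fun hh => hQ (by have := hh.neg.1; rwa [neg_neg] at this)
  have h := M.cl_value_add_of_off hT hnQ
  rw [add_neg_cancel_right, M.value_of_isE0 hP, cl_one] at h
  have h2 : cl W (M.value (-Q)) + cl W (M.value Q) = 0 := by
    rw [← cl_mul (M.value_ne_zero _) (M.value_ne_zero _), M.value_neg_mul hQ]
    exact cl_c M
  exact add_right_cancel (h.symm.trans (by rw [add_comm]; exact h2.symm))

/-- **The component homomorphism**, with kernel the points with nonsingular reduction. -/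
noncomputable def componentHom : (gen W).toAffine.Point →+ ComponentGroup W where
  toFun P := cl W (M.value P)
  map_zero' := by rw [M.value_zero, cl_one]
  map_add' P Q := by
    by_cases hP : IsE0 P
    · rw [M.cl_value_add_of_isE0 hP, M.value_of_isE0 hP, cl_one, zero_add]
    by_cases hQ : IsE0 Q
    · rw [add_comm P Q, M.cl_value_add_of_isE0 hQ, M.value_of_isE0 hQ, cl_one, add_zero]
    exact M.cl_value_add_of_off hP hQ

/-- The component homomorphism kills exactly the nonsingular reductions. -/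
lemma componentHom_eq_zero_iff {P : (gen W).toAffine.Point} :
    M.componentHom P = 0 ↔ IsE0 P := by
  refine ⟨fun h => by_contra fun hP => ?_, fun h => ?_⟩
  · obtain ⟨hlo, hhi⟩ := M.value_between hP
    obtain ⟨k, hk⟩ := (cl_eq_zero_iff M (M.value_ne_zero P)).mp h
    rw [← hk] at hlo hhi
    have hpos : 0 < A.valuation (W.a₆ : K) := zero_lt_iff.mpr M.c_ne_zero
    rw [zpow_lt_one_iff_right_of_lt_one₀ hpos M.c_lt_one] at hhi
    nth_rewrite 1 [← zpow_one (A.valuation (W.a₆ : K))] at hlo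
    rw [zpow_lt_zpow_iff_right_of_lt_one₀ hpos M.c_lt_one] at hlo
    omega
  · show cl W (M.value P) = 0
    rw [M.value_of_isE0 h, cl_one]

end NodeModel

end FermatAgent.ECLocal
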