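import Fermat.Agent.ECLocal.Node
import Fermat.Agent.ECLocal.NoTorsion
import Fermat.Agent.ECLocal.Inertia
import Fermat.Agent.ECLocal.Conj

/-!
# Inertia on torsion at good and multiplicative places
-/

set_option autoImplicit false

universe u

namespace FermatAgent.ECLocal

open WeierstrassCurve

variable {K : Type u} [Field K] {A : ValuationSubring K} {W : WeierstrassCurve A}

lemma repk_eq_of_isConj {σ : K →+* K} (hσ : ActsInertially A σ)
    {P P' : (gen W).toAffine.Point} (h : IsConj σ P P') : repk P' = repk P := by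
  rcases P with _ | ⟨x, y, hxy⟩
  · obtain rfl : P' = 0 := h
    rfl
  · obtain ⟨h', rfl⟩ := h
    by_cases hx : x ∈ A
    · rw [repk_some_mem hxy hx, repk_some_mem h' (hσ.mem_iff.mpr hx), hσ.residue_eq hx]
      have := hσ.residue_eq (y_mem_of_x_mem hxy.1 hx)
      simp only [this]
    · rw [repk_some_not_mem hxy hx, repk_some_not_mem h' (fun hh => hx (hσ.mem_iff.mp hh))]

lemma isE0_iff_of_isConj {σ : K →+* K} (hσ : ActsInertially A σ)
    {P P' : (gen W).toAffine.Point} (h : IsConj σ P P') : IsE0 P' ↔ IsE0 P := by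
  rw [IsE0, IsE0, repk_eq_of_isConj hσ h]

variable [DecidableEq K]

/-- Inertia moves points of nonsingular reduction inside the kernel of reduction. -/
lemma sub_isE1_of_isConj {σ : K →+* K} (hσ : ActsInertially A σ)
    {P P' : (gen W).toAffine.Point} (h : IsConj σ P P') (hP : IsE0 P) : IsE1 (P - P') := by
  classical
  refine IsE1.sub_of_red_eq hP ((isE0_iff_of_isConj hσ h).mpr hP) ?_
  rw [red, red, repk_eq_of_isConj hσ h]

/-- Inertia fixes torsion of order invertible in the residue field with nonsingular reduction. -/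
theorem conj_eq_self_of_isE0 {σ : K →+* K} (hσ : ActsInertially A σ)
    {P P' : (gen W).toAffine.Point} (h : IsConj σ P P') (hP : IsE0 P) {n : ℕ}
    (hn : (n : IsLocalRing.ResidueField A) ≠ 0) (hPn : n • P = 0) (hPn' : n • P' = 0) :
    P' = P := by
  have h1 := sub_isE1_of_isConj hσ h hP
  have h0 : n • (P - P') = 0 := by rw [nsmul_sub, hPn, hPn', sub_zero]
  exact (sub_eq_zero.mp (h1.eq_zero_of_nsmul_eq_zero hn h0)).symm

omit [DecidableEq K] in
/-- Good reduction: all points reduce to nonsingular ones. -/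
lemma isE0_of_residue_Δ_ne_zero (hΔ : IsLocalRing.residue A W.Δ ≠ 0)
    (P : (gen W).toAffine.Point) : IsE0 P := by
  rcases P with _ | ⟨x, y, h⟩
  · exact isE0_zero
  by_cases hx : x ∈ A
  · rw [isE0_some_iff_of_mem h hx]
    refine (Affine.equation_iff_nonsingular_of_Δ_ne_zero (W := (spc W).toAffine) ?_).mp ?_
    · show (spc W).Δ ≠ 0
      rw [WeierstrassCurve.map_Δ]; exact hΔ
    · exact ((Affine.map_equation W.toAffine A.subtype_injective ⟨x, hx⟩
        ⟨y, y_mem_of_x_mem h.1 hx⟩).mp h.1).map (IsLocalRing.residue A)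
  · exact ((isE1_some_iff h).mpr hx).isE0

namespace NodeModel

variable (M : NodeModel W)

/-- Conjugate points lie on the same component. -/
lemma componentHom_eq_of_isConj {σ : K →+* K} (hv : ∀ z, A.valuation (σ z) = A.valuation z)
    (hα : σ M.α = M.α) (hβ : σ M.β = M.β)
    {P P' : (gen W).toAffine.Point} (h : IsConj σ P P') :
    M.componentHom P' = M.componentHom P := by
  show cl W (M.value P') = cl W (M.value P)
  rcases P with _ | ⟨x, y, hxy⟩
  · obtain rfl : P' = 0 := h
    rfl
  obtain ⟨h', rfl⟩ := h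
  congr 1
  simp only [value, hv]
  split_ifs with hx
  · have e1 : σ y - (M.α : K) * σ x = σ (y - (M.α : K) * x) := by rw [map_sub, map_mul, hα]
    have e2 : σ y - (M.β : K) * σ x = σ (y - (M.β : K) * x) := by rw [map_sub, map_mul, hβ]
    simp only [nodeValue, e1, e2, hv]
  · rfl

/-- Inertia acts trivially modulo the identity component. -/
theorem sub_isE0_of_isConj {σ : K →+* K} (hσ : ActsInertially A σ)
    (hα : σ M.α = M.α) (hβ : σ M.β = M.β)
    {P P' : (gen W).toAffine.Point} (h : IsConj σ P P') : IsE0 (P - P') := by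
  rw [← M.componentHom_eq_zero_iff, map_sub, M.componentHom_eq_of_isConj hσ.val_map hα hβ h,
    sub_self]

/-- A torsion component gives a value whose power is one of `a₆`. -/
lemma value_pow_eq {P : (gen W).toAffine.Point} {n : ℕ} (h : n • M.componentHom P = 0) :
    ∃ k : ℤ, A.valuation (W.a₆ : K) ^ k = M.value P ^ n := by
  have hne := M.value_ne_zero P
  have e : ∀ m : ℕ, cl W (M.value P ^ m) = m • cl W (M.value P) := by
    intro m
    induction m with
    | zero => rw [pow_zero, cl_one, zero_nsmul]
    | succ j ih => rw [pow_succ, cl_mul (pow_ne_zero _ hne) hne, ih, succ_nsmul]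
  exact (cl_eq_zero_iff M (pow_ne_zero n hne)).mp ((e n).trans h)

/-- A point off the identity component whose `U`-coordinate has the valuation of a fixed element
is moved by an element of inertia by a point of the kernel of reduction. -/
lemma sub_isE1_of_left {σ : K →+* K} (hσ : ActsInertially A σ)
    (hα : σ M.α = M.α) (hβ : σ M.β = M.β) {x y : K}
    (h : (gen W).toAffine.Nonsingular x y) (h' : (gen W).toAffine.Nonsingular (σ x) (σ y))
    (hx : A.valuation x < 1)
    (hlt : A.valuation (y - (M.β : K) * x) < A.valuation (y - (M.α : K) * x))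
    {π : K} (hπ : σ π = π) (hU : A.valuation (y - (M.α : K) * x) = A.valuation π) :
    IsE1 (W := W) (Affine.Point.some x y h - Affine.Point.some (σ x) (σ y) h') := by
  set U := y - (M.α : K) * x with hUdef
  set V := y - (M.β : K) * x with hVdef
  have hUpos : 0 < A.valuation U := lt_of_le_of_lt zero_le hlt
  have hU0 : U ≠ 0 := fun h0 => by rw [h0, map_zero] at hUpos; exact lt_irrefl _ hUpos
  have hσU : σ y - (M.α : K) * σ x = σ U := by rw [hUdef, map_sub, map_mul, hα]
  have hσV : σ y - (M.β : K) * σ x = σ V := by rw [hVdef, map_sub, map_mul, hβ]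
  have hsmall := hσ.val_map_sub_lt_self hπ hU hU0
  have hσVlt : A.valuation (σ V) < A.valuation U := by rw [hσ.val_map]; exact hlt
  rw [sub_eq_add_neg, Affine.Point.neg_some]
  set y₂ := (gen W).toAffine.negY (σ x) (σ y) with hy₂
  have hy₂e : y₂ - (M.α : K) * σ x = -σ V := by
    rw [← hσV, hy₂, Affine.negY]
    simp only [WeierstrassCurve.map_a₁, WeierstrassCurve.map_a₃, ValuationSubring.subtype_apply,
      M.a₁_eq, M.a₃_eq]
    push_cast; ring
  have hΔU : A.valuation (U + σ V) = A.valuation U := A.valuation.map_add_eq_of_lt_left hσVlt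
  have hd : A.valuation ((M.β : K) - M.α) = 1 := by
    rw [A.valuation.map_sub_swap]; exact M.val_sub
  have hΔx : A.valuation (x - σ x) < A.valuation U := by
    have : A.valuation (((M.β : K) - M.α) * (x - σ x)) < A.valuation U := by
      rw [show ((M.β : K) - M.α) * (x - σ x) = (σ V - V) - (σ U - U) by
        rw [← hσU, ← hσV, hUdef, hVdef]; ring]
      exact A.valuation.map_sub_lt (A.valuation.map_sub_lt hσVlt hlt) hsmall
    rwa [map_mul, hd, one_mul] at this
  by_cases hxy : x = σ x ∧ y = (gen W).toAffine.negY (σ x) y₂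
  · rw [Affine.Point.add_of_Y_eq hxy.1 hxy.2]; exact isE1_zero
  have hxne : x ≠ σ x := by
    intro he
    rw [not_and] at hxy
    have hy : y = y₂ := Affine.Y_eq_of_Y_ne h.1 ((Affine.equation_neg ..).mpr h'.1) he (hxy he)
    have : U = -σ V := by rw [← hy₂e, ← hy, ← he]
    rw [this, neg_add_cancel, map_zero, Valuation.map_neg] at hΔU
    exact hUpos.ne (by rw [this, Valuation.map_neg]; exact hΔU)
  rw [Affine.Point.add_some hxy, isE1_some_iff, ← one_lt_valuation_iff]
  set L := (gen W).toAffine.slope x (σ x) y y₂ with hL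
  have hΔx0 : x - σ x ≠ 0 := sub_ne_zero.mpr hxne
  have hslope : (L - M.α) * (x - σ x) = U + σ V := by
    rw [hL, Affine.slope_of_X_ne hxne, sub_mul, div_mul_cancel₀ _ hΔx0]
    rw [hUdef]; linear_combination -hy₂e
  have hLα : 1 < A.valuation (L - M.α) := by
    by_contra hle
    rw [not_lt] at hle
    have h1 : A.valuation ((L - M.α) * (x - σ x)) < A.valuation U := by
      rw [map_mul]; exact lt_of_le_of_lt (mul_le_of_le_one_left' hle) hΔx
    rw [hslope, hΔU] at h1
    exact lt_irrefl _ h1
  have hLβ : A.valuation (L - M.β) = A.valuation (L - M.α) := by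
    rw [show L - (M.β : K) = (L - M.α) + (M.α - M.β) by ring]
    exact A.valuation.map_add_eq_of_lt_left (by rw [M.val_sub]; exact hLα)
  have e : (gen W).toAffine.addX x (σ x) L = (L - M.α) * (L - M.β) - (x + σ x) := by
    simp only [Affine.addX, WeierstrassCurve.map_a₁, WeierstrassCurve.map_a₂,
      ValuationSubring.subtype_apply, M.a₁_eq, M.a₂_eq]
    push_cast; ring
  have hprod : 1 < A.valuation ((L - M.α) * (L - M.β)) := by
    rw [map_mul, hLβ]; exact one_lt_mul_of_lt_of_le hLα hLα.le
  rw [e, sub_eq_add_neg, A.valuation.map_add_eq_of_lt_left]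
  · exact hprod
  · rw [Valuation.map_neg]
    exact lt_trans (A.valuation.map_add_lt hx (by rw [hσ.val_map]; exact hx)) hprod

/-- At a multiplicative place whose discriminant is an `n`-th power up to units, inertia fixes
`n`-torsion (`n` an odd number invertible in the residue field). -/
theorem conj_eq_self {σ : K →+* K} (hσ : ActsInertially A σ)
    (hα : σ M.α = M.α) (hβ : σ M.β = M.β) {n : ℕ} (hodd : Odd n)
    (hn : (n : IsLocalRing.ResidueField A) ≠ 0) {π : K} (hπ : σ π = π)
    (hc : A.valuation (W.a₆ : K) = A.valuation π ^ n)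
    {P P' : (gen W).toAffine.Point} (h : IsConj σ P P') (hPn : n • P = 0) (hPn' : n • P' = 0) :
    P' = P := by
  have hn0 : n ≠ 0 := hodd.pos.ne'
  by_cases hP : IsE0 P
  · exact conj_eq_self_of_isE0 hσ h hP hn hPn hPn'
  suffices h1 : IsE1 (P - P') from
    (sub_eq_zero.mp (h1.eq_zero_of_nsmul_eq_zero hn
      (by rw [nsmul_sub, hPn, hPn', sub_zero]))).symm
  have ha₁ : σ (gen W).a₁ = (gen W).a₁ := by
    simp only [WeierstrassCurve.map_a₁, ValuationSubring.subtype_apply, M.a₁_eq]
    push_cast; rw [map_neg, map_add, hα, hβ]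
  have ha₃ : σ (gen W).a₃ = (gen W).a₃ := by
    simp only [WeierstrassCurve.map_a₃, M.a₃_eq, map_zero]
  have key : ∀ {Q Q' : (gen W).toAffine.Point}, IsConj σ Q Q' → n • Q = 0 → ¬IsE0 Q →
      ∀ (x y : K) (hxy : (gen W).toAffine.Nonsingular x y), Q = .some x y hxy →
      A.valuation x < 1 → A.valuation (y - (M.β : K) * x) < A.valuation (y - (M.α : K) * x) →
      IsE1 (Q - Q') := by
    intro Q Q' hc' hQn _ x y hxy hQ hx hlt
    subst hQ
    obtain ⟨h', rfl⟩ := hc'
    obtain ⟨k, hk⟩ := M.value_pow_eq (P := .some x y hxy) (n := n)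
      (by rw [← map_nsmul, hQn, map_zero])
    rw [M.value_some_off hxy hx, nodeValue, if_pos hlt.le, hc, ← zpow_natCast, ← zpow_mul,
      mul_comm, zpow_mul, zpow_natCast, ← map_zpow₀] at hk
    have hU := (pow_left_inj₀ zero_le zero_le hn0).mp hk
    exact M.sub_isE1_of_left hσ hα hβ hxy h' hx hlt (π := π ^ k)
      (by rw [map_zpow₀, hπ]) hU.symm
  obtain ⟨x, y, hxy, rfl, hx⟩ := M.exists_of_not_isE0 hP
  rcases lt_trichotomy (A.valuation (y - (M.β : K) * x))
      (A.valuation (y - (M.α : K) * x)) with hlt | heq | hgt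
  · exact key h hPn hP x y hxy rfl hx hlt
  · exfalso
    apply hP
    have he := M.equation_iff.mp hxy.1
    have hd : A.valuation ((M.β : K) - M.α) = 1 := by
      rw [A.valuation.map_sub_swap]; exact M.val_sub
    obtain ⟨hU, -⟩ := M.val_UV_lt_one hxy.1 hx
    have h2 := (nodePoint_of_eq hd (x := x) (by ring) he hU M.c_ne_zero heq).2
    have e2 : (2 : ℕ) • M.componentHom (.some x y hxy) = 0 := by
      rw [two_nsmul]
      show cl W (M.value (.some x y hxy)) + cl W (M.value (.some x y hxy)) = 0
      rw [← cl_mul (M.value_ne_zero _) (M.value_ne_zero _), M.value_some_off hxy hx, nodeValue,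
        if_pos heq.le, ← sq, h2, cl_c M]
    have en : n • M.componentHom (.some x y hxy) = 0 := by rw [← map_nsmul, hPn, map_zero]
    obtain ⟨j, hj⟩ := hodd
    rw [hj, add_nsmul, mul_nsmul, e2, nsmul_zero, zero_add, one_nsmul] at en
    exact M.componentHom_eq_zero_iff.mp en
  · have hneg : -Affine.Point.some x y hxy
        = .some x _ ((Affine.nonsingular_neg ..).mpr hxy) := Affine.Point.neg_some hxy
    have hP' : ¬IsE0 (W := W) (-Affine.Point.some x y hxy) := fun hh => hP (by
      have := hh.neg.1; rwa [neg_neg] at this)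
    have := key (h.neg ha₁ ha₃) (by rw [smul_neg, hPn, neg_zero]) hP' x _ _ hneg hx ?_
    · rw [neg_sub_neg] at this
      have h3 := this.neg
      rwa [neg_sub] at h3
    · have e1 : (gen W).toAffine.negY x y - (M.α : K) * x = -(y - (M.β : K) * x) := by
        simp only [Affine.negY, WeierstrassCurve.map_a₁, WeierstrassCurve.map_a₃,
          ValuationSubring.subtype_apply, M.a₁_eq, M.a₃_eq]
        push_cast; ring
      have e2 : (gen W).toAffine.negY x y - (M.β : K) * x = -(y - (M.α : K) * x) := by
        simp only [Affine.negY, WeierstrassCurve.map_a₁, WeierstrassCurve.map_a₃,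
          ValuationSubring.subtype_apply, M.a₁_eq, M.a₃_eq]
        push_cast; ring
      rw [e1, e2, Valuation.map_neg, Valuation.map_neg]
      exact hgt

end NodeModel

end FermatAgent.ECLocal
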