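import Fermat.Agent.ECLocal.ValBasic
import Mathlib.AlgebraicGeometry.EllipticCurve.Projective.Point
import Mathlib.AlgebraicGeometry.EllipticCurve.Affine.Point
import Mathlib.Tactic.FieldSimp

/-!
# Reduction of points of a Weierstrass curve with integral coefficients

`A` is any valuation subring of any field `K`, `W` any Weierstrass curve over `A`.
The reduction map is a homomorphism on the points with nonsingular reduction.
-/

set_option autoImplicit false

universe u

namespace FermatAgent.ECLocal

open WeierstrassCurve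
open scoped WeierstrassCurve.Projective

variable {K : Type u} [Field K] {A : ValuationSubring K}

/-- The generic fibre. -/
noncomputable abbrev gen (W : WeierstrassCurve A) : WeierstrassCurve K := W.map A.subtype

/-- The special fibre. -/
noncomputable abbrev spc (W : WeierstrassCurve A) :
    WeierstrassCurve (IsLocalRing.ResidueField A) :=
  W.map (IsLocalRing.residue A)

variable (W : WeierstrassCurve A)

/-- The coefficients are integral. -/
lemma gen_coeff_le_one :
    A.valuation (gen W).a₁ ≤ 1 ∧ A.valuation (gen W).a₂ ≤ 1 ∧ A.valuation (gen W).a₃ ≤ 1 ∧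
      A.valuation (gen W).a₄ ≤ 1 ∧ A.valuation (gen W).a₆ ≤ 1 :=
  ⟨A.valuation_le_one _, A.valuation_le_one _, A.valuation_le_one _, A.valuation_le_one _,
    A.valuation_le_one _⟩

variable {W}

/-- The ordinate is integral when the abscissa is. -/
lemma y_mem_of_x_mem {x y : K} (h : (gen W).toAffine.Equation x y) (hx : x ∈ A) : y ∈ A := by
  by_contra hy
  have hy1 : 1 < A.valuation y := (one_lt_valuation_iff A).mpr hy
  rw [Affine.equation_iff] at h
  have hm : ∀ i : A, (i : K) ∈ A := fun i => i.2
  have hlin : A.valuation ((gen W).a₁ * x + (gen W).a₃) ≤ 1 :=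
    A.valuation_le_one ⟨_, A.add_mem _ _ (A.mul_mem _ _ (hm W.a₁) hx) (hm W.a₃)⟩
  have hrhs : A.valuation (x ^ 3 + (gen W).a₂ * x ^ 2 + (gen W).a₄ * x + (gen W).a₆) ≤ 1 :=
    A.valuation_le_one ⟨_, A.add_mem _ _ (A.add_mem _ _ (A.add_mem _ _ (pow_mem hx 3)
      (A.mul_mem _ _ (hm W.a₂) (pow_mem hx 2))) (A.mul_mem _ _ (hm W.a₄) hx)) (hm W.a₆)⟩
  have hsplit : y * (y + ((gen W).a₁ * x + (gen W).a₃))
      = x ^ 3 + (gen W).a₂ * x ^ 2 + (gen W).a₄ * x + (gen W).a₆ := by
    linear_combination h
  rw [← hsplit, map_mul, A.valuation.map_add_eq_of_lt_left (lt_of_le_of_lt hlin hy1)] at hrhs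
  exact absurd hrhs (not_le.mpr (one_lt_mul_of_lt_of_le hy1 hy1.le))

/-- At a pole `|y| ² = |x| ³`. -/
lemma val_y_of_x_not_mem {x y : K} (h : (gen W).toAffine.Equation x y) (hx : x ∉ A) :
    A.valuation x < A.valuation y ∧ A.valuation y ^ 2 = A.valuation x ^ 3 := by
  have hx1 : 1 < A.valuation x := (one_lt_valuation_iff A).mpr hx
  obtain ⟨h1, h2, h3, h4, h6⟩ := gen_coeff_le_one W
  rw [Affine.equation_iff] at h
  set vx := A.valuation x with hvx
  have hx2 : vx ≤ vx ^ 2 := le_self_pow hx1.le two_ne_zero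
  have hx23 : vx ^ 2 < vx ^ 3 := pow_lt_pow_right₀ hx1 (by norm_num)
  have hr : A.valuation ((gen W).a₂ * x ^ 2 + (gen W).a₄ * x + (gen W).a₆) ≤ vx ^ 2 := by
    refine A.valuation.map_add_le (A.valuation.map_add_le ?_ ?_) ?_
    · rw [map_mul, map_pow]; exact mul_le_of_le_one_left' h2
    · rw [map_mul]; exact (mul_le_of_le_one_left' h4).trans hx2
    · exact h6.trans (one_le_pow₀ hx1.le)
  have hR : A.valuation (x ^ 3 + ((gen W).a₂ * x ^ 2 + (gen W).a₄ * x + (gen W).a₆)) = vx ^ 3 := by
    rw [A.valuation.map_add_eq_of_lt_left (by rw [map_pow]; exact lt_of_le_of_lt hr hx23), map_pow]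
  have hL : y * (y + ((gen W).a₁ * x + (gen W).a₃))
      = x ^ 3 + ((gen W).a₂ * x ^ 2 + (gen W).a₄ * x + (gen W).a₆) := by
    linear_combination h
  have hl : A.valuation ((gen W).a₁ * x + (gen W).a₃) ≤ vx := by
    refine A.valuation.map_add_le ?_ (h3.trans hx1.le)
    rw [map_mul]; exact mul_le_of_le_one_left' h1
  have hlt : vx < A.valuation y := by
    by_contra hle
    rw [not_lt] at hle
    have : vx ^ 3 ≤ vx ^ 2 := by
      rw [← hR, ← hL, map_mul, sq]
      exact mul_le_mul' hle (A.valuation.map_add_le hle hl)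
    exact absurd this (not_le.mpr hx23)
  refine ⟨hlt, ?_⟩
  rw [← hR, ← hL, map_mul, A.valuation.map_add_eq_of_lt_left (lt_of_le_of_lt hl hlt), sq]

/-- The ordinate is nonzero at a pole. -/
lemma y_ne_zero_of_x_not_mem {x y : K} (h : (gen W).toAffine.Equation x y) (hx : x ∉ A) :
    y ≠ 0 := by
  intro h0
  have := (val_y_of_x_not_mem h hx).1
  simp [h0] at this

/-- At a pole `x / y` and `1 / y` are integral. -/
lemma div_mem_of_x_not_mem {x y : K} (h : (gen W).toAffine.Equation x y) (hx : x ∉ A) :
    x / y ∈ A ∧ y⁻¹ ∈ A := by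
  have h1 := (val_y_of_x_not_mem h hx).1
  have h0 := y_ne_zero_of_x_not_mem h hx
  have hpos : 0 < A.valuation y := A.valuation.pos_iff.mpr h0
  constructor <;> apply A.mem_of_valuation_le_one
  · rw [map_div₀, div_le_one₀ hpos]; exact h1.le
  · rw [map_inv₀, inv_le_one₀ hpos]; exact le_of_lt (lt_trans ((one_lt_valuation_iff A).mpr hx) h1)

/-! ## Representatives -/

open Classical in
/-- A primitive integral representative of a point. -/
noncomputable def rep : (gen W).toAffine.Point → Fin 3 → A
  | .zero => ![0, 1, 0]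
  | .some x y h =>
    if hx : x ∈ A then ![⟨x, hx⟩, ⟨y, y_mem_of_x_mem h.1 hx⟩, 1]
    else ![⟨x / y, (div_mem_of_x_not_mem h.1 hx).1⟩, 1, ⟨y⁻¹, (div_mem_of_x_not_mem h.1 hx).2⟩]

/-- The representative over the field. -/
noncomputable abbrev repK (P : (gen W).toAffine.Point) : Fin 3 → K := A.subtype ∘ rep P

/-- The reduced representative. -/
noncomputable abbrev repk (P : (gen W).toAffine.Point) : Fin 3 → IsLocalRing.ResidueField A :=
  IsLocalRing.residue A ∘ rep P

/-- The origin has coordinates `(0, 1, 0)`. -/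
lemma rep_zero : rep (W := W) 0 = ![0, 1, 0] := rfl

/-- The normalised coordinates of an integral point. -/
lemma rep_some_mem {x y : K} (h : (gen W).toAffine.Nonsingular x y) (hx : x ∈ A) :
    rep (.some x y h) = ![⟨x, hx⟩, ⟨y, y_mem_of_x_mem h.1 hx⟩, 1] := by
  simp only [rep, dif_pos hx]

/-- The normalised coordinates of a point with a pole. -/
lemma rep_some_not_mem {x y : K} (h : (gen W).toAffine.Nonsingular x y) (hx : x ∉ A) :
    rep (.some x y h) = ![⟨x / y, (div_mem_of_x_not_mem h.1 hx).1⟩, 1,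
      ⟨y⁻¹, (div_mem_of_x_not_mem h.1 hx).2⟩] := by
  simp only [rep, dif_neg hx]

lemma repK_zero : repK (W := W) 0 = ![0, 1, 0] := by
  simp [repK, rep_zero, Projective.comp_fin3]

lemma repK_some_mem {x y : K} (h : (gen W).toAffine.Nonsingular x y) (hx : x ∈ A) :
    repK (.some x y h) = ![x, y, 1] := by
  simp [repK, rep_some_mem h hx, Projective.comp_fin3]

lemma repK_some_not_mem {x y : K} (h : (gen W).toAffine.Nonsingular x y) (hx : x ∉ A) :
    repK (.some x y h) = ![x / y, 1, y⁻¹] := by
  simp [repK, rep_some_not_mem h hx, Projective.comp_fin3]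

/-- The origin reduces to `(0, 1, 0)`. -/
lemma repk_zero : repk (W := W) 0 = ![0, 1, 0] := by
  simp [repk, rep_zero, Projective.comp_fin3]

/-- The reduction of an integral point. -/
lemma repk_some_mem {x y : K} (h : (gen W).toAffine.Nonsingular x y) (hx : x ∈ A) :
    repk (.some x y h) = ![IsLocalRing.residue A ⟨x, hx⟩,
      IsLocalRing.residue A ⟨y, y_mem_of_x_mem h.1 hx⟩, 1] := by
  simp [repk, rep_some_mem h hx, Projective.comp_fin3]

/-- A point with a pole reduces to `(0, 1, 0)`. -/
lemma repk_some_not_mem {x y : K} (h : (gen W).toAffine.Nonsingular x y) (hx : x ∉ A) :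
    repk (.some x y h) = ![0, 1, 0] := by
  have hv := val_y_of_x_not_mem h.1 hx
  have hy0 := y_ne_zero_of_x_not_mem h.1 hx
  have hpos : 0 < A.valuation y := A.valuation.pos_iff.mpr hy0
  have e1 : IsLocalRing.residue A ⟨x / y, (div_mem_of_x_not_mem h.1 hx).1⟩ = 0 := by
    rw [residue_eq_zero_iff]
    show A.valuation (x / y) < 1
    rw [map_div₀, div_lt_one₀ hpos]; exact hv.1
  have e2 : IsLocalRing.residue A ⟨y⁻¹, (div_mem_of_x_not_mem h.1 hx).2⟩ = 0 := by
    rw [residue_eq_zero_iff]
    show A.valuation (y⁻¹) < 1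
    rw [map_inv₀, inv_lt_one₀ hpos]
    exact lt_trans ((one_lt_valuation_iff A).mpr hx) hv.1
  simp [repk, rep_some_not_mem h hx, Projective.comp_fin3, e1, e2]

lemma repK_equiv_some {x y : K} (h : (gen W).toAffine.Nonsingular x y) :
    repK (.some x y h) ≈ ![x, y, 1] := by
  by_cases hx : x ∈ A
  · rw [repK_some_mem h hx]
  · have hy0 := y_ne_zero_of_x_not_mem h.1 hx
    refine ⟨(Units.mk0 y hy0)⁻¹, ?_⟩
    rw [repK_some_not_mem h hx]
    show (y⁻¹ : K) • ![x, y, 1] = _
    rw [Projective.smul_fin3]
    simp [hy0, div_eq_mul_inv, mul_comm]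

lemma repK_nonsingular (P : (gen W).toAffine.Point) :
    (gen W).toProjective.Nonsingular (repK P) := by
  rcases P with _ | ⟨x, y, h⟩
  · rw [← Affine.Point.zero_def, repK_zero]; exact Projective.nonsingular_zero
  · rw [Projective.nonsingular_of_equiv (repK_equiv_some h), Projective.nonsingular_some]
    exact h

/-- The normalised coordinates give back the point. -/
lemma toAffine_repK (P : (gen W).toAffine.Point) :
    Projective.Point.toAffine (gen W).toProjective (repK P) = P := by
  rcases P with _ | ⟨x, y, h⟩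
  · rw [← Affine.Point.zero_def, repK_zero, Projective.Point.toAffine_zero]
  · rw [Projective.Point.toAffine_of_equiv (repK_equiv_some h),
      Projective.Point.toAffine_some ((Projective.nonsingular_some ..).mpr h)]

lemma equiv_repK_of_toAffine_eq {U : Fin 3 → K} (hU : (gen W).toProjective.Nonsingular U)
    {P : (gen W).toAffine.Point}
    (h : Projective.Point.toAffine (gen W).toProjective U = P) : U ≈ repK P := by
  by_cases hz : U 2 = 0
  · rw [Projective.Point.toAffine_of_Z_eq_zero hz] at h
    rw [← h, repK_zero]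
    exact Projective.equiv_zero_of_Z_eq_zero hU hz
  · rw [Projective.Point.toAffine_of_Z_ne_zero hU hz] at h
    rw [← h]
    exact Setoid.trans (Projective.equiv_some_of_Z_ne_zero hz) (Setoid.symm (repK_equiv_some _))

lemma exists_rep_eq_one (P : (gen W).toAffine.Point) : ∃ i, rep P i = 1 := by
  rcases P with _ | ⟨x, y, h⟩
  · exact ⟨1, by rw [← Affine.Point.zero_def, rep_zero]; rfl⟩
  · by_cases hx : x ∈ A
    · exact ⟨2, by rw [rep_some_mem h hx]; rfl⟩
    · exact ⟨1, by rw [rep_some_not_mem h hx]; rfl⟩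

/-- The reduced coordinates do not all vanish. -/
lemma repk_ne_zero (P : (gen W).toAffine.Point) : repk P ≠ 0 := fun h0 => by
  obtain ⟨i, hi⟩ := exists_rep_eq_one P
  simpa [repk, hi] using congr_fun h0 i

/-- An integral representative with nonzero reduction is a unit multiple of the normalised one. -/
lemma exists_isUnit_eq_smul_rep {T : Fin 3 → A} {P : (gen W).toAffine.Point}
    (hT : A.subtype ∘ T ≈ repK P) (hT0 : IsLocalRing.residue A ∘ T ≠ 0) :
    ∃ a : A, IsUnit a ∧ T = a • rep P := by
  obtain ⟨u, hu⟩ := hT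
  obtain ⟨i, hi⟩ := exists_rep_eq_one P
  have hu' : ∀ j, (u : K) * (rep P j : K) = (T j : K) := fun j => congr_fun hu j
  have hTi : (T i : K) = (u : K) := by rw [← hu' i, hi]; simp
  have hTj : ∀ j, T j = T i * rep P j := fun j => Subtype.ext (by
    show (T j : K) = (T i : K) * (rep P j : K)
    rw [hTi, hu' j])
  refine ⟨T i, (IsLocalRing.residue_ne_zero_iff_isUnit _).1 fun hz => hT0 (funext fun j => ?_),
    funext hTj⟩
  show IsLocalRing.residue A (T j) = 0
  rw [hTj j, map_mul, hz, zero_mul]

/-- An integral representative with nonzero reduction reduces to the reduced point. -/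
lemma equiv_repk_of_equiv {T : Fin 3 → A} {P : (gen W).toAffine.Point}
    (hT : A.subtype ∘ T ≈ repK P) (hT0 : IsLocalRing.residue A ∘ T ≠ 0) :
    IsLocalRing.residue A ∘ T ≈ repk P := by
  obtain ⟨a, ha, rfl⟩ := exists_isUnit_eq_smul_rep hT hT0
  exact ⟨(ha.map (IsLocalRing.residue A)).unit, funext fun j => (map_mul _ _ _).symm⟩

lemma not_equiv_repK {P Q : (gen W).toAffine.Point} (h : ¬repk P ≈ repk Q) :
    ¬repK P ≈ repK Q :=
  fun hK => h (equiv_repk_of_equiv hK (repk_ne_zero P))

variable [DecidableEq K]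

/-- The integral projective sum represents `P + Q`. -/
lemma addXYZ_rep_equiv_repK {P Q : (gen W).toAffine.Point} (h : ¬repk P ≈ repk Q) :
    A.subtype ∘ W.toProjective.addXYZ (rep P) (rep Q) ≈ repK (P + Q) := by
  rw [show A.subtype ∘ W.toProjective.addXYZ (rep P) (rep Q) =
      (gen W).toProjective.add (repK P) (repK Q) by
    rw [Projective.add_of_not_equiv (not_equiv_repK h)]
    exact (Projective.map_addXYZ _ _ _).symm]
  refine equiv_repK_of_toAffine_eq
    (Projective.nonsingular_add (repK_nonsingular P) (repK_nonsingular Q)) ?_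
  rw [Projective.Point.toAffine_add (repK_nonsingular P) (repK_nonsingular Q), toAffine_repK,
    toAffine_repK]

/-- If the reductions of `P` and `Q` differ and their projective sum reduces to a nonzero vector,
then this vector represents the reduction of `P + Q`. -/
lemma addXYZ_repk_equiv {P Q : (gen W).toAffine.Point} (h : ¬repk P ≈ repk Q)
    (h0 : (spc W).toProjective.addXYZ (repk P) (repk Q) ≠ 0) :
    (spc W).toProjective.addXYZ (repk P) (repk Q) ≈ repk (P + Q) := by
  have hk : IsLocalRing.residue A ∘ W.toProjective.addXYZ (rep P) (rep Q) =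
      (spc W).toProjective.addXYZ (repk P) (repk Q) := (Projective.map_addXYZ _ _ _).symm
  rw [← hk]
  exact equiv_repk_of_equiv (addXYZ_rep_equiv_repK h) (by rw [hk]; exact h0)

end FermatAgent.ECLocal
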