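import Fermat.Agent.ECLocal.Rational
import Fermat.Agent.ECLocal.Eisenstein
import Fermat.Agent.ECLocal.DivPoly
import Fermat.Agent.ECLocal.Line
import Fermat.Agent.EC.TorsionRat
import Fermat.Prelude.Def_EllipticCurve_FrobeniusTrace

/-!
# No stable line when all `p`-torsion lies in the kernel of reduction at `p`

In that case `preΨ' p` has Eisenstein shape, so `|x|^((p² - 1)/2) |p| = 1` at every nonzero
`p`-torsion point; the product of the abscissae over a stable line would then be a rational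
number of impossible valuation.
-/

set_option autoImplicit false

namespace FermatAgent.ECLocal

open WeierstrassCurve Polynomial
open scoped WeierstrassCurve.Affine

local notation "Qbar" => AlgebraicClosure ℚ

variable {W : WeierstrassCurve ℤ}

/-- The curve over `ℚ̄` is nonsingular. -/
lemma baseChange_Δ_ne (hΔ0 : W.Δ ≠ 0) :
    (((W.map (Int.castRingHom ℚ))⁄Qbar)).Δ ≠ 0 :=
  EC.baseChange_Δ_ne_zero (W.map (Int.castRingHom ℚ)) (EC.intMap_Δ_ne_zero hΔ0)

/-- If all `p`-torsion lies in the kernel of reduction, `preΨ' p` reduces to a constant. -/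
lemma residue_map_preΨ'_eq_C {A : ValuationSubring Qbar} {p : ℕ} (hodd : Odd p) (hΔ0 : W.Δ ≠ 0)
    (hall : ∀ P : ((W.map (Int.castRingHom ℚ))⁄Qbar).Point, p • P = 0 → IsE1 (toGen W A P)) :
    (spc (modelAt W A)).preΨ' p =
      C (IsLocalRing.residue A (((modelAt W A).preΨ' p).coeff 0)) := by
  have hV0 : ((W.map (Int.castRingHom ℚ))⁄Qbar).Δ ≠ 0 := baseChange_Δ_ne hΔ0
  set f : A[X] := (modelAt W A).preΨ' p with hfdef
  have hfK : f.map A.subtype = ((W.map (Int.castRingHom ℚ))⁄Qbar).preΨ' p := by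
    rw [hfdef, ← WeierstrassCurve.map_preΨ']
    congr 1
  rw [spc, WeierstrassCurve.map_preΨ', ← hfdef]
  refine residue_map_eq_C_of_roots_not_mem A (f := f) (IsAlgClosed.splits _) fun r hr => ?_
  rw [hfK] at hr
  obtain ⟨y', hy'⟩ := EC.exists_y_of_x hV0 r
  have h1 := hall _ ((EC.mem_roots_preΨ'_iff hV0 hodd hy').mpr (isRoot_of_mem_roots hr))
  erw [toGen_some] at h1
  exact (isE1_some_iff _).mp h1

/-- If all `p`-torsion reduces to zero, a nonzero `p`-torsion point has
`|x|^((p² - 1)/2) |p| = 1`. -/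
lemma valuation_x_of_all_isE1 {A : ValuationSubring Qbar} {p : ℕ} (hp : p.Prime) (hodd : Odd p)
    (hA : A.LiesOverPrime p) (hΔ0 : W.Δ ≠ 0)
    (hx₁ : ∃ x₁ : IsLocalRing.ResidueField A,
      (spc (modelAt W A)).Ψ₂Sq.eval x₁ = 0 ∧ (spc (modelAt W A)).Ψ₃.eval x₁ ≠ 0)
    (hall : ∀ P : ((W.map (Int.castRingHom ℚ))⁄Qbar).Point, p • P = 0 → IsE1 (toGen W A P))
    {x y : Qbar} (h : ((W.map (Int.castRingHom ℚ))⁄Qbar).toAffine.Nonsingular x y)
    (hn : p • (Affine.Point.some x y h) = 0) :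
    1 < A.valuation x ∧ A.valuation x ^ ((p ^ 2 - 1) / 2) * A.valuation (p : Qbar) = 1 := by
  have hV0 : ((W.map (Int.castRingHom ℚ))⁄Qbar).Δ ≠ 0 := baseChange_Δ_ne hΔ0
  have hpK : (p : Qbar) ≠ 0 := Nat.cast_ne_zero.mpr hp.ne_zero
  set f : A[X] := (modelAt W A).preΨ' p with hfdef
  have hfK : f.map A.subtype = ((W.map (Int.castRingHom ℚ))⁄Qbar).preΨ' p := by
    rw [hfdef, ← WeierstrassCurve.map_preΨ']
    congr 1
  have hspc := residue_map_preΨ'_eq_C hodd hΔ0 hall
  have hconst : f.map (IsLocalRing.residue A) = C (IsLocalRing.residue A (f.coeff 0)) := by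
    rwa [spc, WeierstrassCurve.map_preΨ'] at hspc
  have hc0 : A.valuation ((f.coeff 0 : A) : Qbar) = 1 := by
    rw [← residue_ne_zero_iff]
    intro h0
    obtain ⟨x₁, h2, h3⟩ := hx₁
    refine preΨ'_eval_ne_zero (spc (modelAt W A)) h2 h3 hodd ?_
    rw [hspc, h0, map_zero, eval_zero]
  have hx1 : 1 < A.valuation x := by
    rw [one_lt_valuation_iff]
    have h1 := hall _ hn
    erw [toGen_some] at h1
    exact (isE1_some_iff _).mp h1
  refine ⟨hx1, ?_⟩
  set D := (p ^ 2 - 1) / 2 with hD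
  have hdeg : (f.map A.subtype).natDegree = D := by
    rw [hfK, WeierstrassCurve.natDegree_preΨ' ((W.map (Int.castRingHom ℚ))⁄Qbar) hpK,
      if_neg (Nat.not_even_iff_odd.mpr hodd)]
  have hlead : ((f.coeff D : A) : Qbar) = (p : Qbar) := by
    have e : (f.map A.subtype).coeff D = (p : Qbar) := by
      rw [hfK, hD]
      have := WeierstrassCurve.coeff_preΨ' ((W.map (Int.castRingHom ℚ))⁄Qbar) p
      rw [if_neg (Nat.not_even_iff_odd.mpr hodd), if_neg (Nat.not_even_iff_odd.mpr hodd)] at this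
      exact_mod_cast this
    rwa [coeff_map] at e
  have hD0 : 0 < D := by
    have h3 := hp.two_le
    have : 4 ≤ p ^ 2 := by nlinarith
    omega
  have hcoeff : ∀ i, 0 < i → A.valuation ((f.coeff i : A) : Qbar) ≤ A.valuation (p : Qbar) := by
    intro i hi
    have h0 : IsLocalRing.residue A (f.coeff i) = 0 := by
      have e := congr_arg (fun q => q.coeff i) hconst
      simpa [coeff_map, coeff_C, hi.ne'] using e
    have e : f.coeff i = ((W.preΨ' p).coeff i : A) := by
      rw [hfdef, modelAt, WeierstrassCurve.map_preΨ', coeff_map]; rfl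
    rw [e, residue_intCast_eq_zero_iff hp hA] at h0
    obtain ⟨m, hm⟩ := h0
    rw [e, hm]
    push_cast
    rw [map_mul]
    exact mul_le_of_le_one_right' ((A.valuation_le_one_iff _).mpr (intCast_mem A m))
  have hroot : ∑ i ∈ Finset.range (D + 1), ((f.coeff i : A) : Qbar) * x ^ i = 0 := by
    have h1 := (EC.mem_roots_preΨ'_iff hV0 hodd h).mp hn
    rw [← hfK, Polynomial.eval_eq_sum_range, hdeg] at h1
    rw [← h1]
    exact Finset.sum_congr rfl fun i _ => by rw [coeff_map]; rfl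
  have := root_valuation_pow_mul A hD0 (c := fun i => ((f.coeff i : A) : Qbar)) hx1 hroot
    (fun i hi _ => by rw [hlead]; exact hcoeff i hi) hc0 (by rw [hlead]; exact hpK)
  rwa [hlead] at this

/-- The `x`-coordinate, or `1` at infinity. -/
noncomputable def xOrOne {V : Affine Qbar} : V.Point → Qbar
  | .zero => 1
  | .some x _ _ => x

/-- **If all `p`-torsion lies in the kernel of reduction at `p`, no line in `E[p]` is stable
under Galois.** -/
theorem no_stable_line_of_all_isE1 {A : ValuationSubring Qbar} {p : ℕ} [hp : Fact p.Prime]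
    (hodd : Odd p) (hA : A.LiesOverPrime p) (hΔ0 : W.Δ ≠ 0)
    (hx₁ : ∃ x₁ : IsLocalRing.ResidueField A,
      (spc (modelAt W A)).Ψ₂Sq.eval x₁ = 0 ∧ (spc (modelAt W A)).Ψ₃.eval x₁ ≠ 0)
    (hall : ∀ P : ((W.map (Int.castRingHom ℚ))⁄Qbar).Point, p • P = 0 → IsE1 (toGen W A P))
    {N : Submodule (ZMod p)
      (Submodule.torsionBy ℤ ((W.map (Int.castRingHom ℚ))⁄Qbar).Point p)}
    (hN : Affine.Point.IsGaloisStable ℚ N) (h0 : N ≠ ⊥) (h1 : N ≠ ⊤) : False := by
  classical
  have hΔQ := EC.intMap_Δ_ne_zero hΔ0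
  have hV2 := EC.finrank_torsionBy_rat (W.map (Int.castRingHom ℚ)) hΔQ p
  have hN1 := finrank_line hV2 h0 h1
  have : FiniteDimensional (ZMod p)
      (Submodule.torsionBy ℤ ((W.map (Int.castRingHom ℚ))⁄Qbar).Point p) :=
    Module.finite_of_finrank_eq_succ hV2
  have : Finite N := Module.finite_of_finite (ZMod p)
  have := Fintype.ofFinite N
  set s := (Finset.univ : Finset N).erase 0 with hs
  have hcard : s.card = p - 1 := by
    rw [hs, Finset.card_erase_of_mem (Finset.mem_univ _), Finset.card_univ,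
      Fintype.card_eq_nat_card, Module.natCard_eq_pow_finrank (K := ZMod p), hN1, pow_one,
      Nat.card_zmod]
  set z := ∏ P ∈ s, xOrOne P.1.1 with hz
  have hval : ∀ P ∈ s, 1 < A.valuation (xOrOne P.1.1) ∧
      A.valuation (xOrOne P.1.1) ^ ((p ^ 2 - 1) / 2) * A.valuation (p : Qbar) = 1 := by
    intro P hP
    have hP0 : P ≠ 0 := Finset.ne_of_mem_erase hP
    obtain ⟨⟨pt, hpt⟩, hmem⟩ := P
    have hn : p • pt = 0 := by
      rw [Submodule.mem_torsionBy_iff, natCast_zsmul] at hpt; exact hpt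
    rcases pt with _ | ⟨x, y, hxy⟩
    · exact absurd (Subtype.ext (Subtype.ext rfl)) hP0
    · exact valuation_x_of_all_isE1 hp.out hodd hA hΔ0 hx₁ hall hxy hn
  have hprod : A.valuation z ^ ((p ^ 2 - 1) / 2) * A.valuation (p : Qbar) ^ (p - 1) = 1 := by
    rw [hz, map_prod, ← Finset.prod_pow, ← hcard, ← Finset.prod_const, ← Finset.prod_mul_distrib]
    exact Finset.prod_eq_one fun P hP => (hval P hP).2
  have hfix : ∀ σ : Qbar ≃ₐ[ℚ] Qbar, σ z = z := by
    intro σ
    rw [hz, map_prod]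
    refine Finset.prod_bij' (fun P _ => (⟨σ • P.1, hN σ _ P.2⟩ : N))
      (fun P _ => (⟨σ⁻¹ • P.1, hN σ⁻¹ _ P.2⟩ : N)) ?_ ?_ ?_ ?_ ?_
    · intro P hP
      refine Finset.mem_erase.mpr
        ⟨fun h => Finset.ne_of_mem_erase hP (Subtype.ext ?_), Finset.mem_univ _⟩
      have h2 : σ • P.1 = 0 := congr_arg Subtype.val h
      rw [← inv_smul_smul σ P.1, h2, smul_zero]; rfl
    · intro P hP
      refine Finset.mem_erase.mpr
        ⟨fun h => Finset.ne_of_mem_erase hP (Subtype.ext ?_), Finset.mem_univ _⟩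
      have h2 : σ⁻¹ • P.1 = 0 := congr_arg Subtype.val h
      rw [← smul_inv_smul σ P.1, h2, smul_zero]; rfl
    · intro P _; exact Subtype.ext (inv_smul_smul σ P.1)
    · intro P _; exact Subtype.ext (smul_inv_smul σ P.1)
    · intro P _
      show σ (xOrOne P.1.1) = xOrOne (σ • P.1.1)
      rcases P.1.1 with _ | ⟨x, y, hxy⟩
      · exact map_one σ
      · rfl
  have hz0 : z ≠ 0 := by
    rw [hz, Finset.prod_ne_zero_iff]
    intro P hP h
    have := (hval P hP).1
    rw [h, map_zero] at this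
    exact not_lt_zero this
  obtain ⟨w, hw⟩ := exists_rat_of_fixed hfix
  obtain ⟨k, hk⟩ : ∃ k : ℤ, _ = _ ^ k := ⟨_, valuation_ratCast_eq_zpow hp.out hA (x := w)
    (fun h => hz0 (by rw [← hw, h, Rat.cast_zero]))⟩
  rw [hw] at hk
  have hp0 : A.valuation (p : Qbar) ≠ 0 :=
    (Valuation.ne_zero_iff _).mpr (Nat.cast_ne_zero.mpr hp.out.ne_zero)
  rw [hk, ← zpow_natCast, ← zpow_natCast, ← zpow_mul, ← zpow_add₀ hp0,
    ← zpow_zero (A.valuation (p : Qbar))] at hprod
  have hinj := zpow_right_injective₀ (zero_lt_iff.mpr hp0) (valuation_natCast_lt_one hA).ne hprod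
  have h2 := hp.out.two_le
  have hodd' : 3 ≤ p := by
    obtain ⟨j, hj⟩ := hodd; omega
  have hDle : p ≤ (p ^ 2 - 1) / 2 := by
    have : 3 * p ≤ p ^ 2 := by nlinarith
    omega
  have hdvd : (((p ^ 2 - 1) / 2 : ℕ) : ℤ) ∣ ((p - 1 : ℕ) : ℤ) := ⟨-k, by linarith⟩
  have := Nat.le_of_dvd (by omega) (Int.natCast_dvd_natCast.mp hdvd)
  omega

end FermatAgent.ECLocal
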