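import Mathlib

/-!
# Points of order `3` and `5` in normal form
-/

set_option autoImplicit false

namespace FermatAgent.ECLocal

open WeierstrassCurve

variable {F : Type*} [Field F] [DecidableEq F] (V : WeierstrassCurve F)

/-- Moving `(x₁, y₁)` to the origin with tangent `y = 0`. -/
lemma tangent_form {x₁ y₁ : F} (h : V.toAffine.Nonsingular x₁ y₁)
    (h2 : y₁ ≠ V.toAffine.negY x₁ y₁) :
    ∃ s : F, ((⟨1, x₁, s, y₁⟩ : VariableChange F) • V).a₄ = 0 ∧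
      ((⟨1, x₁, s, y₁⟩ : VariableChange F) • V).a₆ = 0 ∧
      ((⟨1, x₁, s, y₁⟩ : VariableChange F) • V).a₃ ≠ 0 ∧
      ∃ h', (Affine.Point.some x₁ y₁ h : V.toAffine.Point) + .some x₁ y₁ h =
        .some (x₁ - ((⟨1, x₁, s, y₁⟩ : VariableChange F) • V).a₂)
          (-y₁ - s * (-((⟨1, x₁, s, y₁⟩ : VariableChange F) • V).a₂)
            - V.a₁ * (x₁ - ((⟨1, x₁, s, y₁⟩ : VariableChange F) • V).a₂) - V.a₃) h' := by
  have hden : 2 * y₁ + V.a₁ * x₁ + V.a₃ ≠ 0 := fun h0 => h2 (by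
    rw [Affine.negY]; linear_combination h0)
  set s := V.toAffine.slope x₁ x₁ y₁ y₁ with hs
  have hsv : s * (2 * y₁ + V.a₁ * x₁ + V.a₃) =
      3 * x₁ ^ 2 + 2 * V.a₂ * x₁ + V.a₄ - V.a₁ * y₁ := by
    rw [hs, Affine.slope_of_Y_ne rfl h2, Affine.negY,
      show y₁ - (-y₁ - V.a₁ * x₁ - V.a₃) = 2 * y₁ + V.a₁ * x₁ + V.a₃ by ring,
      div_mul_cancel₀ _ hden]
  have e2 : ((⟨1, x₁, s, y₁⟩ : VariableChange F) • V).a₂ = V.a₂ - s * V.a₁ + 3 * x₁ - s ^ 2 := by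
    simp [variableChange_def]
  refine ⟨s, ?_, ?_, ?_, ?_⟩
  · simp only [variableChange_def, inv_one, Units.val_one, one_pow, one_mul]
    linear_combination -hsv
  · have he := (Affine.equation_iff ..).mp h.1
    simp only [variableChange_def, inv_one, Units.val_one, one_pow, one_mul]
    linear_combination -he
  · simp only [variableChange_def, inv_one, Units.val_one, one_pow, one_mul]
    contrapose! hden
    linear_combination hden
  · have hadd := Affine.Point.add_self_of_Y_ne (h₁ := h) h2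
    refine ⟨?_, ?_⟩
    swap
    · rw [hadd]
      simp only [Affine.Point.some.injEq, Affine.addY, Affine.addX, Affine.negAddY, Affine.negY,
        ← hs, e2]
      constructor <;> ring
    · have hn := Affine.nonsingular_add h h (fun hh => h2 hh.2)
      simp only [Affine.addY, Affine.addX, Affine.negAddY, Affine.negY, ← hs] at hn
      rw [e2]
      convert hn using 1 <;> ring

/-- An element killed by two and by an odd number is zero. -/
lemma eq_zero_of_two_nsmul {G : Type*} [AddCommGroup G] {g : G} {n : ℕ} (hn : Odd n)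
    (h2 : g + g = 0) (h : n • g = 0) : g = 0 := by
  obtain ⟨j, rfl⟩ := hn
  rwa [add_nsmul, one_nsmul, mul_nsmul, two_nsmul, h2, nsmul_zero, zero_add] at h

lemma Y_ne_negY_of_odd_torsion {x y : F} (h : V.toAffine.Nonsingular x y) {n : ℕ} (hn : Odd n)
    (hP : n • (Affine.Point.some x y h : V.toAffine.Point) = 0) : y ≠ V.toAffine.negY x y := by
  intro hy
  exact Affine.Point.some_ne_zero h
    (eq_zero_of_two_nsmul hn (Affine.Point.add_self_of_Y_eq hy) hP)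

omit [DecidableEq F] in
/-- The values of `Ψ₂²` and `Ψ₃` at a translated abscissa. -/
lemma eval_translate {x₁ s t x : F} :
    let V' := (⟨1, x₁, s, t⟩ : VariableChange F) • V
    V.Ψ₂Sq.eval (x₁ + x) = 4 * x ^ 3 + V'.b₂ * x ^ 2 + 2 * V'.b₄ * x + V'.b₆ ∧
      V.Ψ₃.eval (x₁ + x) = 3 * x ^ 4 + V'.b₂ * x ^ 3 + 3 * V'.b₄ * x ^ 2 +
        3 * V'.b₆ * x + V'.b₈ := by
  intro V'
  simp only [V', variableChange_b₂, variableChange_b₄, variableChange_b₆, variableChange_b₈,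
    inv_one, Units.val_one, one_pow, one_mul, WeierstrassCurve.Ψ₂Sq, WeierstrassCurve.Ψ₃,
    Polynomial.eval_add, Polynomial.eval_mul, Polynomial.eval_pow, Polynomial.eval_C,
    Polynomial.eval_X, Polynomial.eval_ofNat]
  constructor <;> ring

/-- A point of order three is a root of `Ψ₃`. -/
lemma Ψ₃_eval_eq_zero {x y : F} (h : V.toAffine.Nonsingular x y)
    (h3 : 3 • (Affine.Point.some x y h : V.toAffine.Point) = 0) : V.Ψ₃.eval x = 0 := by
  obtain ⟨s, e4, e6, -, h', e⟩ := tangent_form V h (Y_ne_negY_of_odd_torsion V h ⟨1, rfl⟩ h3)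
  set V' := (⟨1, x, s, y⟩ : VariableChange F) • V with hV'
  rw [show (3 : ℕ) = 2 + 1 from rfl, add_nsmul, one_nsmul, two_nsmul, e,
    ← eq_neg_iff_add_eq_zero, Affine.Point.neg_some] at h3
  injection h3 with hx hy
  have e2 : V'.a₂ = 0 := by linear_combination -hx
  have := (eval_translate V (x₁ := x) (s := s) (t := y) (x := 0)).2
  rw [← hV', add_zero] at this
  rw [this, show V'.b₈ = 0 by rw [WeierstrassCurve.b₈, e2, e4, e6]; ring]
  ring

/-- Tate normal form of a point of order five. -/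
lemma five_normal_form {x₁ y₁ : F} (h : V.toAffine.Nonsingular x₁ y₁)
    (h5 : 5 • (Affine.Point.some x₁ y₁ h : V.toAffine.Point) = 0) :
    ∃ s μ t : F, μ ≠ 0 ∧ t ≠ 0 ∧
      (∃ y₂ h₂, 2 • (Affine.Point.some x₁ y₁ h : V.toAffine.Point) = .some (x₁ + t * μ ^ 2) y₂ h₂) ∧
      let V' := (⟨1, x₁, s, y₁⟩ : VariableChange F) • V
      V'.a₁ = (1 - t) * μ ∧ V'.a₂ = -(t * μ ^ 2) ∧ V'.a₃ = -(t * μ ^ 3) ∧ V'.a₄ = 0 ∧
        V'.a₆ = 0 := by
  set P : V.toAffine.Point := .some x₁ y₁ h with hP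
  obtain ⟨s, e4, e6, e3, h', e⟩ := tangent_form V h (Y_ne_negY_of_odd_torsion V h ⟨2, rfl⟩ h5)
  set V' := (⟨1, x₁, s, y₁⟩ : VariableChange F) • V with hV'
  have f1 : V'.a₁ = V.a₁ + 2 * s := by simp [hV', variableChange_def]
  have f2 : V'.a₂ = V.a₂ - s * V.a₁ + 3 * x₁ - s ^ 2 := by simp [hV', variableChange_def]
  have f3 : V'.a₃ = V.a₃ + x₁ * V.a₁ + 2 * y₁ := by simp [hV', variableChange_def]
  have hP0 : P ≠ 0 := Affine.Point.some_ne_zero h
  set Q := P + P with hQ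
  have h5' : Q + Q + P = 0 := by
    rw [show Q + Q + P = 5 • P by rw [hQ]; abel]; exact h5
  -- `x(2P) ≠ x(P)`
  have e2 : V'.a₂ ≠ 0 := by
    intro h0
    obtain ⟨x₂, y₂, h₂, hx, eQ⟩ : ∃ x₂ y₂ h₂, x₁ = x₂ ∧ Q = .some x₂ y₂ h₂ :=
      ⟨_, _, h', by rw [h0, sub_zero], e⟩
    subst hx
    rcases Affine.Y_eq_of_X_eq h.1 h₂.1 rfl with hy | hy
    · subst hy
      exact hP0 (add_eq_left.mp (hQ ▸ eQ : P + P = P))
    · subst hy
      have hneg : Q = -P := by rw [eQ, hP, Affine.Point.neg_some]; simp only [Affine.negY_negY]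
      rw [hneg] at h5'
      exact hP0 (neg_eq_zero.mp (by rwa [neg_add_cancel_right] at h5'))
  -- `x(3P) = x(2P)`
  have h3P : P + Q = -Q := eq_neg_iff_add_eq_zero.mpr (by rw [← h5']; abel)
  have hne : x₁ ≠ x₁ - V'.a₂ := fun hh => e2 (by linear_combination hh)
  rw [e, hP, Affine.Point.neg_some, Affine.Point.add_of_X_ne (h₁ := h) (h₂ := h') hne] at h3P
  injection h3P with hx hy
  rw [Affine.slope_of_X_ne hne, Affine.addX] at hx
  set m := V'.a₃ / V'.a₂ with hm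
  have hsl : (y₁ - (-y₁ - s * (-V'.a₂) - V.a₁ * (x₁ - V'.a₂) - V.a₃)) / (x₁ - (x₁ - V'.a₂))
      = m - s - V.a₁ := by
    rw [hm, f3, sub_sub_cancel]
    field_simp
    ring
  rw [hsl, ← hV'] at hx
  have hrel : m ^ 2 - V'.a₁ * m + V'.a₂ = 0 := by
    rw [f1]
    linear_combination hx - f2
  have hm0 : m ≠ 0 := div_ne_zero e3 e2
  have hx2 : x₁ + -V'.a₂ / m ^ 2 * m ^ 2 = x₁ - V'.a₂ := by field_simp; ring
  refine ⟨s, m, -V'.a₂ / m ^ 2, hm0, div_ne_zero (neg_ne_zero.mpr e2) (pow_ne_zero 2 hm0),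
    ⟨-y₁ - s * (-V'.a₂) - V.a₁ * (x₁ - V'.a₂) - V.a₃, hx2 ▸ h', by
      rw [two_nsmul, ← hQ, e]
      simp only [Affine.Point.some.injEq]
      exact ⟨hx2.symm, rfl⟩⟩, ?_, ?_, ?_, e4, e6⟩
  · rw [← hV']; field_simp
    linear_combination -hrel
  · rw [← hV']; field_simp
  · have h3 : V'.a₃ = m * V'.a₂ := by rw [hm, div_mul_cancel₀ _ e2]
    rw [h3]
    field_simp

/-- The invariants of a point of order five and a point of order three. -/
theorem five_three_relations {x₁ y₁ x₃ y₃ : F} (h : V.toAffine.Nonsingular x₁ y₁)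
    (h5 : 5 • (Affine.Point.some x₁ y₁ h : V.toAffine.Point) = 0)
    (h3 : V.toAffine.Nonsingular x₃ y₃)
    (h33 : 3 • (Affine.Point.some x₃ y₃ h3 : V.toAffine.Point) = 0)
    {x₂ y₂ : F} (h2 : V.toAffine.Nonsingular x₂ y₂)
    (hd : 2 • (Affine.Point.some x₁ y₁ h : V.toAffine.Point) = .some x₂ y₂ h2)
    (n₁ : x₃ ≠ x₁) (n₂ : x₃ ≠ x₂) :
    ∀ t q g T : F, t = (x₂ - x₁) ^ 3 / V.Ψ₂Sq.eval x₁ → q = (x₃ - x₁) / (x₃ - x₂) →
      T = t * q → g = t * q ^ 2 →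
      t ≠ 0 ∧ q ≠ 0 ∧ (x₁ - x₂) ^ 3 / V.Ψ₂Sq.eval x₂ = -1 / t ∧
      g - g⁻¹ = T - T⁻¹ - 3 ∧
      V.c₄ ^ 3 * (t - t⁻¹ - 11) = V.Δ * ((t - t⁻¹ - 11) ^ 2 + 10 * (t - t⁻¹ - 11) + 5) ^ 3 := by
  obtain ⟨s, μ, t₀, hμ, ht₀, ⟨y₂', h₂', hd'⟩, e1, e2, e3, e4, e6⟩ := five_normal_form V h h5
  rw [hd] at hd'
  injection hd' with ex _
  subst ex
  intro t q g T et eq eT eg
  set V' := (⟨1, x₁, s, y₁⟩ : VariableChange F) • V with hV'
  have b2 : V'.b₂ = μ ^ 2 * (t₀ ^ 2 - 6 * t₀ + 1) := by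
    rw [WeierstrassCurve.b₂, e1, e2]; ring
  have b4 : V'.b₄ = -(μ ^ 4 * t₀ * (1 - t₀)) := by
    rw [WeierstrassCurve.b₄, e1, e3, e4]; ring
  have b6 : V'.b₆ = μ ^ 6 * t₀ ^ 2 := by rw [WeierstrassCurve.b₆, e3, e6]; ring
  have b8 : V'.b₈ = -(μ ^ 8 * t₀ ^ 3) := by
    rw [WeierstrassCurve.b₈, e1, e2, e3, e4, e6]; ring
  have hψ : V.Ψ₂Sq.eval x₁ = μ ^ 6 * t₀ ^ 2 := by
    have := (eval_translate V (x₁ := x₁) (s := s) (t := y₁) (x := 0)).1
    rw [← hV', add_zero, b6] at this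
    rw [this]; ring
  have hψ2 : V.Ψ₂Sq.eval (x₁ + t₀ * μ ^ 2) = μ ^ 6 * t₀ ^ 4 := by
    rw [(eval_translate V (x₁ := x₁) (s := s) (t := y₁) (x := t₀ * μ ^ 2)).1, ← hV', b2, b4, b6]
    ring
  have hψ3 := Ψ₃_eval_eq_zero V h3 h33
  rw [show x₃ = x₁ + (x₃ - x₁) by ring,
    (eval_translate V (x₁ := x₁) (s := s) (t := y₁) (x := x₃ - x₁)).2, ← hV', b2, b4, b6, b8] at hψ3
  have ht : t = t₀ := by rw [et, hψ]; field_simp; ring
  rw [ht] at eT eg ⊢
  have hq : q ≠ 0 := by rw [eq]; exact div_ne_zero (sub_ne_zero.mpr n₁) (sub_ne_zero.mpr n₂)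
  refine ⟨ht₀, hq, ?_, ?_, ?_⟩
  · rw [hψ2]; field_simp; ring
  · set w := x₃ - x₁ with hw
    have hw2 : x₃ - (x₁ + t₀ * μ ^ 2) = w - t₀ * μ ^ 2 := by ring
    have hw0 : w ≠ 0 := sub_ne_zero.mpr n₁
    have hw20 : w - t₀ * μ ^ 2 ≠ 0 := hw2 ▸ sub_ne_zero.mpr n₂
    rw [eT, eg, eq, hw2]
    field_simp
    linear_combination t₀ * hψ3
  · have hΔ : V'.Δ = V.Δ := by simp [hV', variableChange_Δ]
    have hc : V'.c₄ = V.c₄ := by simp [hV', variableChange_c₄]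
    rw [← hΔ, ← hc, WeierstrassCurve.c₄, WeierstrassCurve.Δ, b2, b4, b6, b8]
    field_simp
    ring

end FermatAgent.ECLocal
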