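import Mathlib.RingTheory.Valuation.ValuationSubring
import Mathlib.RingTheory.LocalRing.ResidueField.Basic
import Mathlib.RingTheory.Valuation.RamificationGroup
import Mathlib.Tactic.LinearCombination

/-!
# Elementary facts about valuation subrings
-/

set_option autoImplicit false

universe u

namespace FermatAgent.ECLocal

variable {K : Type u} [Field K] (A : ValuationSubring K)

/-- The residue vanishes iff the valuation is less than one. -/
lemma residue_eq_zero_iff (a : A) :
    IsLocalRing.residue A a = 0 ↔ A.valuation (a : K) < 1 := by
  rw [IsLocalRing.residue_eq_zero_iff]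
  exact A.valuation_lt_one_iff a

/-- The residue is nonzero iff the valuation is one. -/
lemma residue_ne_zero_iff (a : A) :
    IsLocalRing.residue A a ≠ 0 ↔ A.valuation (a : K) = 1 := by
  rw [Ne, residue_eq_zero_iff]
  exact ⟨fun h => (A.valuation_lt_one_or_eq_one a).resolve_left h,
    fun h => by rw [h]; exact lt_irrefl _⟩

/-- The valuation exceeds one exactly outside the ring. -/
lemma one_lt_valuation_iff {x : K} : 1 < A.valuation x ↔ x ∉ A := by
  rw [← A.valuation_le_one_iff, not_le]

/-- Elements of valuation less than one lie in the ring. -/
lemma mem_of_valuation_lt_one {x : K} (h : A.valuation x < 1) : x ∈ A :=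
  A.mem_of_valuation_le_one x h.le

/-- Residues agree iff the difference has valuation less than one. -/
lemma residue_eq_residue_iff (a b : A) :
    IsLocalRing.residue A a = IsLocalRing.residue A b ↔ A.valuation ((a : K) - (b : K)) < 1 := by
  rw [← sub_eq_zero, ← map_sub, residue_eq_zero_iff]
  push_cast
  rfl

/-- The inverse of an element outside lies in the ring. -/
lemma inv_mem_of_not_mem {x : K} (h : x ∉ A) : x⁻¹ ∈ A :=
  (A.mem_or_inv_mem x).resolve_left h

/-- An element outside is nonzero. -/
lemma ne_zero_of_not_mem {x : K} (h : x ∉ A) : x ≠ 0 := fun h0 => h (h0 ▸ A.zero_mem)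

end FermatAgent.ECLocal
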